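import Mathlib
import Fermat.Agent.S14.Interface
import Fermat.Agent.S14C.XDefs

/-!
# S14, team T2, crossing hedge: the leaf table (statements only)

Every leaf of the crossing argument is a `Prop`-valued definition `Leaf p : Prop`; a leaf owner
proves `theorem leaf {p : ℕ} [Fact p.Prime] ... : Leaf p` in a file of his own (possibly with other
leaves as explicit hypotheses).  Nothing in this file has a proof obligation.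

Language: `sym p ζ a P` (additive `p`-th power residue symbol, `Fermat.Agent.S14C.sym`),
`evalI Θ I` (sum of `Θ` over the prime factors of `I`), `InX` (the X-space), all from `XDefs`.
Number fields are `K F : Type`; primes are ideals `P` with `P.IsPrime` and `P ≠ ⊥`.

Chain:  `Top`  ⇐  `FIX` + `ThmR` + `ZSym` + `JacTop` + `EqLeaf`;
        `ThmR` ⇐  `PropX` + `ZSym`;
        `PropX` ⇐ `SIX` + `StepK` + `GaussSym` + `GaussOrd` + `KExt` + `KummerSplit` + `NormVal`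
                  + `NormCoprime` + `PR1` + `PR2` + `NormTower` + `CharKer` + the `Sym*` API.
-/

set_option autoImplicit false

open NumberField

namespace Fermat.Agent.S14C.Cross

/-! ## [Sym] API of the symbol `sym p ζ a P` (meaningful for `P ∌ p`, `a ∉ P`) -/

/-- The defining congruence `a ^ ((N P - 1) / p) ≡ ζ ^ sym (mod P)`. -/
def SymSpec (p : ℕ) : Prop :=
  ∀ (F : Type) [Field F] [NumberField F] (ζ a : 𝓞 F) (P : Ideal (𝓞 F)),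
    IsPrimitiveRoot ζ p → P.IsPrime → P ≠ ⊥ → (p : 𝓞 F) ∉ P → a ∉ P →
    a ^ ((Ideal.absNorm P - 1) / p) - ζ ^ (sym p ζ a P).val ∈ P

/-- Uniqueness: the congruence characterises the symbol. -/
def SymUnique (p : ℕ) : Prop :=
  ∀ (F : Type) [Field F] [NumberField F] (ζ a : 𝓞 F) (P : Ideal (𝓞 F)) (k : ZMod p),
    IsPrimitiveRoot ζ p → P.IsPrime → P ≠ ⊥ → (p : 𝓞 F) ∉ P →
    a ^ ((Ideal.absNorm P - 1) / p) - ζ ^ k.val ∈ P → sym p ζ a P = k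

/-- Powers of `ζ` are distinct modulo a prime not containing `p`. -/
def ZetaInj (p : ℕ) : Prop :=
  ∀ (F : Type) [Field F] [NumberField F] (ζ : 𝓞 F) (P : Ideal (𝓞 F)) (i j : ZMod p),
    IsPrimitiveRoot ζ p → P.IsPrime → (p : 𝓞 F) ∉ P → ζ ^ i.val - ζ ^ j.val ∈ P → i = j

/-- `p ∣ N P - 1` for a prime `P ∌ p` of a field containing `ζ_p`. -/
def SymDvd (p : ℕ) : Prop :=
  ∀ (F : Type) [Field F] [NumberField F] (ζ : 𝓞 F) (P : Ideal (𝓞 F)),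
    IsPrimitiveRoot ζ p → P.IsPrime → P ≠ ⊥ → (p : 𝓞 F) ∉ P → p ∣ Ideal.absNorm P - 1

/-- Additivity. -/
def SymMul (p : ℕ) : Prop :=
  ∀ (F : Type) [Field F] [NumberField F] (ζ a b : 𝓞 F) (P : Ideal (𝓞 F)),
    IsPrimitiveRoot ζ p → P.IsPrime → P ≠ ⊥ → (p : 𝓞 F) ∉ P → a ∉ P → b ∉ P →
    sym p ζ (a * b) P = sym p ζ a P + sym p ζ b P

/-- Powers. -/
def SymPow (p : ℕ) : Prop :=
  ∀ (F : Type) [Field F] [NumberField F] (ζ a : 𝓞 F) (P : Ideal (𝓞 F)) (n : ℕ),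
    IsPrimitiveRoot ζ p → P.IsPrime → P ≠ ⊥ → (p : 𝓞 F) ∉ P → a ∉ P →
    sym p ζ (a ^ n) P = (n : ZMod p) * sym p ζ a P

/-- The symbol only depends on `a` modulo `P`. -/
def SymCongr (p : ℕ) : Prop :=
  ∀ (F : Type) [Field F] [NumberField F] (ζ a b : 𝓞 F) (P : Ideal (𝓞 F)),
    a - b ∈ P → sym p ζ a P = sym p ζ b P

/-- `p`-th power residues have trivial symbol. -/
def SymPthPow (p : ℕ) : Prop :=
  ∀ (F : Type) [Field F] [NumberField F] (ζ a y : 𝓞 F) (P : Ideal (𝓞 F)),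
    IsPrimitiveRoot ζ p → P.IsPrime → P ≠ ⊥ → (p : 𝓞 F) ∉ P → a ∉ P → a - y ^ p ∈ P →
    sym p ζ a P = 0

/-- Converse: trivial symbol implies `p`-th power residue. -/
def SymZero (p : ℕ) : Prop :=
  ∀ (F : Type) [Field F] [NumberField F] (ζ a : 𝓞 F) (P : Ideal (𝓞 F)),
    IsPrimitiveRoot ζ p → P.IsPrime → P ≠ ⊥ → (p : 𝓞 F) ∉ P → a ∉ P → sym p ζ a P = 0 →
    ∃ y : 𝓞 F, a - y ^ p ∈ P

/-- Base change: for `F / K` and a prime `P` of `F` above `P ∩ K`, the symbol of an element of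
`K` at `P` is `f(P | P ∩ K)` times its symbol at `P ∩ K`. -/
def SymBase (p : ℕ) : Prop :=
  ∀ (K F : Type) [Field K] [NumberField K] [Field F] [NumberField F] [Algebra K F]
    (ζ a : 𝓞 K) (P : Ideal (𝓞 F)),
    IsPrimitiveRoot ζ p → P.IsPrime → P ≠ ⊥ → (p : 𝓞 F) ∉ P →
    algebraMap (𝓞 K) (𝓞 F) a ∉ P →
    sym p (algebraMap (𝓞 K) (𝓞 F) ζ) (algebraMap (𝓞 K) (𝓞 F) a) P =
      (P.inertiaDeg (𝓞 K) : ZMod p) * sym p ζ a (P.under (𝓞 K))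

/-- Galois transport: if `σ ζ = ζ ^ c` and `P = σ⁻¹ Q`, then `sym (σ a) Q = c * sym a P`. -/
def SymGal (p : ℕ) : Prop :=
  ∀ (K : Type) [Field K] [NumberField K] (ζ a : 𝓞 K) (P Q : Ideal (𝓞 K)) (σ : K ≃ₐ[ℚ] K) (c : ℕ),
    IsPrimitiveRoot ζ p → Q.IsPrime → Q ≠ ⊥ → (p : 𝓞 K) ∉ Q →
    (∀ x : 𝓞 K, x ∈ P ↔ σ • x ∈ Q) → a ∉ P → σ (ζ : K) = (ζ : K) ^ c →
    sym p ζ (σ • a) Q = (c : ZMod p) * sym p ζ a P

/-- [Eq] Equivariance of the symbol of an `ω²`-eigen-element: if `σ ζ = ζ ^ c` and `P = σ⁻¹ Q`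
then `sym α P = c * sym α Q`. -/
def EqLeaf (p : ℕ) : Prop :=
  ∀ (K : Type) [Field K] [NumberField K] (ζ α : 𝓞 K) (P Q : Ideal (𝓞 K)) (σ : K ≃ₐ[ℚ] K) (c : ℕ),
    IsPrimitiveRoot ζ p →
    (∀ (τ : K ≃ₐ[ℚ] K) (n : ℕ), τ (ζ : K) = (ζ : K) ^ n →
      ∃ y : K, τ (α : K) = (α : K) ^ (n ^ 2) * y ^ p) →
    Q.IsPrime → Q ≠ ⊥ → (p : 𝓞 K) ∉ Q → α ∉ Q → α ∉ P →
    (∀ x : 𝓞 K, x ∈ P ↔ σ • x ∈ Q) → σ (ζ : K) = (ζ : K) ^ c →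
    sym p ζ α P = (c : ZMod p) * sym p ζ α Q

/-! ## [Gauss] the `p`-th power of the Gauss sum, via Jacobi sums -/

/-- `g(χ)^p = χ(-1) · ℓ · ∏_{i=1}^{p-2} J(χ, χ^i)` for a character `χ` of order `p` of `𝔽_ℓ`. -/
noncomputable def gaussPow (p : ℕ) {ℓ : ℕ} [Fact ℓ.Prime] {R : Type*} [CommRing R]
    (χ : MulChar (ZMod ℓ) R) : R :=
  χ (-1) * (ℓ : R) * ∏ i ∈ Finset.Ico 1 (p - 1), jacobiSum χ (χ ^ i)

/-- [GaussSym] Explicit symbol of `gaussPow`: `G ^ ((N P - 1) / p) ≡ χ(N P)⁻¹ (mod P)` for every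
prime `P ∌ p ℓ` of every number field carrying `χ`. -/
def GaussSym (p : ℕ) : Prop :=
  ∀ (F : Type) [Field F] [NumberField F] (ℓ : ℕ) [Fact ℓ.Prime] (χ : MulChar (ZMod ℓ) (𝓞 F))
    (P : Ideal (𝓞 F)),
    orderOf χ = p → P.IsPrime → P ≠ ⊥ → (p : 𝓞 F) ∉ P → (ℓ : 𝓞 F) ∉ P →
    gaussPow p χ ^ ((Ideal.absNorm P - 1) / p) * χ ((Ideal.absNorm P : ℕ) : ZMod ℓ) - 1 ∈ P

/-- [GaussSym], symbol form (corollary of `GaussSym` + `SymUnique`): if `χ(N P) = ζ ^ k` then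
`sym (gaussPow p χ) P = -k`. -/
def GaussSymK (p : ℕ) : Prop :=
  ∀ (F : Type) [Field F] [NumberField F] (ℓ : ℕ) [Fact ℓ.Prime] (χ : MulChar (ZMod ℓ) (𝓞 F))
    (ζ : 𝓞 F) (P : Ideal (𝓞 F)) (k : ZMod p),
    IsPrimitiveRoot ζ p → orderOf χ = p → P.IsPrime → P ≠ ⊥ → (p : 𝓞 F) ∉ P → (ℓ : 𝓞 F) ∉ P →
    χ ((Ideal.absNorm P : ℕ) : ZMod ℓ) = ζ ^ k.val → sym p ζ (gaussPow p χ) P = -k

/-- [JacT] For a prime `P ∋ ℓ`, a character `χ` of order `p` of `𝔽_ℓ` is, modulo `P`, the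
power map `x ↦ x ^ (t (ℓ-1)/p)` for some `1 ≤ t < p`. -/
def JacT (p : ℕ) : Prop :=
  ∀ (K : Type) [Field K] [NumberField K] (ℓ : ℕ) [Fact ℓ.Prime] (χ : MulChar (ZMod ℓ) (𝓞 K))
    (P : Ideal (𝓞 K)),
    orderOf χ = p → P.IsPrime → (ℓ : 𝓞 K) ∈ P →
    ∃ t : ℕ, 1 ≤ t ∧ t < p ∧
      ∀ x : ZMod ℓ, χ x - ((x.val : ℕ) : 𝓞 K) ^ (t * ((ℓ - 1) / p)) ∈ P

/-- [JacVanish] Vanishing criterion: if `χ ≡ x ^ (t (ℓ-1)/p) (mod P)` then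
`J(χ^a, χ^b) ∈ P ↔ ⟨a t⟩ + ⟨b t⟩ < p` (power sums over `𝔽_ℓ`). -/
def JacVanish (p : ℕ) : Prop :=
  ∀ (K : Type) [Field K] [NumberField K] (ℓ : ℕ) [Fact ℓ.Prime] (χ : MulChar (ZMod ℓ) (𝓞 K))
    (P : Ideal (𝓞 K)) (t a b : ℕ),
    orderOf χ = p → P.IsPrime → (ℓ : 𝓞 K) ∈ P → 1 ≤ t → t < p →
    (∀ x : ZMod ℓ, χ x - ((x.val : ℕ) : 𝓞 K) ^ (t * ((ℓ - 1) / p)) ∈ P) →
    ¬ p ∣ a → ¬ p ∣ b →
    (jacobiSum (χ ^ a) (χ ^ b) ∈ P ↔ (a * t) % p + (b * t) % p < p)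

/-- [GaussOrd] `gaussPow` is a unit outside `ℓ`, and its valuation at every prime above `ℓ` is
prime to `p` (it is `e · (p - t)` with `e ≤ [K : ℚ] < p`, `1 ≤ t ≤ p - 1`). -/
def GaussOrd (p : ℕ) : Prop :=
  ∀ (K : Type) [Field K] [NumberField K] (ℓ : ℕ) [Fact ℓ.Prime] (χ : MulChar (ZMod ℓ) (𝓞 K)),
    Module.finrank ℚ K < p → orderOf χ = p →
    ∀ P : Ideal (𝓞 K), P.IsPrime → P ≠ ⊥ →
      (((ℓ : 𝓞 K) ∉ P → gaussPow p χ ∉ P) ∧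
       ((ℓ : 𝓞 K) ∈ P → ∃ k : ℕ, ¬ p ∣ k ∧ gaussPow p χ ∈ P ^ k ∧ gaussPow p χ ∉ P ^ (k + 1)))

/-- A character of order `p` of `𝔽_ℓ` (values in a domain) is trivial exactly on `p`-th powers. -/
def CharKer (p : ℕ) : Prop :=
  ∀ (R : Type) [CommRing R] [IsDomain R] (ℓ : ℕ) [Fact ℓ.Prime] (χ : MulChar (ZMod ℓ) R)
    (a : ZMod ℓ), orderOf χ = p → a ≠ 0 → χ a = 1 → ∃ y : ZMod ℓ, y ^ p = a

/-- [JacTop] The Jacobi sum of the `p`-th power residue character of a degree-one prime `Q` of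
`K = ℚ(ζ_p)`: `(J) = ∏_{c = 1}^{(p-1)/2} σ_c⁻¹ Q`. -/
def JacTop (p : ℕ) : Prop :=
  ∀ (K : Type) [Field K] [NumberField K] [IsCyclotomicExtension {p} ℚ K] (ζ : 𝓞 K)
    (Q : Ideal (𝓞 K)) (q : ℕ),
    IsPrimitiveRoot ζ p → Q.IsPrime → q.Prime → Ideal.absNorm Q = q → q ≠ p →
    ∃ (J : 𝓞 K) (Pc : ℕ → Ideal (𝓞 K)),
      J ∣ (q : 𝓞 K) ∧
      UniqueFactorizationMonoid.normalizedFactors (Ideal.span {J}) =
        (Multiset.Icc 1 ((p - 1) / 2)).map Pc ∧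
      ∀ c ∈ Finset.Icc 1 ((p - 1) / 2), ∃ σ : K ≃ₐ[ℚ] K,
        σ (ζ : K) = (ζ : K) ^ c ∧ ∀ x : 𝓞 K, x ∈ Pc c ↔ σ • x ∈ Q

/-! ## [StepK] the auxiliary prime `ℓ` -/

/-- For distinct primes `q₁, q₂ ≠ p` and any `c`, there is a prime `ℓ ≡ 1 (mod p)` outside a
given finite set such that `q₁` is not a `p`-th power mod `ℓ` but `q₂ · q₁ ^ c` is. -/
def StepK (p : ℕ) : Prop :=
  ∀ (q₁ q₂ c : ℕ) (T : Finset ℕ), q₁.Prime → q₂.Prime → q₁ ≠ q₂ → q₁ ≠ p → q₂ ≠ p →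
    ∃ ℓ : ℕ, ℓ.Prime ∧ ℓ ∉ T ∧ ℓ % p = 1 ∧ ℓ ≠ q₁ ∧ ℓ ≠ q₂ ∧
      (¬ ∃ y : ZMod ℓ, y ^ p = (q₁ : ZMod ℓ)) ∧
      ∃ y : ZMod ℓ, y ^ p = (q₂ : ZMod ℓ) * (q₁ : ZMod ℓ) ^ c

/-! ## [Kummer] the auxiliary field `F = K(μ^{1/p})` -/

/-- [KExt] Existence of `F = K(θ)`, `θ ^ p = μ` (continuation-passing form). -/
def KExt (p : ℕ) : Prop :=
  ∀ (K : Type) [Field K] [NumberField K] (ζ μ : 𝓞 K) (C : Prop),
    IsPrimitiveRoot ζ p → (¬ ∃ y : K, (μ : K) = y ^ p) →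
    (∀ (F : Type) [Field F] [NumberField F] [Algebra K F] [IsGalois K F],
      Module.finrank K F = p → ∀ θ : 𝓞 F, θ ^ p = algebraMap (𝓞 K) (𝓞 F) μ → C) → C

/-- [KummerSplit] A prime `P ∌ p μ` with `sym μ P = 0` has a prime of degree one above it in
`F = K(μ^{1/p})` (`μ` not a `p`-th power in `K`, so that `F = K(θ)`). -/
def KummerSplit (p : ℕ) : Prop :=
  ∀ (K F : Type) [Field K] [NumberField K] [Field F] [NumberField F] [Algebra K F] [IsGalois K F]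
    (ζ μ : 𝓞 K) (θ : 𝓞 F) (P : Ideal (𝓞 K)),
    IsPrimitiveRoot ζ p → (¬ ∃ y : K, (μ : K) = y ^ p) → Module.finrank K F = p →
    θ ^ p = algebraMap (𝓞 K) (𝓞 F) μ →
    P.IsPrime → P ≠ ⊥ → (p : 𝓞 K) ∉ P → μ ∉ P → sym p ζ μ P = 0 →
    ∃ 𝔅 : Ideal (𝓞 F), 𝔅.IsPrime ∧ 𝔅 ≠ ⊥ ∧ 𝔅.under (𝓞 K) = P ∧ 𝔅.inertiaDeg (𝓞 K) = 1

/-- An element with valuation prime to `p` at some prime is not a `p`-th power. -/
def NotPow (p : ℕ) : Prop :=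
  ∀ (K : Type) [Field K] [NumberField K] (μ : 𝓞 K) (𝔩 : Ideal (𝓞 K)) (k : ℕ),
    𝔩.IsPrime → 𝔩 ≠ ⊥ → ¬ p ∣ k → μ ∈ 𝔩 ^ k → μ ∉ 𝔩 ^ (k + 1) → ¬ ∃ y : K, (μ : K) = y ^ p

/-! ## [Norm] norms from `F` to `K` and to `ℚ` -/

/-- `Θ ∘ N_{F/K}` on primes: `𝔅 ↦ f(𝔅 | 𝔅 ∩ K) · Θ(𝔅 ∩ K)`. -/
noncomputable def liftTheta {p : ℕ} (K : Type) {F : Type} [Field K] [NumberField K] [Field F]
    [NumberField F] [Algebra K F] (Θ : Ideal (𝓞 K) → ZMod p) (𝔅 : Ideal (𝓞 F)) : ZMod p :=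
  (𝔅.inertiaDeg (𝓞 K) : ZMod p) * Θ (𝔅.under (𝓞 K))

/-- [NormVal] `evalI (Θ ∘ N) (x) = evalI Θ (N_{F/K} x)`. -/
def NormVal (p : ℕ) : Prop :=
  ∀ (K F : Type) [Field K] [NumberField K] [Field F] [NumberField F] [Algebra K F]
    (Θ : Ideal (𝓞 K) → ZMod p) (x : 𝓞 F), x ≠ 0 →
    evalI (liftTheta K Θ) (Ideal.span {x}) = evalI Θ (Ideal.span {RingOfIntegers.norm K x})

/-- [NormCoprime] The relative norm of an integer coprime to `n` is coprime to `n`. -/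
def NormCoprime : Prop :=
  ∀ (K F : Type) [Field K] [NumberField K] [Field F] [NumberField F] [Algebra K F]
    (x : 𝓞 F) (n : ℕ), IsCoprime x (n : 𝓞 F) → IsCoprime (RingOfIntegers.norm K x) (n : 𝓞 K)

/-- [NormTower] Transitivity of the norm on integers. -/
def NormTower : Prop :=
  ∀ (K F : Type) [Field K] [NumberField K] [Field F] [NumberField F] [Algebra K F] (x : 𝓞 F),
    Algebra.norm ℤ x = Algebra.norm ℤ (RingOfIntegers.norm K x)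

/-- [PR1] If `θ ^ p = μ` and `p ∤ ord_𝔩(μ)`, then `F / K` is totally ramified above `𝔩` and the
norm of every integer of `F` is a `p`-th power residue mod `𝔩`. -/
def PR1 (p : ℕ) : Prop :=
  ∀ (K F : Type) [Field K] [NumberField K] [Field F] [NumberField F] [Algebra K F] [IsGalois K F]
    (μ : 𝓞 K) (θ : 𝓞 F) (𝔩 : Ideal (𝓞 K)) (k : ℕ),
    Module.finrank K F = p → θ ^ p = algebraMap (𝓞 K) (𝓞 F) μ →
    𝔩.IsPrime → 𝔩 ≠ ⊥ → ¬ p ∣ k → μ ∈ 𝔩 ^ k → μ ∉ 𝔩 ^ (k + 1) →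
    ∀ x : 𝓞 F, ∃ c : 𝓞 K, RingOfIntegers.norm K x - c ^ p ∈ 𝔩

/-- [PR2] In a Galois number field of degree `< p`, an integer which is a `p`-th power residue
modulo every prime above `ℓ ≡ 1 (mod p)` has norm a `p`-th power mod `ℓ`. -/
def PR2 (p : ℕ) : Prop :=
  ∀ (K : Type) [Field K] [NumberField K] [IsGalois ℚ K] (ℓ : ℕ) [Fact ℓ.Prime] (z : 𝓞 K),
    Module.finrank ℚ K < p → ℓ % p = 1 →
    (∀ 𝔩 : Ideal (𝓞 K), 𝔩.IsPrime → (ℓ : 𝓞 K) ∈ 𝔩 → ∃ c : 𝓞 K, z - c ^ p ∈ 𝔩) →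
    ∃ n : ZMod ℓ, ((Algebra.norm ℤ z : ℤ) : ZMod ℓ) = n ^ p

/-! ## Assembly statements -/

/-- [PropX] The crossing proposition: every element of the X-space of `(K, α, m)` is
proportional to `sym α` on any two non-split primes of distinct residue characteristics. -/
def PropX (p : ℕ) : Prop :=
  ∀ (K : Type) [Field K] [NumberField K] [IsCyclotomicExtension {p} ℚ K] (ζ α : 𝓞 K) (m : ℕ)
    (Θ : Ideal (𝓞 K) → ZMod p) (P₁ P₂ : Ideal (𝓞 K)) (q₁ q₂ : ℕ),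
    IsPrimitiveRoot ζ p → p ∣ m →
    (∀ P : Ideal (𝓞 K), P.IsPrime → α ∈ P → (m : 𝓞 K) ∈ P) → InX p ζ α m Θ →
    P₁.IsPrime → P₁ ≠ ⊥ → (m : 𝓞 K) ∉ P₁ → P₂.IsPrime → P₂ ≠ ⊥ → (m : 𝓞 K) ∉ P₂ →
    q₁.Prime → q₂.Prime → q₁ ≠ q₂ → (q₁ : 𝓞 K) ∈ P₁ → (q₂ : 𝓞 K) ∈ P₂ →
    sym p ζ α P₁ ≠ 0 → sym p ζ α P₂ ≠ 0 →
    Θ P₁ * sym p ζ α P₂ = Θ P₂ * sym p ζ α P₁

/-- [ThmR] Every element of the X-space of `(K, α, m)` is a multiple of `sym α`. -/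
def ThmR (p : ℕ) : Prop :=
  ∀ (K : Type) [Field K] [NumberField K] [IsCyclotomicExtension {p} ℚ K] (ζ α : 𝓞 K) (m : ℕ)
    (Θ : Ideal (𝓞 K) → ZMod p),
    IsPrimitiveRoot ζ p → (¬ ∃ y : K, (α : K) = y ^ p) → m ≠ 0 → p ∣ m →
    (∀ P : Ideal (𝓞 K), P.IsPrime → α ∈ P → (m : 𝓞 K) ∈ P) → InX p ζ α m Θ →
    ∃ c : ZMod p, ∀ P : Ideal (𝓞 K), P.IsPrime → P ≠ ⊥ → (m : 𝓞 K) ∉ P →
      Θ P = c * sym p ζ α P

end Fermat.Agent.S14C.Cross
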