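import Mathlib
import Fermat.Agent.S14C.Cross.Plan

/-!
# S14, team T2, crossing hedge: the leaf `CharKer`

A multiplicative character `χ : MulChar (ZMod ℓ) R` of order exactly `p` is trivial exactly on the
`p`-th powers of `𝔽_ℓˣ`.

Main statements (all for `χ : MulChar (ZMod ℓ) R`, `ℓ` prime, `orderOf χ = p`):

* `charKer : Cross.CharKer p` — `a ≠ 0 → χ a = 1 → ∃ y, y ^ p = a`;
* `chi_pow_eq_one` — `y ≠ 0 → χ (y ^ p) = 1`;
* `chi_eq_one_iff` — `a ≠ 0 → (χ a = 1 ↔ ∃ y, y ^ p = a)`;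
* `exists_zmod_index` — for a primitive `p`-th root of unity `ζ : R` and `a ≠ 0` there is
  `k : ZMod p` with `χ a = ζ ^ k.val`;
* `existsUnique_zmod_index` — the same with uniqueness of `k`;
* `zmod_index_eq_zero_iff` — if `χ a = ζ ^ k.val` (`a ≠ 0`), then `k = 0 ↔ ∃ y, y ^ p = a`;
* `zmod_index_mul`, `zmod_index_pow` — additivity of the index;
* `dvd_pred` — `p ∣ ℓ - 1`;
* `exists_apply_eq_zeta` — `χ` takes the value `ζ` at some `a ≠ 0`.

Proof: `𝔽_ℓˣ` is cyclic with generator `g`; a character which is `1` at `g` is trivial, so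
`χ ^ n = 1 ↔ χ g ^ n = 1`; writing `a = g ^ k`, `χ a = 1` gives `χ ^ k = 1`, hence `p ∣ k`.
-/

set_option autoImplicit false

namespace Fermat.Agent.S14C.CharKer

/-! ### General form (no hypothesis on the order, nor on the ring of values) -/

/-- A character of `𝔽_ℓ` which is `1` at a generator `g` of `𝔽_ℓˣ` is trivial. -/
theorem eq_one_of_apply_generator {R : Type*} [CommRing R] {ℓ : ℕ} [Fact ℓ.Prime]
    (ψ : MulChar (ZMod ℓ) R) (g : (ZMod ℓ)ˣ)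
    (hg : ∀ u : (ZMod ℓ)ˣ, u ∈ Submonoid.powers g) (h : ψ (g : ZMod ℓ) = 1) : ψ = 1 := by
  rw [MulChar.eq_one_iff]
  intro u
  obtain ⟨k, rfl⟩ := (Submonoid.mem_powers_iff _ _).mp (hg u)
  rw [Units.val_pow_eq_pow_val, map_pow, h, one_pow]

/-- Core of `CharKer`: a character which is `1` at `a ≠ 0` is `1` only on `orderOf χ`-th
powers. -/
theorem exists_pow_eq_of_apply_eq_one {R : Type*} [CommRing R] {ℓ : ℕ} [Fact ℓ.Prime]
    (χ : MulChar (ZMod ℓ) R) {a : ZMod ℓ} (ha : a ≠ 0)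
    (h1 : χ a = 1) : ∃ y : ZMod ℓ, y ^ orderOf χ = a := by
  obtain ⟨g, hg⟩ := IsCyclic.exists_monoid_generator (α := (ZMod ℓ)ˣ)
  obtain ⟨u, rfl⟩ : ∃ u : (ZMod ℓ)ˣ, (u : ZMod ℓ) = a := ⟨Units.mk0 a ha, rfl⟩
  obtain ⟨k, rfl⟩ := (Submonoid.mem_powers_iff _ _).mp (hg u)
  have h2 : (χ ^ k) (g : ZMod ℓ) = 1 := by
    rw [MulChar.pow_apply_coe, ← map_pow, ← Units.val_pow_eq_pow_val]
    exact h1
  have h3 : χ ^ k = 1 := eq_one_of_apply_generator _ g hg h2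
  obtain ⟨m, rfl⟩ := orderOf_dvd_of_pow_eq_one h3
  exact ⟨((g ^ m : (ZMod ℓ)ˣ) : ZMod ℓ), by
    rw [Units.val_pow_eq_pow_val, Units.val_pow_eq_pow_val, ← pow_mul, mul_comm]⟩

/-- A character is trivial on nonzero `orderOf χ`-th powers. -/
theorem apply_pow_orderOf {R : Type*} [CommRing R] {ℓ : ℕ} [Fact ℓ.Prime]
    (χ : MulChar (ZMod ℓ) R) {y : ZMod ℓ} (hy : y ≠ 0) :
    χ (y ^ orderOf χ) = 1 := by
  rw [map_pow, ← MulChar.pow_apply' χ (MulChar.orderOf_pos χ).ne', pow_orderOf_eq_one]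
  exact MulChar.one_apply (isUnit_iff_ne_zero.mpr hy)

/-- The order of a character of `𝔽_ℓ` divides `ℓ - 1`. -/
theorem orderOf_dvd_pred {R : Type*} [CommRing R] {ℓ : ℕ} [Fact ℓ.Prime]
    (χ : MulChar (ZMod ℓ) R) : orderOf χ ∣ ℓ - 1 := by
  apply orderOf_dvd_of_pow_eq_one
  have h := MulChar.pow_card_eq_one χ
  rwa [ZMod.card_units_eq_totient, Nat.totient_prime Fact.out] at h

/-! ### The leaf -/

/-- **Leaf `CharKer`**: a character of order `p` of `𝔽_ℓ` which is `1` at `a ≠ 0` is `1` only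
on `p`-th powers. -/
theorem charKer {p : ℕ} [Fact p.Prime] : Fermat.Agent.S14C.Cross.CharKer p := by
  intro R _ _ ℓ _ χ a hχ ha h1
  subst hχ
  exact exists_pow_eq_of_apply_eq_one χ ha h1

/-! ### Converse-type facts for consumers -/

/-- (i) A character of order `p` is `1` on nonzero `p`-th powers. -/
theorem chi_pow_eq_one {p : ℕ} {R : Type*} [CommRing R] {ℓ : ℕ} [Fact ℓ.Prime]
    (χ : MulChar (ZMod ℓ) R) (hχ : orderOf χ = p) {y : ZMod ℓ} (hy : y ≠ 0) :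
    χ (y ^ p) = 1 := by
  subst hχ
  exact apply_pow_orderOf χ hy

/-- `CharKer` as an equivalence. -/
theorem chi_eq_one_iff {p : ℕ} {R : Type*} [CommRing R] {ℓ : ℕ} [Fact ℓ.Prime]
    (χ : MulChar (ZMod ℓ) R) (hχ : orderOf χ = p) {a : ZMod ℓ} (ha : a ≠ 0) :
    χ a = 1 ↔ ∃ y : ZMod ℓ, y ^ p = a := by
  subst hχ
  constructor
  · intro h1
    exact exists_pow_eq_of_apply_eq_one χ ha h1
  · rintro ⟨y, rfl⟩
    exact apply_pow_orderOf χ
      (fun h0 => ha (by rw [h0, zero_pow (MulChar.orderOf_pos χ).ne']))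

/-- `p ∣ ℓ - 1` as soon as `𝔽_ℓ` carries a character of order `p`. -/
theorem dvd_pred {p : ℕ} {R : Type*} [CommRing R] {ℓ : ℕ} [Fact ℓ.Prime]
    (χ : MulChar (ZMod ℓ) R) (hχ : orderOf χ = p) : p ∣ ℓ - 1 :=
  hχ ▸ orderOf_dvd_pred χ

/-- The values of a character of order `p` at nonzero arguments are `p`-th roots of unity. -/
theorem chi_apply_pow_eq_one {p : ℕ} {R : Type*} [CommRing R] {ℓ : ℕ} [Fact ℓ.Prime]
    (χ : MulChar (ZMod ℓ) R) (hχ : orderOf χ = p) {a : ZMod ℓ}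
    (ha : a ≠ 0) : χ a ^ p = 1 := by
  rw [← map_pow]
  exact chi_pow_eq_one χ hχ ha

/-- (ii) The values of a character of order `p` at nonzero arguments are powers of a given
primitive `p`-th root of unity `ζ`. -/
theorem exists_zmod_index {p : ℕ} [Fact p.Prime] {R : Type*} [CommRing R] [IsDomain R] {ℓ : ℕ}
    [Fact ℓ.Prime] (χ : MulChar (ZMod ℓ) R) (hχ : orderOf χ = p) {ζ : R}
    (hζ : IsPrimitiveRoot ζ p) {a : ZMod ℓ} (ha : a ≠ 0) : ∃ k : ZMod p, χ a = ζ ^ k.val := by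
  have : NeZero p := ⟨(Fact.out : p.Prime).ne_zero⟩
  obtain ⟨i, hi, hi'⟩ := hζ.eq_pow_of_pow_eq_one (chi_apply_pow_eq_one χ hχ ha)
  exact ⟨(i : ZMod p), by rw [ZMod.val_natCast_of_lt hi, hi']⟩

/-- Powers of a primitive `p`-th root of unity indexed by `ZMod p` are distinct. -/
theorem zeta_pow_val_inj {p : ℕ} [Fact p.Prime] {R : Type*} [CommRing R] {ζ : R}
    (hζ : IsPrimitiveRoot ζ p) {i j : ZMod p} (h : ζ ^ i.val = ζ ^ j.val) : i = j := by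
  have : NeZero p := ⟨(Fact.out : p.Prime).ne_zero⟩
  exact ZMod.val_injective p (hζ.pow_inj (ZMod.val_lt i) (ZMod.val_lt j) h)

/-- `ζ ^ (i + j).val = ζ ^ i.val * ζ ^ j.val` for a `p`-th root of unity `ζ`. -/
theorem zeta_pow_val_add {p : ℕ} [Fact p.Prime] {R : Type*} [CommRing R] {ζ : R}
    (hζ : ζ ^ p = 1) (i j : ZMod p) : ζ ^ (i + j).val = ζ ^ i.val * ζ ^ j.val := by
  have : NeZero p := ⟨(Fact.out : p.Prime).ne_zero⟩
  rw [← pow_add, ZMod.val_add, ← pow_mod_orderOf, ← pow_mod_orderOf ζ (i.val + j.val)]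
  congr 1
  exact Nat.mod_mod_of_dvd _ (orderOf_dvd_of_pow_eq_one hζ)

/-- `ζ ^ (n * i).val = (ζ ^ i.val) ^ n` for a `p`-th root of unity `ζ`. -/
theorem zeta_pow_val_nsmul {p : ℕ} [Fact p.Prime] {R : Type*} [CommRing R] {ζ : R}
    (hζ : ζ ^ p = 1) (n : ℕ) (i : ZMod p) : ζ ^ ((n : ZMod p) * i).val = (ζ ^ i.val) ^ n := by
  induction n with
  | zero => simp
  | succ n ih =>
    rw [Nat.cast_succ, add_mul, one_mul, zeta_pow_val_add hζ, ih, pow_succ]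

/-- (ii'), with uniqueness of the index. -/
theorem existsUnique_zmod_index {p : ℕ} [Fact p.Prime] {R : Type*} [CommRing R] [IsDomain R]
    {ℓ : ℕ} [Fact ℓ.Prime] (χ : MulChar (ZMod ℓ) R) (hχ : orderOf χ = p) {ζ : R}
    (hζ : IsPrimitiveRoot ζ p) {a : ZMod ℓ} (ha : a ≠ 0) : ∃! k : ZMod p, χ a = ζ ^ k.val := by
  obtain ⟨k, hk⟩ := exists_zmod_index χ hχ hζ ha
  exact ⟨k, hk, fun j hj => zeta_pow_val_inj hζ (hj.symm.trans hk)⟩

/-- The index of `a ≠ 0` vanishes iff `a` is a `p`-th power. -/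
theorem zmod_index_eq_zero_iff {p : ℕ} [Fact p.Prime] {R : Type*} [CommRing R] {ℓ : ℕ}
    [Fact ℓ.Prime] (χ : MulChar (ZMod ℓ) R) (hχ : orderOf χ = p) {ζ : R}
    (hζ : IsPrimitiveRoot ζ p) {a : ZMod ℓ} (ha : a ≠ 0) {k : ZMod p} (hk : χ a = ζ ^ k.val) :
    k = 0 ↔ ∃ y : ZMod ℓ, y ^ p = a := by
  rw [← chi_eq_one_iff χ hχ ha, hk]
  constructor
  · rintro rfl
    simp
  · intro h
    apply zeta_pow_val_inj hζ
    rw [h]
    simp

/-- Additivity of the index. -/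
theorem zmod_index_mul {p : ℕ} [Fact p.Prime] {R : Type*} [CommRing R] {ℓ : ℕ}
    (χ : MulChar (ZMod ℓ) R) {ζ : R} (hζ : ζ ^ p = 1)
    {a b : ZMod ℓ} {i j : ZMod p} (hi : χ a = ζ ^ i.val) (hj : χ b = ζ ^ j.val) :
    χ (a * b) = ζ ^ (i + j).val := by
  rw [map_mul, hi, hj, zeta_pow_val_add hζ]

/-- The index of a power. -/
theorem zmod_index_pow {p : ℕ} [Fact p.Prime] {R : Type*} [CommRing R] {ℓ : ℕ}
    (χ : MulChar (ZMod ℓ) R) {ζ : R} (hζ : ζ ^ p = 1)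
    {a : ZMod ℓ} {i : ZMod p} (hi : χ a = ζ ^ i.val) (n : ℕ) :
    χ (a ^ n) = ζ ^ ((n : ZMod p) * i).val := by
  rw [map_pow, hi, zeta_pow_val_nsmul hζ]

/-- A character of order `p` takes every `p`-th root of unity as a value: here the value `ζ`. -/
theorem exists_apply_eq_zeta {p : ℕ} [Fact p.Prime] {R : Type*} [CommRing R] [IsDomain R]
    {ℓ : ℕ} [Fact ℓ.Prime] (χ : MulChar (ZMod ℓ) R) (hχ : orderOf χ = p) {ζ : R}
    (hζ : IsPrimitiveRoot ζ p) : ∃ a : ZMod ℓ, a ≠ 0 ∧ χ a = ζ := by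
  have hp : p.Prime := Fact.out
  -- `χ` is not trivial, so some value is `ζ ^ k.val` with `k ≠ 0`
  have hne : χ ≠ 1 := by
    intro h
    rw [h, orderOf_one] at hχ
    exact hp.one_lt.ne hχ
  obtain ⟨u, hu⟩ := MulChar.ne_one_iff.mp hne
  obtain ⟨k, hk⟩ := exists_zmod_index χ hχ hζ u.ne_zero
  have hk0 : k ≠ 0 := by
    rintro rfl
    apply hu
    rw [hk]
    simp
  refine ⟨(u : ZMod ℓ) ^ (k⁻¹).val, pow_ne_zero _ u.ne_zero, ?_⟩
  have h1 := zmod_index_pow χ hζ.pow_eq_one hk (k⁻¹).val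
  rw [h1, ZMod.natCast_zmod_val, inv_mul_cancel₀ hk0, ZMod.val_one, pow_one]

end Fermat.Agent.S14C.CharKer
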