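import Mathlib

/-!
# S14 crossing hedge, block [GaussSym]: finite-field core

For a finite field `k` of cardinality `Q`, a prime `ℓ ≠ char k` and a multiplicative character
`χ : MulChar (ZMod ℓ) k` of order `p ≥ 2`, the element
`G := χ(-1) * ℓ * ∏_{i=1}^{p-2} J(χ, χ^i)` (the `p`-th power of a Gauss sum living in a cyclotomic
extension of `k`) satisfies `G ^ ((Q - 1) / p) = (χ Q)⁻¹`.
-/

set_option autoImplicit false

namespace Fermat.Agent.S14C.GaussCore

open Finset

/-- Iterated Frobenius on Gauss sums. -/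
theorem gaussSum_frob_pow {R : Type*} [CommRing R] [Fintype R] {R' : Type*} [CommRing R']
    (r : ℕ) [Fact r.Prime] [CharP R' r] (χ : MulChar R R') (ψ : AddChar R R') (n : ℕ) :
    gaussSum χ ψ ^ r ^ n = gaussSum (χ ^ r ^ n) (ψ ^ r ^ n) := by
  induction n with
  | zero => simp
  | succ n ih => rw [pow_succ, pow_mul, ih, gaussSum_frob, ← pow_mul, ← pow_mul]

variable {ℓ : ℕ} {k : Type*} [Field k] [Fintype k]

/-- The order of a character with values in a finite field `k` divides `#k - 1`. -/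
theorem orderOf_dvd_card_sub_one (χ : MulChar (ZMod ℓ) k) :
    orderOf χ ∣ Fintype.card k - 1 := by
  apply orderOf_dvd_of_pow_eq_one
  ext a
  have h1 : Fintype.card k - 1 ≠ 0 := by
    have := Fintype.one_lt_card (α := k)
    omega
  rw [MulChar.pow_apply' χ h1, MulChar.one_apply_coe]
  exact FiniteField.pow_card_sub_one_eq_one _ (a.isUnit.map χ).ne_zero

/-- **Finite-field core of [GaussSym].** -/
theorem gaussProd_pow_eq [Fact ℓ.Prime] (hℓ : ringChar k ≠ ℓ) (χ : MulChar (ZMod ℓ) k) {p : ℕ} (hp : 2 ≤ p)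
    (hχ : orderOf χ = p) :
    (χ (-1) * (ℓ : k) * ∏ i ∈ Ico 1 (p - 1), jacobiSum χ (χ ^ i)) ^ ((Fintype.card k - 1) / p)
      = (χ ((Fintype.card k : ℕ) : ZMod ℓ))⁻¹ := by
  classical
  set r := ringChar k with hr
  have hrp : Fact r.Prime := ⟨CharP.char_is_prime k r⟩
  obtain ⟨n, -, hcard⟩ := FiniteField.card k r
  have hchar : ringChar k ≠ ringChar (ZMod ℓ) := by rwa [ZMod.ringChar_zmod_n]
  let ψ := AddChar.FiniteField.primitiveChar (ZMod ℓ) k hchar
  let FF' := CyclotomicField ψ.n k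
  have hinj : Function.Injective (algebraMap k FF') := (algebraMap k FF').injective
  have : CharP FF' r := charP_of_injective_algebraMap hinj r
  let χ' := χ.ringHomComp (algebraMap k FF')
  have hχ' : orderOf χ' = p := by
    rw [← hχ]
    exact orderOf_injective (MulChar.ringHomCompHom (R := ZMod ℓ) (algebraMap k FF'))
      (MulChar.injective_ringHomComp hinj) χ
  have hχ1 : χ' ≠ 1 := by
    intro h
    rw [h, orderOf_one] at hχ'
    omega
  have hrl : r ≠ ℓ := hℓ
  have hℓ0 : ((ℓ : ℕ) : FF') ≠ 0 := by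
    intro h
    have := (CharP.cast_eq_zero_iff FF' r ℓ).mp h
    exact hrl ((Nat.prime_dvd_prime_iff_eq hrp.out (Fact.out : ℓ.Prime)).mp this)
  have hcardℓ : (Fintype.card (ZMod ℓ) : FF') ≠ 0 := by rwa [ZMod.card]
  set g := gaussSum χ' ψ.char with hg
  have hg0 : g ≠ 0 := gaussSum_ne_zero_of_nontrivial hcardℓ hχ1 ψ.prim
  -- the p-th power
  have hgp : g ^ p = algebraMap k FF'
      (χ (-1) * (ℓ : k) * ∏ i ∈ Ico 1 (p - 1), jacobiSum χ (χ ^ i)) := by
    have := gaussSum_pow_eq_prod_jacobiSum (χ := χ') (ψ := ψ.char) (by rw [hχ']; exact hp) ψ.prim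
    rw [hχ'] at this
    rw [this, map_mul, map_mul, map_prod, ZMod.card, map_natCast]
    congr 1
    refine Finset.prod_congr rfl fun i _ => ?_
    rw [MulChar.ringHomComp_pow, jacobiSum_ringHomComp]
  -- p divides Q - 1
  have hpQ : p ∣ Fintype.card k - 1 := hχ ▸ orderOf_dvd_card_sub_one χ
  have hQpos : 1 ≤ Fintype.card k := Fintype.card_pos
  -- Frobenius
  have hχpow : χ' ^ (r ^ (n : ℕ)) = χ' := by
    have h1 : r ^ (n : ℕ) = (Fintype.card k - 1) + 1 := by rw [← hcard]; omega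
    rw [h1, pow_succ]
    obtain ⟨c, hc⟩ := hpQ
    rw [hc, pow_mul, ← hχ', pow_orderOf_eq_one, one_pow, one_mul]
  have hcop : Nat.Coprime (r ^ (n : ℕ)) ℓ := by
    apply Nat.Coprime.pow_left
    exact (Nat.coprime_primes hrp.out (Fact.out : ℓ.Prime)).mpr hrl
  let u : (ZMod ℓ)ˣ := ZMod.unitOfCoprime (r ^ (n : ℕ)) hcop
  have hu : (u : ZMod ℓ) = ((r ^ (n : ℕ) : ℕ) : ZMod ℓ) := ZMod.coe_unitOfCoprime _ hcop
  have hgQ : g ^ (r ^ (n : ℕ)) = (χ' (u : ZMod ℓ))⁻¹ * g := by
    rw [hg, gaussSum_frob_pow r χ' ψ.char n, hχpow, AddChar.pow_mulShift, ← hu,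
      gaussSum_mulShift_eq, MulChar.inv_apply_eq_inv']
  have hgQ1 : g ^ (Fintype.card k - 1) = (χ' (u : ZMod ℓ))⁻¹ := by
    apply mul_right_cancel₀ hg0
    rw [← pow_succ, ← hgQ]
    congr 1
    rw [← hcard]; omega
  apply hinj
  rw [map_pow, ← hgp, ← pow_mul, Nat.mul_div_cancel' hpQ, hgQ1, map_inv₀, hcard, ← hu]
  rfl

end Fermat.Agent.S14C.GaussCore
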