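/-
S14, team T2 (crossing hedge), leaf [GaussOrd].  Owner: helper70.

`gaussPow p χ = χ(-1) · ℓ · ∏_{1 ≤ i < p-1} J(χ, χ^i)` is a unit outside `ℓ`, and at a prime
`P ∣ ℓ` its valuation is `e · (1 + c)` with `e = ord_P(ℓ) ≤ [K : ℚ] < p` and `0 ≤ c ≤ p - 2`,
hence prime to `p`.  Input: `J(χ, χ^i) · J(χ^{p-1}, χ^{p-i}) = ℓ` and, by `JacVanish`, the two
factors are never both in `P`.
-/
import Mathlib
import Fermat.Agent.S14C.Cross.Plan

set_option autoImplicit false

open NumberField

namespace Fermat.Agent.S14C.Cross.GaussOrd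

/-- Residues of two numbers with sum divisible by `p` add up to `p`. -/
theorem mod_add_mod_eq {p u v : ℕ} (hp : 0 < p) (hu : ¬ p ∣ u) (huv : p ∣ u + v) :
    u % p + v % p = p := by
  have h1 : u % p < p := Nat.mod_lt _ hp
  have h2 : v % p < p := Nat.mod_lt _ hp
  have h3 : 0 < u % p := Nat.pos_of_ne_zero (fun h => hu (Nat.dvd_of_mod_eq_zero h))
  have h4 : p ∣ u % p + v % p := by
    rw [Nat.dvd_iff_mod_eq_zero, ← Nat.add_mod]
    exact Nat.mod_eq_zero_of_dvd huv
  obtain ⟨c, hc⟩ := h4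
  rcases c with _ | _ | c
  · omega
  · omega
  · exfalso
    have : p * 2 ≤ p * (c + 1 + 1) := Nat.mul_le_mul_left _ (by omega)
    omega

section

variable {K : Type} [Field K] [NumberField K] {ℓ : ℕ} [Fact ℓ.Prime] {p : ℕ} [Fact p.Prime]

/-- `J(χ, χ^i) · J(χ^{p-1}, χ^{p-i}) = ℓ` for `1 ≤ i ≤ p - 2`. -/
theorem jacobiSum_mul_jacobiSum_compl (χ : MulChar (ZMod ℓ) (𝓞 K)) (hχ : orderOf χ = p) {i : ℕ}
    (hi1 : 1 ≤ i) (hi2 : i + 1 < p) :
    jacobiSum χ (χ ^ i) * jacobiSum (χ ^ (p - 1)) (χ ^ (p - i)) = (ℓ : 𝓞 K) := by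
  have hinj : Function.Injective (algebraMap (𝓞 K) K) := RingOfIntegers.coe_injective
  apply hinj
  have hχ' : orderOf (χ.ringHomComp (algebraMap (𝓞 K) K)) = p := by
    rw [← hχ]
    exact orderOf_injective (MulChar.ringHomCompHom (R := ZMod ℓ) (algebraMap (𝓞 K) K))
      (MulChar.injective_ringHomComp hinj) χ
  have hchar : ringChar K ≠ ringChar (ZMod ℓ) := by
    rw [ZMod.ringChar_zmod_n, ringChar.eq_zero]
    exact (Fact.out : ℓ.Prime).ne_zero.symm
  have hp1 : 1 < p := (Fact.out : p.Prime).one_lt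
  have h1 : χ.ringHomComp (algebraMap (𝓞 K) K) ≠ 1 := by
    intro h
    rw [h, orderOf_one] at hχ'
    omega
  have h2 : χ.ringHomComp (algebraMap (𝓞 K) K) ^ i ≠ 1 :=
    pow_ne_one_of_lt_orderOf (by omega) (by rw [hχ']; omega)
  have h3 : χ.ringHomComp (algebraMap (𝓞 K) K) * χ.ringHomComp (algebraMap (𝓞 K) K) ^ i ≠ 1 := by
    rw [← pow_succ']
    exact pow_ne_one_of_lt_orderOf (by omega) (by rw [hχ']; omega)
  have hinv1 : (χ.ringHomComp (algebraMap (𝓞 K) K))⁻¹
      = χ.ringHomComp (algebraMap (𝓞 K) K) ^ (p - 1) := by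
    apply inv_eq_of_mul_eq_one_right
    rw [← pow_succ', show p - 1 + 1 = p by omega, ← hχ', pow_orderOf_eq_one]
  have hinv2 : (χ.ringHomComp (algebraMap (𝓞 K) K) ^ i)⁻¹
      = χ.ringHomComp (algebraMap (𝓞 K) K) ^ (p - i) := by
    apply inv_eq_of_mul_eq_one_right
    rw [← pow_add, show i + (p - i) = p by omega, ← hχ', pow_orderOf_eq_one]
  have key := jacobiSum_mul_jacobiSum_inv hchar h1 h2 h3
  rw [hinv1, hinv2, ZMod.card, MulChar.ringHomComp_pow, MulChar.ringHomComp_pow,
    MulChar.ringHomComp_pow, jacobiSum_ringHomComp, jacobiSum_ringHomComp] at key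
  rw [map_mul, map_natCast]
  exact key

/-- **[GaussOrd]** (plan leaf). -/
theorem gaussOrd (hT : JacT p) (hV : JacVanish p) : GaussOrd p := by
  classical
  intro K _ _ ℓ _ χ hdeg hχ P hP hP0
  have hp : p.Prime := Fact.out
  have hℓ : ℓ.Prime := Fact.out
  have hneg : χ (-1) ∉ P := by
    intro h
    have h1 : χ (-1) * χ (-1) = 1 := by
      rw [← map_mul]
      simp
    exact hP.ne_top ((Ideal.eq_top_iff_one P).mpr (h1 ▸ P.mul_mem_left _ h))
  have hJ : ∀ i ∈ Finset.Ico 1 (p - 1),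
      jacobiSum χ (χ ^ i) * jacobiSum (χ ^ (p - 1)) (χ ^ (p - i)) = (ℓ : 𝓞 K) := by
    intro i hi
    rw [Finset.mem_Ico] at hi
    exact jacobiSum_mul_jacobiSum_compl χ hχ hi.1 (by omega)
  refine ⟨fun hℓP hG => ?_, fun hℓP => ?_⟩
  · -- `ℓ ∉ P`
    unfold gaussPow at hG
    rcases hP.mem_or_mem hG with h | h
    · rcases hP.mem_or_mem h with h | h
      · exact hneg h
      · exact hℓP h
    · obtain ⟨i, hi, hiP⟩ := (hP.prod_mem_iff).mp h
      exact hℓP (hJ i hi ▸ P.mul_mem_right _ hiP)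
  · -- `ℓ ∈ P`
    obtain ⟨t, ht1, htp, hcong⟩ := hT K ℓ χ P hχ hP hℓP
    have hprime : Prime P := Ideal.prime_of_isPrime hP0 hP
    have hvmul : ∀ x y : 𝓞 K, emultiplicity P (Ideal.span {x * y})
        = emultiplicity P (Ideal.span {x}) + emultiplicity P (Ideal.span {y}) := by
      intro x y
      rw [← Ideal.span_singleton_mul_span_singleton, emultiplicity_mul hprime]
    have hv0 : ∀ x : 𝓞 K, x ∉ P → emultiplicity P (Ideal.span {x}) = 0 := by
      intro x hx
      rw [emultiplicity_eq_zero, Ideal.dvd_span_singleton]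
      exact hx
    have hℓ0 : (ℓ : 𝓞 K) ≠ 0 := Nat.cast_ne_zero.mpr hℓ.ne_zero
    have hfin : FiniteMultiplicity P (Ideal.span {(ℓ : 𝓞 K)}) :=
      FiniteMultiplicity.of_prime_left hprime (by simpa using hℓ0)
    obtain ⟨e, he⟩ : ∃ e : ℕ, emultiplicity P (Ideal.span {(ℓ : 𝓞 K)}) = e :=
      ⟨_, hfin.emultiplicity_eq_multiplicity⟩
    have he1 : 1 ≤ e := by
      by_contra h
      have h0 : e = 0 := by omega
      rw [h0, Nat.cast_zero, emultiplicity_eq_zero] at he
      exact he (Ideal.dvd_span_singleton.mpr hℓP)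
    have hep : e < p := by
      have hnorm : (Algebra.norm ℤ (ℓ : 𝓞 K)).natAbs = ℓ ^ Module.finrank ℚ K := by
        have h : (ℓ : 𝓞 K) = algebraMap ℤ (𝓞 K) (ℓ : ℤ) := by simp
        rw [h, Algebra.norm_algebraMap, RingOfIntegers.rank, Int.natAbs_pow, Int.natAbs_natCast]
      have hdvd : P ^ e ∣ Ideal.span {(ℓ : 𝓞 K)} := (emultiplicity_eq_coe.mp he).1
      have hN := map_dvd Ideal.absNorm hdvd
      rw [map_pow, Ideal.absNorm_span_singleton, hnorm] at hN
      have hP1 : P ∣ Ideal.span {(ℓ : 𝓞 K)} := Ideal.dvd_span_singleton.mpr hℓP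
      have hN1 := map_dvd Ideal.absNorm hP1
      rw [Ideal.absNorm_span_singleton, hnorm] at hN1
      obtain ⟨f, hf, hfeq⟩ := (Nat.dvd_prime_pow hℓ).mp hN1
      have hf1 : 1 ≤ f := by
        by_contra h
        have h0 : f = 0 := by omega
        rw [h0, pow_zero] at hfeq
        exact hP.ne_top (Ideal.absNorm_eq_one_iff.mp hfeq)
      rw [hfeq, ← pow_mul] at hN
      have hle := (Nat.pow_dvd_pow_iff_le_right hℓ.one_lt).mp hN
      have : e ≤ f * e := Nat.le_mul_of_pos_left e hf1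
      omega
    have hvJ : ∀ i ∈ Finset.Ico 1 (p - 1), emultiplicity P (Ideal.span {jacobiSum χ (χ ^ i)})
        = ((if jacobiSum χ (χ ^ i) ∈ P then e else 0 : ℕ) : ℕ∞) := by
      intro i hi
      have hi' := Finset.mem_Ico.mp hi
      split_ifs with hmem
      · have hnot : jacobiSum (χ ^ (p - 1)) (χ ^ (p - i)) ∉ P := by
          intro hmem'
          have hpi : ¬ p ∣ i := fun h => absurd (Nat.le_of_dvd (by omega) h) (by omega)
          have hpt : ¬ p ∣ t := fun h => absurd (Nat.le_of_dvd (by omega) h) (by omega)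
          have hA := (hV K ℓ χ P t 1 i hχ hP hℓP ht1 htp hcong
            (fun h => absurd (Nat.le_of_dvd (by omega) h) (by have := hp.two_le; omega)) hpi).mp
            (by rwa [pow_one])
          have hB := (hV K ℓ χ P t (p - 1) (p - i) hχ hP hℓP ht1 htp hcong
            (fun h => absurd (Nat.le_of_dvd (by have := hp.two_le; omega) h)
              (by have := hp.two_le; omega))
            (fun h => absurd (Nat.le_of_dvd (by omega) h) (by omega))).mp hmem'
          have e1 := mod_add_mod_eq hp.pos (u := 1 * t) (v := (p - 1) * t)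
            (by rwa [one_mul])
            (by rw [← add_mul, show 1 + (p - 1) = p by have := hp.two_le; omega]
                exact dvd_mul_right p t)
          have e2 := mod_add_mod_eq hp.pos (u := i * t) (v := (p - i) * t)
            (fun h => (hp.dvd_mul.mp h).elim hpi hpt)
            (by rw [← add_mul, show i + (p - i) = p by omega]
                exact dvd_mul_right p t)
          omega
        have h := hvmul (jacobiSum χ (χ ^ i)) (jacobiSum (χ ^ (p - 1)) (χ ^ (p - i)))
        rw [hJ i hi, he, hv0 _ hnot, add_zero] at h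
        exact h.symm
      · rw [hv0 _ hmem, Nat.cast_zero]
    have hvprod : emultiplicity P (Ideal.span {∏ i ∈ Finset.Ico 1 (p - 1), jacobiSum χ (χ ^ i)})
        = ∑ i ∈ Finset.Ico 1 (p - 1), emultiplicity P (Ideal.span {jacobiSum χ (χ ^ i)}) := by
      rw [← Ideal.prod_span_singleton]
      exact Finset.emultiplicity_prod hprime _ _
    have hvG : emultiplicity P (Ideal.span {gaussPow p χ})
        = ((e + ∑ i ∈ Finset.Ico 1 (p - 1), (if jacobiSum χ (χ ^ i) ∈ P then e else 0) : ℕ)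
            : ℕ∞) := by
      unfold gaussPow
      rw [hvmul, hvmul, hv0 _ hneg, zero_add, he, hvprod, Finset.sum_congr rfl hvJ, Nat.cast_add,
        Nat.cast_sum]
    refine ⟨e + ∑ i ∈ Finset.Ico 1 (p - 1), (if jacobiSum χ (χ ^ i) ∈ P then e else 0),
      ?_, ?_, ?_⟩
    · rw [Finset.sum_ite, Finset.sum_const, Finset.sum_const_zero, add_zero, smul_eq_mul]
      have hc : (Finset.filter (fun i => jacobiSum χ (χ ^ i) ∈ P) (Finset.Ico 1 (p - 1))).card
          ≤ p - 2 := by
        refine (Finset.card_filter_le _ _).trans ?_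
        rw [Nat.card_Ico]
        omega
      generalize (Finset.filter (fun i => jacobiSum χ (χ ^ i) ∈ P) (Finset.Ico 1 (p - 1))).card
        = c at hc ⊢
      have hk : e + c * e = e * (1 + c) := by ring
      rw [hk]
      intro hdvd
      have hp2 := hp.two_le
      rcases hp.dvd_mul.mp hdvd with h | h
      · exact absurd (Nat.le_of_dvd (by omega) h) (by omega)
      · exact absurd (Nat.le_of_dvd (by omega) h) (by omega)
    · exact Ideal.dvd_span_singleton.mp (emultiplicity_eq_coe.mp hvG).1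
    · exact fun h => (emultiplicity_eq_coe.mp hvG).2 (Ideal.dvd_span_singleton.mpr h)

end

end Fermat.Agent.S14C.Cross.GaussOrd
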