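import Fermat.Agent.S14C.Cross.Plan

/-!
# S14C / Cross : [GaussSym] — the power residue symbol of the `p`-th power of a Gauss sum

For a character `χ` of prime order `p` of `ZMod ℓ` with values in `𝓞 F` and
`G = χ(-1) · ℓ · ∏_{i=1}^{p-2} J(χ, χ^i)` (the `p`-th power of the Gauss sum of `χ`),
the symbol of `G` at a prime `P ∤ pℓ` of `F` is determined by `N P mod ℓ`:
`sym p ζ G P = -k` where `χ (N P) = ζ ^ k` (explicit reciprocity for the degree `p`
subextension of `F(ζ_ℓ)/F`, in symbol language).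

* `gaussPow_pow_card` : the finite field core, `G ^ ((q - 1) / p) = χ(q)⁻¹`.
* `sym_eq_of_mem` : uniqueness of the symbol.
* `sym_gaussPow` : the statement for number fields.
* `gaussSym : Cross.GaussSym p` and `gaussSymK : Cross.GaussSymK p` : the two leaves of
  `S14C/Cross/Plan.lean`.
-/

set_option autoImplicit false

open MulChar AddChar NumberField

namespace Fermat.Agent.S14C.Cross.GaussSymB

/-- Iterated Frobenius on Gauss sums. -/
theorem gaussSum_frob_iter' {R : Type*} [CommRing R] [Fintype R] {R' : Type*} [CommRing R']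
    (r : ℕ) [Fact r.Prime] [CharP R' r] (χ : MulChar R R') (ψ : AddChar R R') (n : ℕ) :
    gaussSum χ ψ ^ r ^ n = gaussSum (χ ^ r ^ n) (ψ ^ r ^ n) := by
  induction n with
  | zero => simp
  | succ n ih =>
    rw [pow_succ, pow_mul, ih, gaussSum_frob, ← pow_mul, ← pow_mul]

/-- Core of [GaussSym]: in a finite field `k` with `q` elements, for a character `χ` of prime
order `p` of `ZMod ℓ` (`ℓ` a prime different from the characteristic), the element
`G = χ(-1) · ℓ · ∏_{i=1}^{p-2} J(χ, χ^i)` satisfies `G ^ ((q - 1) / p) = χ(q)⁻¹`. -/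
theorem gaussPow_pow_card {k : Type*} [Field k] [Fintype k] {ℓ p : ℕ} [Fact ℓ.Prime]
    (hp : p.Prime) (hℓ : (ℓ : k) ≠ 0) (χ : MulChar (ZMod ℓ) k) (hχ : orderOf χ = p) :
    (χ (-1) * (ℓ : k) * ∏ i ∈ Finset.Ico 1 (p - 1), jacobiSum χ (χ ^ i)) ^
      ((Fintype.card k - 1) / p) = (χ ((Fintype.card k : ℕ) : ZMod ℓ))⁻¹ := by
  classical
  set q := Fintype.card k with hq
  -- the characteristic
  obtain ⟨r, hr⟩ := CharP.exists k
  have : Fact r.Prime := ⟨CharP.char_is_prime k r⟩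
  obtain ⟨n, hrp, hn⟩ := FiniteField.card k r
  have hrℓ : r ≠ ℓ := by
    rintro rfl
    exact hℓ (CharP.cast_eq_zero k r)
  have hchar : ringChar k ≠ ringChar (ZMod ℓ) := by
    rw [ringChar.eq k r, ZMod.ringChar_zmod_n]
    exact hrℓ
  -- the primitive additive character
  let ψ := FiniteField.primitiveChar (ZMod ℓ) k hchar
  let R' := CyclotomicField ψ.n k
  let f : k →+* R' := algebraMap k R'
  have hf : Function.Injective f := (algebraMap k R').injective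
  have : CharP R' r := charP_of_injective_algebraMap hf r
  let χ' : MulChar (ZMod ℓ) R' := χ.ringHomComp f
  have hχ' : orderOf χ' = p := by
    rw [← hχ]
    exact orderOf_injective (ringHomCompHom f) (injective_ringHomComp hf) χ
  have hχ1 : χ' ≠ 1 := by
    intro h
    rw [h, orderOf_one] at hχ'
    exact hp.one_lt.ne hχ'
  have hcard : (Fintype.card (ZMod ℓ) : R') ≠ 0 := by
    rw [ZMod.card]
    have : (ℓ : R') = f (ℓ : k) := by simp [f]
    rw [this]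
    exact fun h => hℓ (hf (by rw [h, map_zero]))
  have hg0 : gaussSum χ' ψ.char ≠ 0 := gaussSum_ne_zero_of_nontrivial hcard hχ1 ψ.prim
  -- `g ^ p = f G`
  have hgp : gaussSum χ' ψ.char ^ p =
      f (χ (-1) * (ℓ : k) * ∏ i ∈ Finset.Ico 1 (p - 1), jacobiSum χ (χ ^ i)) := by
    have h := gaussSum_pow_eq_prod_jacobiSum (χ := χ') (ψ := ψ.char)
      (by rw [hχ']; exact hp.two_le) ψ.prim
    rw [hχ'] at h
    have e1 : χ' (-1) = f (χ (-1)) := rfl
    have e2 : ((Fintype.card (ZMod ℓ) : ℕ) : R') = f (ℓ : k) := by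
      rw [ZMod.card]; simp [f]
    have e3 : ∏ i ∈ Finset.Ico 1 (p - 1), jacobiSum χ' (χ' ^ i) =
        ∏ i ∈ Finset.Ico 1 (p - 1), f (jacobiSum χ (χ ^ i)) := by
      refine Finset.prod_congr rfl fun i _ => ?_
      rw [← jacobiSum_ringHomComp, ← ringHomComp_pow]
    rw [h, map_mul, map_mul, map_prod, e1, e2, e3]
  -- `p ∣ q - 1`
  have hpq : p ∣ q - 1 := by
    rw [← hχ]
    apply orderOf_dvd_of_pow_eq_one
    ext x
    rw [pow_apply_coe, one_apply_coe]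
    have hx : χ x ≠ 0 := (x.isUnit.map χ).ne_zero
    exact FiniteField.pow_card_sub_one_eq_one _ hx
  have hq1 : 1 ≤ q := Fintype.card_pos
  -- `χ' ^ q = χ'`
  have hχq : χ' ^ q = χ' := by
    obtain ⟨c, hc⟩ := hpq
    have : q = p * c + 1 := by omega
    rw [this, pow_succ, pow_mul, ← hχ', pow_orderOf_eq_one, one_pow, one_mul]
  -- `q` is a unit mod `ℓ`
  have hqu : IsUnit ((q : ℕ) : ZMod ℓ) := by
    rw [hq, hn]
    push_cast
    refine IsUnit.pow _ ?_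
    rw [ZMod.isUnit_prime_iff_not_dvd (Fact.out : r.Prime)]
    intro hdvd
    exact hrℓ ((Nat.prime_dvd_prime_iff_eq Fact.out Fact.out).mp hdvd)
  -- `g ^ q = χ'⁻¹ q * g`
  have hgq : gaussSum χ' ψ.char ^ q = χ'⁻¹ ((q : ℕ) : ZMod ℓ) * gaussSum χ' ψ.char := by
    have h1 : gaussSum χ' ψ.char ^ q = gaussSum (χ' ^ q) (ψ.char ^ q) := by
      rw [hq, hn]
      exact gaussSum_frob_iter' r χ' ψ.char n
    rw [h1, hχq, pow_mulShift]
    have := gaussSum_mulShift_eq χ' ψ.char hqu.unit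
    rw [hqu.unit_spec] at this
    exact this
  -- conclusion
  apply hf
  rw [map_pow, ← hgp, ← pow_mul, Nat.mul_div_cancel' hpq, map_inv₀]
  have h2 : gaussSum χ' ψ.char ^ (q - 1) * gaussSum χ' ψ.char =
      χ'⁻¹ ((q : ℕ) : ZMod ℓ) * gaussSum χ' ψ.char := by
    rw [← pow_succ, Nat.sub_add_cancel hq1, hgq]
  have h3 := mul_right_cancel₀ hg0 h2
  rw [h3, inv_apply_eq_inv']
  simp [χ', f]

/-- The reduction of a primitive `p`-th root of unity modulo a prime not containing `p` is still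
a primitive `p`-th root of unity. -/
theorem isPrimitiveRoot_mk {R : Type*} [CommRing R] [IsDomain R] {p : ℕ} (hp : p.Prime) {ζ : R}
    (hζ : IsPrimitiveRoot ζ p) (P : Ideal R) [P.IsPrime] (hpP : (p : R) ∉ P) :
    IsPrimitiveRoot (Ideal.Quotient.mk P ζ) p := by
  have h1 : Ideal.Quotient.mk P ζ ≠ 1 := by
    intro h
    have hmem : ζ - 1 ∈ P := by
      rw [← Ideal.Quotient.eq_zero_iff_mem, map_sub, h, map_one, sub_self]
    exact hpP (P.mem_of_dvd (hζ.sub_one_dvd_natCast hp.one_lt) hmem)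
  have h2 : Ideal.Quotient.mk P ζ ^ p = 1 := by
    rw [← map_pow, hζ.pow_eq_one, map_one]
  have := IsPrimitiveRoot.orderOf (Ideal.Quotient.mk P ζ)
  rwa [orderOf_eq_prime (hp := ⟨hp⟩) h2 h1] at this

/-- Uniqueness of the symbol: if `a ^ ((N P - 1) / p) ≡ ζ ^ k mod P` then `sym p ζ a P = k`. -/
theorem sym_eq_of_mem {F : Type*} [Field F] [NumberField F] {p : ℕ} (hp : p.Prime) {ζ : 𝓞 F}
    (hζ : IsPrimitiveRoot ζ p) (a : 𝓞 F) (P : Ideal (𝓞 F)) [P.IsPrime] (hpP : (p : 𝓞 F) ∉ P)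
    (k : ZMod p) (hk : a ^ ((Ideal.absNorm P - 1) / p) - ζ ^ k.val ∈ P) : sym p ζ a P = k := by
  have : NeZero p := ⟨hp.ne_zero⟩
  have hex : ∃ k : ZMod p, a ^ ((Ideal.absNorm P - 1) / p) - ζ ^ k.val ∈ P := ⟨k, hk⟩
  rw [sym, dif_pos hex]
  have h1 := hex.choose_spec
  have h2 : ζ ^ hex.choose.val - ζ ^ k.val ∈ P := by
    have := P.sub_mem hk h1
    simpa using this
  have h3 : Ideal.Quotient.mk P ζ ^ hex.choose.val = Ideal.Quotient.mk P ζ ^ k.val := by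
    rw [← map_pow, ← map_pow, ← sub_eq_zero, ← map_sub, Ideal.Quotient.eq_zero_iff_mem]
    exact h2
  have h4 := (isPrimitiveRoot_mk hp hζ P hpP).pow_inj (ZMod.val_lt _) (ZMod.val_lt _) h3
  exact ZMod.val_injective p h4

/-- [GaussSym]: the symbol of `G = g(χ)^p = χ(-1) · ℓ · ∏_{i=1}^{p-2} J(χ, χ^i)` at a prime
`P ∤ pℓ` is `-ind_χ(N P)`: if `χ (N P) = ζ ^ k` then `sym p ζ G P = -k`. -/
theorem sym_gaussPow {p ℓ : ℕ} [Fact p.Prime] [Fact ℓ.Prime]
    {F : Type} [Field F] [NumberField F] (ζ : 𝓞 F) (hζ : IsPrimitiveRoot ζ p)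
    (χ : MulChar (ZMod ℓ) (𝓞 F)) (hχ : orderOf χ = p)
    (P : Ideal (𝓞 F)) (hP : P.IsPrime) (hP0 : P ≠ ⊥)
    (hpP : (p : 𝓞 F) ∉ P) (hℓP : (ℓ : 𝓞 F) ∉ P)
    (k : ZMod p) (hk : χ ((Ideal.absNorm P : ℕ) : ZMod ℓ) = ζ ^ k.val) :
    sym p ζ (χ (-1) * (ℓ : 𝓞 F) * ∏ i ∈ Finset.Ico 1 (p - 1), jacobiSum χ (χ ^ i)) P = -k := by
  classical
  have hp : p.Prime := Fact.out
  have : NeZero p := ⟨hp.ne_zero⟩
  have hmax : P.IsMaximal := hP.isMaximal hP0
  let : Field (𝓞 F ⧸ P) := Ideal.Quotient.field P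
  have : Finite (𝓞 F ⧸ P) := Ideal.finiteQuotientOfFreeOfNeBot P hP0
  let : Fintype (𝓞 F ⧸ P) := Fintype.ofFinite _
  have hcard : Fintype.card (𝓞 F ⧸ P) = Ideal.absNorm P := by
    rw [Ideal.absNorm_apply, Submodule.cardQuot_apply, Nat.card_eq_fintype_card]
  let φ : 𝓞 F →+* 𝓞 F ⧸ P := Ideal.Quotient.mk P
  have hζ' : IsPrimitiveRoot (φ ζ) p := isPrimitiveRoot_mk hp hζ P hpP
  let χb : MulChar (ZMod ℓ) (𝓞 F ⧸ P) := χ.ringHomComp φ
  -- `χb` still has order `p`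
  have hχp : χ ^ p = 1 := by rw [← hχ, pow_orderOf_eq_one]
  have hχb : orderOf χb = p := by
    have h1 : χb ^ p = 1 := by
      rw [ringHomComp_pow, hχp, ringHomComp_one]
    refine orderOf_eq_prime h1 ?_
    intro h
    -- `χ ≠ 1`, so some value is a nontrivial power of `ζ`
    have hne : χ ≠ 1 := by
      intro h'
      rw [h', orderOf_one] at hχ
      exact hp.one_lt.ne hχ
    obtain ⟨x, hx⟩ : ∃ x : (ZMod ℓ)ˣ, χ x ≠ 1 := by
      by_contra hcon
      push Not at hcon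
      exact hne (by ext x; rw [hcon x, one_apply_coe])
    have hxp : χ x ^ p = 1 := by
      rw [← pow_apply_coe, hχp, one_apply_coe]
    obtain ⟨j, hj, hjx⟩ := hζ.eq_pow_of_pow_eq_one hxp
    have hb : χb x = 1 := by rw [h, one_apply_coe]
    have hb' : φ ζ ^ j = φ ζ ^ 0 := by
      rw [pow_zero, ← map_pow, hjx]
      exact hb
    have hj0 := hζ'.pow_inj hj hp.pos hb'
    apply hx
    rw [← hjx, hj0, pow_zero]
  have hℓ' : ((ℓ : ℕ) : 𝓞 F ⧸ P) ≠ 0 := by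
    intro h
    apply hℓP
    rw [← Ideal.Quotient.eq_zero_iff_mem, map_natCast]
    exact h
  have hcore := gaussPow_pow_card hp hℓ' χb hχb
  rw [hcard] at hcore
  -- rewrite the left-hand side as the image of `G ^ ((N P - 1) / p)`
  have e3 : ∏ i ∈ Finset.Ico 1 (p - 1), jacobiSum χb (χb ^ i) =
      ∏ i ∈ Finset.Ico 1 (p - 1), φ (jacobiSum χ (χ ^ i)) := by
    refine Finset.prod_congr rfl fun i _ => ?_
    rw [← jacobiSum_ringHomComp, ← ringHomComp_pow]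
  have e1 : χb (-1) = φ (χ (-1)) := rfl
  have e2 : ((ℓ : ℕ) : 𝓞 F ⧸ P) = φ (ℓ : 𝓞 F) := (map_natCast φ ℓ).symm
  have e4 : χb ((Ideal.absNorm P : ℕ) : ZMod ℓ) = φ ζ ^ k.val := by
    change φ (χ _) = _
    rw [hk, map_pow]
  rw [e1, e2, e3, ← map_prod, ← map_mul, ← map_mul, ← map_pow, e4] at hcore
  -- `(φ ζ ^ k)⁻¹ = φ ζ ^ (-k)`
  have e5 : (φ ζ ^ k.val)⁻¹ = φ (ζ ^ (-k).val) := by
    rw [map_pow]
    apply inv_eq_of_mul_eq_one_right
    rw [← pow_add]
    have hdvd : p ∣ k.val + (-k).val := by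
      rw [← ZMod.natCast_eq_zero_iff]
      push_cast
      rw [ZMod.natCast_zmod_val, ZMod.natCast_zmod_val, add_neg_cancel]
    obtain ⟨c, hc⟩ := hdvd
    rw [hc, pow_mul, hζ'.pow_eq_one, one_pow]
  rw [e5] at hcore
  have := hP
  refine sym_eq_of_mem hp hζ _ P hpP (-k) ?_
  rw [← Ideal.Quotient.eq_zero_iff_mem, map_sub, sub_eq_zero]
  exact hcore

/-- Reduction of the Gauss-sum power modulo a prime `P ∤ ℓ` at which the reduced character still
has order `p`: `G ^ ((N P - 1) / p) * χ (N P) ≡ 1 mod P`. -/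
theorem gaussPow_mul_sub_one_mem {p ℓ : ℕ} [Fact ℓ.Prime] (hp : p.Prime)
    {F : Type} [Field F] [NumberField F]
    (χ : MulChar (ZMod ℓ) (𝓞 F)) (hχ : orderOf χ = p)
    (P : Ideal (𝓞 F)) (hP : P.IsPrime) (hP0 : P ≠ ⊥)
    (hpP : (p : 𝓞 F) ∉ P) (hℓP : (ℓ : 𝓞 F) ∉ P) :
    (χ (-1) * (ℓ : 𝓞 F) * ∏ i ∈ Finset.Ico 1 (p - 1), jacobiSum χ (χ ^ i)) ^
      ((Ideal.absNorm P - 1) / p) * χ ((Ideal.absNorm P : ℕ) : ZMod ℓ) - 1 ∈ P := by
  classical
  have : NeZero p := ⟨hp.ne_zero⟩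
  have hmax : P.IsMaximal := hP.isMaximal hP0
  let : Field (𝓞 F ⧸ P) := Ideal.Quotient.field P
  have : Finite (𝓞 F ⧸ P) := Ideal.finiteQuotientOfFreeOfNeBot P hP0
  let : Fintype (𝓞 F ⧸ P) := Fintype.ofFinite _
  have hcard : Fintype.card (𝓞 F ⧸ P) = Ideal.absNorm P := by
    rw [Ideal.absNorm_apply, Submodule.cardQuot_apply, Nat.card_eq_fintype_card]
  let φ : 𝓞 F →+* 𝓞 F ⧸ P := Ideal.Quotient.mk P
  let χb : MulChar (ZMod ℓ) (𝓞 F ⧸ P) := χ.ringHomComp φ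
  have hχp : χ ^ p = 1 := by rw [← hχ, pow_orderOf_eq_one]
  -- `χ ≠ 1`, so some value is a primitive `p`-th root of unity
  have hne : χ ≠ 1 := by
    intro h'
    rw [h', orderOf_one] at hχ
    exact hp.one_lt.ne hχ
  obtain ⟨x, hx⟩ : ∃ x : (ZMod ℓ)ˣ, χ x ≠ 1 := by
    by_contra hcon
    push Not at hcon
    exact hne (by ext x; rw [hcon x, one_apply_coe])
  have hxp : χ x ^ p = 1 := by
    rw [← pow_apply_coe, hχp, one_apply_coe]
  have hζ : IsPrimitiveRoot (χ x) p := by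
    have := IsPrimitiveRoot.orderOf (χ x)
    rwa [orderOf_eq_prime (hp := ⟨hp⟩) hxp hx] at this
  have hζ' : IsPrimitiveRoot (φ (χ x)) p := isPrimitiveRoot_mk hp hζ P hpP
  -- `χb` still has order `p`
  have hχb : orderOf χb = p := by
    have h1 : χb ^ p = 1 := by
      rw [ringHomComp_pow, hχp, ringHomComp_one]
    refine orderOf_eq_prime (hp := ⟨hp⟩) h1 ?_
    intro h
    have hb : χb x = 1 := by rw [h, one_apply_coe]
    exact hζ'.ne_one hp.one_lt hb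
  have hℓ' : ((ℓ : ℕ) : 𝓞 F ⧸ P) ≠ 0 := by
    intro h
    apply hℓP
    rw [← Ideal.Quotient.eq_zero_iff_mem, map_natCast]
    exact h
  have hcore := gaussPow_pow_card hp hℓ' χb hχb
  rw [hcard] at hcore
  have e3 : ∏ i ∈ Finset.Ico 1 (p - 1), jacobiSum χb (χb ^ i) =
      ∏ i ∈ Finset.Ico 1 (p - 1), φ (jacobiSum χ (χ ^ i)) := by
    refine Finset.prod_congr rfl fun i _ => ?_
    rw [← jacobiSum_ringHomComp, ← ringHomComp_pow]
  have e1 : χb (-1) = φ (χ (-1)) := rfl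
  have e2 : ((ℓ : ℕ) : 𝓞 F ⧸ P) = φ (ℓ : 𝓞 F) := (map_natCast φ ℓ).symm
  have e4 : χb ((Ideal.absNorm P : ℕ) : ZMod ℓ) = φ (χ ((Ideal.absNorm P : ℕ) : ZMod ℓ)) := rfl
  rw [e1, e2, e3, ← map_prod, ← map_mul, ← map_mul, ← map_pow, e4] at hcore
  -- `χ (N P)` is nonzero mod `P`: otherwise the left-hand side of `hcore` would be `0⁻¹ = 0`,
  -- but then `G ^ _ = 0`, and `G ^ _` is a unit mod `P` — we argue directly instead.
  have hunit : φ (χ ((Ideal.absNorm P : ℕ) : ZMod ℓ)) ≠ 0 := by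
    intro h0
    -- `χ (N P) ^ p` is `0` or `1`; it is `0` only if `N P` is not a unit mod `ℓ`
    by_cases hu : IsUnit (((Ideal.absNorm P : ℕ) : ZMod ℓ))
    · have h1 : χ ((Ideal.absNorm P : ℕ) : ZMod ℓ) ^ p = 1 := by
        obtain ⟨u, hu⟩ := hu
        rw [← hu, ← pow_apply_coe, hχp, one_apply_coe]
      have : φ (χ ((Ideal.absNorm P : ℕ) : ZMod ℓ)) ^ p = 1 := by
        rw [← map_pow, h1, map_one]
      rw [h0, zero_pow hp.ne_zero] at this
      exact zero_ne_one this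
    · -- `N P` is a power of the residue characteristic, which is not `ℓ`
      apply hu
      obtain ⟨r, hr⟩ := CharP.exists (𝓞 F ⧸ P)
      have hrp : Fact r.Prime := ⟨CharP.char_is_prime (𝓞 F ⧸ P) r⟩
      obtain ⟨n, -, hn⟩ := FiniteField.card (𝓞 F ⧸ P) r
      rw [← hcard, hn]
      push_cast
      refine IsUnit.pow _ ?_
      rw [ZMod.isUnit_prime_iff_not_dvd hrp.out]
      intro hdvd
      have hrℓ : r = ℓ := (Nat.prime_dvd_prime_iff_eq hrp.out Fact.out).mp hdvd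
      apply hℓ'
      rw [← hrℓ]
      exact CharP.cast_eq_zero _ r
  rw [← Ideal.Quotient.eq_zero_iff_mem, map_sub, map_mul, map_one, sub_eq_zero]
  change φ _ * φ _ = 1
  rw [hcore, inv_mul_cancel₀ hunit]

/-- Leaf [GaussSym] of `S14C/Cross/Plan.lean`. -/
theorem gaussSym {p : ℕ} [Fact p.Prime] : Cross.GaussSym p := by
  intro F _ _ ℓ _ χ P hχ hP hP0 hpP hℓP
  exact gaussPow_mul_sub_one_mem Fact.out χ hχ P hP hP0 hpP hℓP

/-- Leaf [GaussSymK] of `S14C/Cross/Plan.lean`. -/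
theorem gaussSymK {p : ℕ} [Fact p.Prime] : Cross.GaussSymK p := by
  intro F _ _ ℓ _ χ ζ P k hζ hχ hP hP0 hpP hℓP hk
  exact sym_gaussPow ζ hζ χ hχ P hP hP0 hpP hℓP k hk

end Fermat.Agent.S14C.Cross.GaussSymB
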