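import Mathlib
import Fermat.Agent.S14C.Cross.Plan

/-!
# S14, team T2 (crossing hedge), block [GaussSym]

For a prime `ℓ` and a multiplicative character `χ` of `ZMod ℓ` of prime order `p`, put
`G = gaussG p ℓ χ = χ(-1) · ℓ · ∏_{i=1}^{p-2} J(χ, χ^i)` (the `p`-th power of the Gauss sum
of `χ`; definitionally equal to `Cross.gaussPow p χ`).  For every number field `F` in which `χ` takes its values, and every prime `𝔅` of `F`
not above `p` or `ℓ`, the `p`-th power residue symbol of `G` at `𝔅` is the inverse of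
`χ (N 𝔅 mod ℓ)`: in additive notation, `sym p ζ G 𝔅 = - k` when `χ (N 𝔅) = ζ ^ k`.

The proof computes with the Gauss sum `g` of `χ` in a cyclotomic extension of the residue
field `𝓞 F ⧸ 𝔅`: `g ^ p = G`, `g ^ (N 𝔅) = χ (N 𝔅)⁻¹ · g` (Frobenius), `g ≠ 0`.
-/

set_option autoImplicit false

open NumberField

namespace Fermat.Agent.S14C.Cross.GaussSymC

/-- The element `χ(-1) · ℓ · ∏_{i=1}^{p-2} J(χ, χ^i)`; when `χ` has order `p` this is the
`p`-th power of the Gauss sum of `χ` (with respect to any primitive additive character). -/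
noncomputable def gaussG {R : Type*} [CommRing R] (p ℓ : ℕ) [Fact ℓ.Prime]
    (χ : MulChar (ZMod ℓ) R) : R :=
  χ (-1) * (ℓ : R) * ∏ i ∈ Finset.Ico 1 (p - 1), jacobiSum χ (χ ^ i)

/-- `gaussG` commutes with ring homomorphisms of the target. -/
theorem gaussG_ringHomComp {R R' : Type*} [CommRing R] [CommRing R'] (p ℓ : ℕ) [Fact ℓ.Prime]
    (χ : MulChar (ZMod ℓ) R) (f : R →+* R') :
    gaussG p ℓ (χ.ringHomComp f) = f (gaussG p ℓ χ) := by
  unfold gaussG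
  rw [map_mul, map_mul, map_prod, map_natCast]
  congr 1
  refine Finset.prod_congr rfl fun i _ => ?_
  rw [MulChar.ringHomComp_pow, jacobiSum_ringHomComp]

/-- Iterated Frobenius on Gauss sums. -/
theorem gaussSum_pow_char_pow {R : Type*} [CommRing R] [Fintype R] {R' : Type*} [CommRing R']
    (r : ℕ) [Fact r.Prime] [CharP R' r] (χ : MulChar R R') (ψ : AddChar R R') (f : ℕ) :
    gaussSum χ ψ ^ (r ^ f) = gaussSum (χ ^ (r ^ f)) (ψ ^ (r ^ f)) := by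
  induction f with
  | zero => simp
  | succ n ih => rw [pow_succ, pow_mul, ih, gaussSum_frob, ← pow_mul, ← pow_mul]

/-- Abstract core: in a field `R'` of characteristic `r ≠ ℓ`, for a character `χ` of order `p`
of `ZMod ℓ` and `N = r ^ f ≡ 1 mod p`, we have `G ^ ((N - 1) / p) · χ(N) = 1`. -/
theorem gaussG_pow_mul_eq_one {R' : Type*} [Field R'] {p ℓ r : ℕ} [Fact ℓ.Prime] [Fact r.Prime]
    [CharP R' r] (hrℓ : r ≠ ℓ) (χ : MulChar (ZMod ℓ) R') (hχ : orderOf χ = p) (hp : 2 ≤ p)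
    (ψ : AddChar (ZMod ℓ) R') (hψ : ψ.IsPrimitive) (f : ℕ) (hN : p ∣ r ^ f - 1) :
    gaussG p ℓ χ ≠ 0 ∧ gaussG p ℓ χ ^ ((r ^ f - 1) / p) * χ ((r ^ f : ℕ) : ZMod ℓ) = 1 := by
  have hℓp : ℓ.Prime := Fact.out
  have hrp : r.Prime := Fact.out
  have hχ1 : χ ≠ 1 := by
    rintro rfl
    rw [orderOf_one] at hχ
    omega
  -- `(ℓ : R') ≠ 0`
  have hℓR : ((Fintype.card (ZMod ℓ) : ℕ) : R') ≠ 0 := by
    rw [ZMod.card]
    intro h0
    have := (CharP.cast_eq_zero_iff R' r ℓ).mp h0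
    exact hrℓ ((Nat.prime_dvd_prime_iff_eq hrp hℓp).mp this)
  set g := gaussSum χ ψ with hg
  have hg0 : g ≠ 0 := gaussSum_ne_zero_of_nontrivial hℓR hχ1 hψ
  -- `g ^ p = G`
  have hgp : g ^ p = gaussG p ℓ χ := by
    have := gaussSum_pow_eq_prod_jacobiSum (χ := χ) (ψ := ψ) (by rw [hχ]; exact hp) hψ
    rw [hχ, ZMod.card] at this
    rw [hg, this, gaussG]
  have hr1 : 1 ≤ r ^ f := Nat.one_le_pow _ _ hrp.pos
  obtain ⟨m, hm⟩ := hN
  have hNm : r ^ f = 1 + p * m := by omega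
  -- `χ ^ N = χ`
  have hχN : χ ^ (r ^ f) = χ := by
    rw [hNm, pow_add, pow_one, pow_mul, ← hχ, pow_orderOf_eq_one, one_pow, mul_one]
  -- `N` is a unit mod `ℓ`
  have hcop : Nat.Coprime (r ^ f) ℓ :=
    Nat.Coprime.pow_left f ((Nat.coprime_primes hrp hℓp).mpr hrℓ)
  set u : (ZMod ℓ)ˣ := ZMod.unitOfCoprime (r ^ f) hcop with hu
  have hucoe : ((u : (ZMod ℓ)ˣ) : ZMod ℓ) = ((r ^ f : ℕ) : ZMod ℓ) := ZMod.coe_unitOfCoprime _ _
  -- Frobenius
  have hfrob : g ^ (r ^ f) = χ⁻¹ u * g := by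
    rw [hg, gaussSum_pow_char_pow, hχN, AddChar.pow_mulShift, ← hucoe, gaussSum_mulShift_eq]
  -- `χ(N) · g ^ N = g`
  have hmul : χ u * g ^ (r ^ f) = g := by
    rw [hfrob, ← mul_assoc, MulChar.inv_apply_eq_inv,
      Ring.mul_inverse_cancel _ (u.isUnit.map χ), one_mul]
  have hpow : g ^ (r ^ f - 1) * χ u = 1 := by
    have h1 : g ^ (r ^ f) = g ^ (r ^ f - 1) * g := by
      rw [← pow_succ, Nat.sub_add_cancel hr1]
    rw [h1] at hmul
    have h2 : (g ^ (r ^ f - 1) * χ u) * g = 1 * g := by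
      rw [one_mul]
      linear_combination hmul
    exact mul_right_cancel₀ hg0 h2
  refine ⟨by rw [← hgp]; exact pow_ne_zero _ hg0, ?_⟩
  have hpne : p ≠ 0 := by omega
  have hdiv : (r ^ f - 1) / p = m := by
    rw [hm]
    exact Nat.mul_div_cancel_left m (by omega)
  rw [← hgp, ← pow_mul, hdiv, ← hm, ← hucoe]
  exact hpow


section Residue

variable {R : Type*} [CommRing R] [IsDomain R]

/-- A `p`-th root of unity `w ≠ 1` of a domain is not congruent to `1` modulo an ideal which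
does not contain `p`. -/
theorem sub_one_not_mem {p : ℕ} {𝔅 : Ideal R} (hp𝔅 : (p : R) ∉ 𝔅) {w : R}
    (hw : w ^ p = 1) (hw1 : w ≠ 1) : w - 1 ∉ 𝔅 := by
  intro hmem
  have hsum : ∑ i ∈ Finset.range p, w ^ i = 0 := by
    have h1 : (w - 1) * ∑ i ∈ Finset.range p, w ^ i = 0 := by
      rw [mul_geom_sum, hw, sub_self]
    rcases mul_eq_zero.mp h1 with h | h
    · exact absurd (sub_eq_zero.mp h) hw1
    · exact h
  have hπ : Ideal.Quotient.mk 𝔅 w = 1 := by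
    rw [← map_one (Ideal.Quotient.mk 𝔅)]
    exact Ideal.Quotient.eq.mpr hmem
  have h2 : Ideal.Quotient.mk 𝔅 (∑ i ∈ Finset.range p, w ^ i) = (p : R ⧸ 𝔅) := by
    simp [map_sum, map_pow, hπ]
  rw [hsum, map_zero] at h2
  apply hp𝔅
  rw [← Ideal.Quotient.eq_zero_iff_mem, map_natCast]
  exact h2.symm

/-- The image of a primitive `p`-th root of unity in the residue ring of a prime not
containing `p` is still a primitive `p`-th root of unity. -/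
theorem isPrimitiveRoot_mk {p : ℕ} [Fact p.Prime] {ζ : R} (hζ : IsPrimitiveRoot ζ p)
    {𝔅 : Ideal R} (hp𝔅 : (p : R) ∉ 𝔅) : IsPrimitiveRoot (Ideal.Quotient.mk 𝔅 ζ) p := by
  have hp : p.Prime := Fact.out
  have hz1 : Ideal.Quotient.mk 𝔅 ζ ≠ 1 := by
    intro h
    rw [← map_one (Ideal.Quotient.mk 𝔅)] at h
    exact sub_one_not_mem hp𝔅 hζ.pow_eq_one (hζ.ne_one hp.one_lt) (Ideal.Quotient.eq.mp h)
  have hzp : Ideal.Quotient.mk 𝔅 ζ ^ p = 1 := by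
    rw [← map_pow, hζ.pow_eq_one, map_one]
  rw [← orderOf_eq_prime hzp hz1]
  exact IsPrimitiveRoot.orderOf _

/-- Powers of a primitive `p`-th root of unity are distinct modulo a prime not containing `p`. -/
theorem zeta_pow_inj_mod {p : ℕ} [Fact p.Prime] {ζ : R} (hζ : IsPrimitiveRoot ζ p)
    {𝔅 : Ideal R} (hp𝔅 : (p : R) ∉ 𝔅) {a b : ZMod p}
    (hab : ζ ^ a.val - ζ ^ b.val ∈ 𝔅) : a = b := by
  have hprim := isPrimitiveRoot_mk hζ hp𝔅
  have heq : Ideal.Quotient.mk 𝔅 ζ ^ a.val = Ideal.Quotient.mk 𝔅 ζ ^ b.val := by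
    rw [← map_pow, ← map_pow]
    exact Ideal.Quotient.eq.mpr hab
  have := hprim.pow_inj (ZMod.val_lt a) (ZMod.val_lt b) heq
  exact ZMod.val_injective p this

omit [IsDomain R] in
/-- `ζ ^ k.val * ζ ^ (-k).val = 1` for a `p`-th root of unity. -/
theorem zeta_pow_val_mul_neg {p : ℕ} [Fact p.Prime] {ζ : R} (hζ : ζ ^ p = 1) (k : ZMod p) :
    ζ ^ k.val * ζ ^ (-k).val = 1 := by
  rw [← pow_add]
  have h : ((k.val + (-k).val : ℕ) : ZMod p) = 0 := by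
    rw [Nat.cast_add, ZMod.natCast_zmod_val, ZMod.natCast_zmod_val, add_neg_cancel]
  obtain ⟨m, hm⟩ := (ZMod.natCast_eq_zero_iff _ _).mp h
  rw [hm, pow_mul, hζ, one_pow]

end Residue

section NumberFieldPart

variable {F : Type*} [Field F] [NumberField F]

/-- **[GaussSym], congruence form.** Let `χ` be a character of `ZMod ℓ` of order `p` with values
in `𝓞 F`, `G = gaussG p ℓ χ`, and `𝔅` a nonzero prime of `𝓞 F` containing neither `p` nor `ℓ`.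
Then `G ∉ 𝔅`, `p ∣ N 𝔅 - 1` and `G ^ ((N 𝔅 - 1) / p) · χ (N 𝔅) ≡ 1 mod 𝔅`. -/
theorem gaussG_pow_mul_sub_one_mem {p ℓ : ℕ} [Fact p.Prime] [Fact ℓ.Prime]
    (χ : MulChar (ZMod ℓ) (𝓞 F)) (hχo : orderOf χ = p)
    (𝔅 : Ideal (𝓞 F)) [𝔅.IsPrime] (h0 : 𝔅 ≠ ⊥) (hp𝔅 : (p : 𝓞 F) ∉ 𝔅) (hℓ𝔅 : (ℓ : 𝓞 F) ∉ 𝔅) :
    gaussG p ℓ χ ∉ 𝔅 ∧ p ∣ Ideal.absNorm 𝔅 - 1 ∧
      gaussG p ℓ χ ^ ((Ideal.absNorm 𝔅 - 1) / p) * χ ((Ideal.absNorm 𝔅 : ℕ) : ZMod ℓ) - 1 ∈ 𝔅 := by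
  classical
  have hp : p.Prime := Fact.out
  have hℓp : ℓ.Prime := Fact.out
  have hχ : χ ≠ 1 := by
    rintro rfl
    rw [orderOf_one] at hχo
    exact hp.one_lt.ne hχo
  have hχp : χ ^ p = 1 := by rw [← hχo, pow_orderOf_eq_one]
  have hmax : 𝔅.IsMaximal := Ideal.IsPrime.isMaximal inferInstance h0
  let _ : Field (𝓞 F ⧸ 𝔅) := Ideal.Quotient.field 𝔅
  have : Finite (𝓞 F ⧸ 𝔅) := Ideal.finiteQuotientOfFreeOfNeBot 𝔅 h0
  let _ : Fintype (𝓞 F ⧸ 𝔅) := Fintype.ofFinite _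
  -- the residue characteristic
  set r := ringChar (𝓞 F ⧸ 𝔅) with hr
  have : CharP (𝓞 F ⧸ 𝔅) r := ringChar.charP _
  have hrfact : Fact r.Prime := ⟨CharP.char_is_prime (𝓞 F ⧸ 𝔅) r⟩
  obtain ⟨f, -, hcard⟩ := FiniteField.card (𝓞 F ⧸ 𝔅) r
  have hN : Ideal.absNorm 𝔅 = r ^ (f : ℕ) := by
    rw [← hcard, Ideal.absNorm_apply, Submodule.cardQuot_apply, Nat.card_eq_fintype_card]
  -- `ℓ ≠ 0` in the residue field
  have hℓk : ((ℓ : ℕ) : 𝓞 F ⧸ 𝔅) ≠ 0 := by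
    intro h
    apply hℓ𝔅
    rw [← Ideal.Quotient.eq_zero_iff_mem, map_natCast]
    exact h
  have hrℓ : r ≠ ℓ := by
    intro h
    apply hℓk
    rw [← h]
    exact CharP.cast_eq_zero _ _
  have : NeZero ((ℓ : ℕ) : 𝓞 F ⧸ 𝔅) := ⟨hℓk⟩
  -- the target field
  let R' := CyclotomicField ℓ (𝓞 F ⧸ 𝔅)
  have : CharP R' r := charP_of_injective_algebraMap (algebraMap (𝓞 F ⧸ 𝔅) R').injective r
  have hzs : IsPrimitiveRoot (IsCyclotomicExtension.zeta ℓ (𝓞 F ⧸ 𝔅) R') ℓ :=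
    IsCyclotomicExtension.zeta_spec ℓ (𝓞 F ⧸ 𝔅) R'
  let ψ : AddChar (ZMod ℓ) R' := AddChar.zmodChar ℓ hzs.pow_eq_one
  have hψ : ψ.IsPrimitive := AddChar.zmodChar_primitive_of_primitive_root ℓ hzs
  let φ : 𝓞 F →+* R' := (algebraMap (𝓞 F ⧸ 𝔅) R').comp (Ideal.Quotient.mk 𝔅)
  have hφ : ∀ x : 𝓞 F, φ x = 0 ↔ x ∈ 𝔅 := by
    intro x
    simp only [φ, RingHom.comp_apply]
    rw [map_eq_zero, Ideal.Quotient.eq_zero_iff_mem]
  have hφ1 : ∀ x : 𝓞 F, φ x = 1 ↔ x - 1 ∈ 𝔅 := by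
    intro x
    rw [← hφ, map_sub, map_one, sub_eq_zero]
  -- a primitive `p`-th root of unity among the values of `χ`
  obtain ⟨a, ha⟩ := MulChar.ne_one_iff.mp hχ
  have hw : (χ a) ^ p = 1 := by
    rw [← MulChar.pow_apply_coe, hχp, MulChar.one_apply_coe]
  have hwprim : IsPrimitiveRoot (χ a) p := by
    rw [← orderOf_eq_prime hw ha]
    exact IsPrimitiveRoot.orderOf _
  -- the reduced character has order `p`
  have hχ' : orderOf (χ.ringHomComp φ) = p := by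
    apply orderOf_eq_prime
    · rw [MulChar.ringHomComp_pow, hχp, MulChar.ringHomComp_one]
    · rw [MulChar.ne_one_iff]
      refine ⟨a, ?_⟩
      rw [MulChar.ringHomComp_apply]
      intro h1
      exact sub_one_not_mem hp𝔅 hw ha ((hφ1 _).mp h1)
  -- `p ∣ N - 1`
  have hpN : p ∣ r ^ (f : ℕ) - 1 := by
    have hprim := isPrimitiveRoot_mk hwprim hp𝔅
    have h1 : Ideal.Quotient.mk 𝔅 (χ a) ^ (Fintype.card (𝓞 F ⧸ 𝔅) - 1) = 1 :=
      FiniteField.pow_card_sub_one_eq_one _ (hprim.ne_zero hp.ne_zero)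
    rw [hcard] at h1
    exact (hprim.pow_eq_one_iff_dvd _).mp h1
  obtain ⟨hG0, hG1⟩ := gaussG_pow_mul_eq_one hrℓ (χ.ringHomComp φ) hχ' hp.two_le ψ hψ f hpN
  rw [gaussG_ringHomComp, MulChar.ringHomComp_apply, ← hN, ← map_pow, ← map_mul, hφ1] at hG1
  rw [gaussG_ringHomComp] at hG0
  exact ⟨fun h => hG0 ((hφ _).mpr h), hN ▸ hpN, hG1⟩

end NumberFieldPart

/-- **Block [GaussSym]** (`Cross/Plan.lean`). -/
theorem gaussSym {p : ℕ} [Fact p.Prime] : GaussSym p := by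
  intro F _ _ ℓ _ χ P hχ hP h0 hpP hℓP
  have := hP
  exact (gaussG_pow_mul_sub_one_mem χ hχ P h0 hpP hℓP).2.2

/-- `gaussPow p χ ∉ P` for primes `P ∌ p ℓ` (a by-product of the proof of [GaussSym]). -/
theorem gaussPow_not_mem {p : ℕ} [Fact p.Prime] (F : Type) [Field F] [NumberField F] (ℓ : ℕ)
    [Fact ℓ.Prime] (χ : MulChar (ZMod ℓ) (𝓞 F)) (P : Ideal (𝓞 F)) (hχ : orderOf χ = p)
    (hP : P.IsPrime) (h0 : P ≠ ⊥) (hpP : (p : 𝓞 F) ∉ P) (hℓP : (ℓ : 𝓞 F) ∉ P) :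
    gaussPow p χ ∉ P := by
  have := hP
  exact (gaussG_pow_mul_sub_one_mem χ hχ P h0 hpP hℓP).1

/-- **Block [GaussSymK]** (`Cross/Plan.lean`): the symbol form, with no further hypothesis. -/
theorem gaussSymK {p : ℕ} [Fact p.Prime] : GaussSymK p := by
  intro F _ _ ℓ _ χ ζ P k hζ hχ hP h0 hpP hℓP hk
  have := hP
  have hG1 := (gaussG_pow_mul_sub_one_mem χ hχ P h0 hpP hℓP).2.2
  rw [hk] at hG1
  have hmem : gaussG p ℓ χ ^ ((Ideal.absNorm P - 1) / p) - ζ ^ (-k).val ∈ P := by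
    have h2 := P.mul_mem_right (ζ ^ (-k).val) hG1
    have h3 : (gaussG p ℓ χ ^ ((Ideal.absNorm P - 1) / p) * ζ ^ k.val - 1) * ζ ^ (-k).val =
        gaussG p ℓ χ ^ ((Ideal.absNorm P - 1) / p) - ζ ^ (-k).val := by
      have h4 := zeta_pow_val_mul_neg hζ.pow_eq_one k
      linear_combination gaussG p ℓ χ ^ ((Ideal.absNorm P - 1) / p) * h4
    rwa [h3] at h2
  have hex : ∃ j : ZMod p,
      gaussG p ℓ χ ^ ((Ideal.absNorm P - 1) / p) - ζ ^ j.val ∈ P := ⟨-k, hmem⟩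
  change sym p ζ (gaussG p ℓ χ) P = -k
  unfold sym
  rw [dif_pos hex]
  apply zeta_pow_inj_mod hζ hpP
  have h1 := hex.choose_spec
  have h2 := P.sub_mem hmem h1
  have h3 : gaussG p ℓ χ ^ ((Ideal.absNorm P - 1) / p) - ζ ^ (-k).val -
      (gaussG p ℓ χ ^ ((Ideal.absNorm P - 1) / p) - ζ ^ hex.choose.val) =
      ζ ^ hex.choose.val - ζ ^ (-k).val := by ring
  rwa [h3] at h2

end Fermat.Agent.S14C.Cross.GaussSymC
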