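/-
S14C / Cross — JacCore.lean (helper97).  Leaves `JacT` and `JacVanish` of the crossing plan
(`jacT`, `jacVanish` at the end), preceded by their finite-field core:
power sums `∑ x, x^m (1-x)^n` over a finite field, and the reduction of Jacobi sums of
characters that reduce to power maps.
-/
import Mathlib
import Fermat.Agent.S14C.Cross.Plan

set_option autoImplicit false

namespace Fermat.Agent.S14C.Cross.JacCore

open Finset

section PowerSums

variable {F : Type*} [Field F] [Fintype F]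

/-- Power sums over a finite field, for exponents `0 < i < 2(q-1)`. -/
theorem sum_pow_eq_ite (i : ℕ) (hi : 0 < i) (hi2 : i < 2 * (Fintype.card F - 1)) :
    ∑ x : F, x ^ i = if i = Fintype.card F - 1 then -1 else 0 := by
  classical
  let φ : Fˣ ↪ F := ⟨fun x ↦ x, Units.val_injective⟩
  have hmap : univ.map φ = univ \ {0} := by
    ext x
    simpa only [mem_map, mem_univ, Function.Embedding.coeFn_mk, true_and, mem_sdiff,
      mem_singleton, φ] using! isUnit_iff_ne_zero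
  have h1 : ∑ x : F, x ^ i = ∑ x : Fˣ, (x ^ i : F) := by
    calc ∑ x : F, x ^ i = ∑ x ∈ univ \ {(0 : F)}, x ^ i := by
          rw [← sum_sdiff ({0} : Finset F).subset_univ, sum_singleton, zero_pow hi.ne', add_zero]
      _ = ∑ x : Fˣ, (x ^ i : F) := by simp [φ, ← hmap, univ.sum_map φ]
  rw [h1, FiniteField.sum_pow_units F i]
  have hiff : Fintype.card F - 1 ∣ i ↔ i = Fintype.card F - 1 := by
    constructor
    · rintro ⟨c, rfl⟩
      have hc1 : c < 2 := by
        by_contra hc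
        push Not at hc
        have : 2 * (Fintype.card F - 1) ≤ (Fintype.card F - 1) * c := by
          rw [mul_comm]; exact Nat.mul_le_mul_left _ hc
        omega
      have hc0 : c ≠ 0 := by
        rintro rfl
        simp at hi
      have : c = 1 := by omega
      subst this
      simp
    · intro h
      rw [h]
  simp only [hiff]

/-- Binomial expansion of `∑ x, x^m (1-x)^n`. -/
theorem sum_pow_mul_one_sub_pow (m n : ℕ) :
    ∑ x : F, x ^ m * (1 - x) ^ n =
      ∑ k ∈ range (n + 1), (-1) ^ k * (n.choose k : F) * ∑ x : F, x ^ (m + k) := by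
  have h1 : ∀ x : F, x ^ m * (1 - x) ^ n =
      ∑ k ∈ range (n + 1), (-1) ^ k * (n.choose k : F) * x ^ (m + k) := by
    intro x
    have : (1 - x) ^ n = ∑ k ∈ range (n + 1), (-x) ^ k * 1 ^ (n - k) * (n.choose k : F) := by
      rw [← add_pow]; ring
    rw [this, mul_sum]
    refine sum_congr rfl fun k _ => ?_
    rw [neg_pow, pow_add]; ring
  simp_rw [h1]
  rw [sum_comm]
  refine sum_congr rfl fun k _ => ?_
  rw [mul_sum]

/-- `∑ x, x^m (1-x)^n = 0` over a finite field with `q` elements as soon as `m + n < q - 1`. -/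
theorem sum_pow_mul_one_sub_pow_eq_zero (m n : ℕ) (h : m + n < Fintype.card F - 1) :
    ∑ x : F, x ^ m * (1 - x) ^ n = 0 := by
  rw [sum_pow_mul_one_sub_pow]
  refine sum_eq_zero fun k hk => ?_
  rw [mem_range] at hk
  rw [FiniteField.sum_pow_lt_card_sub_one F (m + k) (by omega), mul_zero]

/-- For `0 < m ≤ q - 1 ≤ m + n < 2(q-1)`, the sum `∑ x, x^m (1-x)^n` is a signed binomial
coefficient. -/
theorem sum_pow_mul_one_sub_pow_eq (m n : ℕ) (hm : 0 < m) (hm' : m ≤ Fintype.card F - 1)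
    (hn : Fintype.card F - 1 ≤ m + n) (hmn : m + n < 2 * (Fintype.card F - 1)) :
    ∑ x : F, x ^ m * (1 - x) ^ n =
      -((-1) ^ (Fintype.card F - 1 - m) * (n.choose (Fintype.card F - 1 - m) : F)) := by
  rw [sum_pow_mul_one_sub_pow]
  rw [sum_eq_single (Fintype.card F - 1 - m)]
  · rw [sum_pow_eq_ite _ (by omega) (by omega), if_pos (by omega)]
    ring
  · intro k hk hne
    rw [mem_range] at hk
    rw [sum_pow_eq_ite _ (by omega) (by omega), if_neg (by omega), mul_zero]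
  · intro hk
    rw [mem_range] at hk
    omega

end PowerSums

section PrimeField

variable {ℓ : ℕ} [Fact ℓ.Prime]

/-- Over the prime field `ZMod ℓ`: for `0 < m ≤ ℓ - 1 ≤ m + n`, `n < ℓ - 1`... the sum
`∑ x, x^m (1-x)^n` does not vanish. -/
theorem sum_pow_mul_one_sub_pow_ne_zero (m n : ℕ) (hm : 0 < m) (hm' : m ≤ ℓ - 1)
    (hn' : n < ℓ) (hn : ℓ - 1 ≤ m + n) (hmn : m + n < 2 * (ℓ - 1)) :
    ∑ x : ZMod ℓ, x ^ m * (1 - x) ^ n ≠ 0 := by
  have hcard : Fintype.card (ZMod ℓ) = ℓ := ZMod.card ℓ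
  rw [sum_pow_mul_one_sub_pow_eq m n hm (by rw [hcard]; exact hm') (by rw [hcard]; exact hn)
    (by rw [hcard]; exact hmn), hcard]
  rw [neg_ne_zero]
  refine mul_ne_zero (pow_ne_zero _ (neg_ne_zero.mpr one_ne_zero)) ?_
  intro h0
  rw [ZMod.natCast_eq_zero_iff] at h0
  have hℓ : ℓ.Prime := Fact.out
  have hpos : 0 < n.choose (ℓ - 1 - m) := Nat.choose_pos (by omega)
  have hdvd : n.choose (ℓ - 1 - m) ∣ n.factorial :=
    ⟨(ℓ - 1 - m).factorial * (n - (ℓ - 1 - m)).factorial, by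
      rw [← mul_assoc]; exact (Nat.choose_mul_factorial_mul_factorial (by omega)).symm⟩
  have := (hℓ.dvd_factorial).mp (h0.trans hdvd)
  omega

end PrimeField

section CharReduction

variable {F : Type*} [Field F] [Fintype F] {R : Type*} [CommRing R] {k : Type*} [CommRing k]

/-- A multiplicative character `χ` on a finite field `F` (with `q` elements) with `χ^p = 1`,
pushed to a domain `k ⊇ F` along a ring homomorphism `φ : R →+* k`, is a power map
`x ↦ x^(t·(q-1)/p)` with `t < p`. -/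
theorem exists_pow_form [IsDomain k] (ι : F →+* k) (φ : R →+* k) (χ : MulChar F R) {p : ℕ}
    (hp : 0 < p) (hpq : p ∣ Fintype.card F - 1) (hχ : χ ^ p = 1) :
    ∃ t < p, ∀ x : F, x ≠ 0 → φ (χ x) = ι x ^ (t * ((Fintype.card F - 1) / p)) := by
  classical
  have : NeZero p := ⟨hp.ne'⟩
  obtain ⟨g, hg⟩ := IsCyclic.exists_generator (α := Fˣ)
  obtain ⟨N, hN⟩ := hpq
  have hNdiv : (Fintype.card F - 1) / p = N := by rw [hN]; exact Nat.mul_div_cancel_left N hp
  rw [hNdiv]
  have hord : orderOf g = p * N := by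
    rw [orderOf_eq_card_of_forall_mem_zpowers hg, Nat.card_eq_fintype_card, Fintype.card_units, hN]
  have hι : Function.Injective ι := ι.injective
  -- `ι g ^ N` is a primitive `p`-th root of unity in `k`
  have hprim : IsPrimitiveRoot (ι (g : F) ^ N) p := by
    refine ⟨?_, fun d hd => ?_⟩
    · rw [← pow_mul, ← map_pow, mul_comm, ← hord]
      have h2 : (g : F) ^ orderOf g = 1 := by
        rw [← Units.val_pow_eq_pow_val, pow_orderOf_eq_one, Units.val_one]
      rw [h2, map_one]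
    · rw [← pow_mul, ← map_pow] at hd
      have h1 : (g : F) ^ (N * d) = 1 := hι (by rw [hd, map_one])
      have h2 : g ^ (N * d) = 1 := by
        ext
        simpa using h1
      have h3 : p * N ∣ N * d := hord ▸ orderOf_dvd_of_pow_eq_one h2
      rcases Nat.eq_zero_or_pos N with hN0 | hNpos
      · exfalso
        rw [hN0, mul_zero] at hord
        have := orderOf_pos g
        omega
      · rw [mul_comm p N] at h3
        exact (Nat.mul_dvd_mul_iff_left hNpos).mp h3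
  -- the value at the generator
  have hy : (φ (χ g)) ^ p = 1 := by
    rw [← map_pow, ← MulChar.pow_apply_coe, hχ, MulChar.one_apply_coe, map_one]
  obtain ⟨t, htp, ht⟩ := hprim.eq_pow_of_pow_eq_one hy
  refine ⟨t, htp, fun x hx => ?_⟩
  obtain ⟨j, hj⟩ : ∃ j : ℕ, g ^ j = Units.mk0 x hx := by
    have := hg (Units.mk0 x hx)
    rwa [← mem_powers_iff_mem_zpowers] at this
  have hj' : (g : F) ^ j = x := by
    have := congrArg (Units.val) hj
    simpa using this
  rw [← hj', map_pow, map_pow, ← ht, map_pow]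
  simp only [← pow_mul]
  congr 1
  ring

/-- If `φ ∘ χ` is the power map `x ↦ x^(t·N)` (`N = (q-1)/p`), then `φ ∘ χ^a` is the power map
with exponent `((a·t) % p)·N`. -/
theorem pow_form_pow (ι : F →+* k) (φ : R →+* k) (χ : MulChar F R) {p : ℕ} (hp : 0 < p)
    (hpq : p ∣ Fintype.card F - 1) (t : ℕ)
    (h : ∀ x : F, x ≠ 0 → φ (χ x) = ι x ^ (t * ((Fintype.card F - 1) / p))) (a : ℕ) :
    ∀ x : F, x ≠ 0 → φ ((χ ^ a) x) = ι x ^ ((a * t) % p * ((Fintype.card F - 1) / p)) := by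
  intro x hx
  obtain ⟨N, hN⟩ := hpq
  have hNdiv : (Fintype.card F - 1) / p = N := by rw [hN]; exact Nat.mul_div_cancel_left N hp
  rw [hNdiv] at h ⊢
  have hx1 : ι x ^ (p * N) = 1 := by
    rw [← hN, ← map_pow, FiniteField.pow_card_sub_one_eq_one x hx, map_one]
  have : (χ ^ a) x = (χ x) ^ a := by
    have := MulChar.pow_apply_coe χ a (Units.mk0 x hx)
    simpa using this
  rw [this, map_pow, h x hx, ← pow_mul]
  conv_lhs => rw [show t * N * a = (a * t) * N by ring, ← Nat.div_add_mod (a * t) p]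
  rw [add_mul, pow_add, show p * (a * t / p) * N = (p * N) * (a * t / p) by ring, pow_mul, hx1,
    one_pow, one_mul]

/-- Reduction of a Jacobi sum of two characters that reduce to (nontrivial) power maps. -/
theorem map_jacobiSum_eq_sum (ι : F →+* k) (φ : R →+* k) (χ ψ : MulChar F R) (m n : ℕ)
    (hm : 0 < m) (hn : 0 < n) (hχ : ∀ x : F, x ≠ 0 → φ (χ x) = ι x ^ m)
    (hψ : ∀ x : F, x ≠ 0 → φ (ψ x) = ι x ^ n) :
    φ (jacobiSum χ ψ) = ι (∑ x : F, x ^ m * (1 - x) ^ n) := by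
  have hχ' : ∀ x : F, φ (χ x) = ι x ^ m := by
    intro x
    rcases eq_or_ne x 0 with rfl | hx
    · rw [MulChar.map_zero, map_zero, map_zero, zero_pow hm.ne']
    · exact hχ x hx
  have hψ' : ∀ x : F, φ (ψ x) = ι x ^ n := by
    intro x
    rcases eq_or_ne x 0 with rfl | hx
    · rw [MulChar.map_zero, map_zero, map_zero, zero_pow hn.ne']
    · exact hψ x hx
  rw [jacobiSum, map_sum, map_sum]
  refine sum_congr rfl fun x _ => ?_
  rw [map_mul, hχ', hψ', map_mul, map_pow, map_pow]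

end CharReduction

section PrimeFieldJacobi

variable {ℓ : ℕ} [Fact ℓ.Prime] {R : Type*} [CommRing R] {k : Type*} [CommRing k]

/-- **Vanishing criterion for Jacobi sums modulo a prime above `ℓ`.**  Let `χ` be a character on
`ZMod ℓ` with values in `R`, `φ : R →+* k` a ring homomorphism and `ι : ZMod ℓ →+* k` an
injective one, with `φ (χ x) = ι x ^ (t·N)`, `N = (ℓ-1)/p`.  For `a, b` with `p ∤ a·t`, `p ∤ b·t`:
`φ (J(χ^a, χ^b)) = 0 ↔ (a·t) % p + (b·t) % p < p`. -/
theorem map_jacobiSum_eq_zero_iff {p : ℕ} (hp : 0 < p) (hpl : p ∣ ℓ - 1) (ι : ZMod ℓ →+* k)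
    (hι : Function.Injective ι) (φ : R →+* k)
    (χ : MulChar (ZMod ℓ) R) (t : ℕ)
    (hχ : ∀ x : ZMod ℓ, x ≠ 0 → φ (χ x) = ι x ^ (t * ((ℓ - 1) / p)))
    (a b : ℕ) (ha : ¬ p ∣ a * t) (hb : ¬ p ∣ b * t) :
    φ (jacobiSum (χ ^ a) (χ ^ b)) = 0 ↔ (a * t) % p + (b * t) % p < p := by
  have hℓ : ℓ.Prime := Fact.out
  have hcard : Fintype.card (ZMod ℓ) = ℓ := ZMod.card ℓ
  obtain ⟨N, hN⟩ := hpl
  have hNdiv : (ℓ - 1) / p = N := by rw [hN]; exact Nat.mul_div_cancel_left N hp
  have hNpos : 0 < N := by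
    rcases Nat.eq_zero_or_pos N with h | h
    · rw [h, mul_zero] at hN
      have := hℓ.two_le
      omega
    · exact h
  have hu : 0 < (a * t) % p := Nat.pos_of_ne_zero fun h => ha (Nat.dvd_of_mod_eq_zero h)
  have hv : 0 < (b * t) % p := Nat.pos_of_ne_zero fun h => hb (Nat.dvd_of_mod_eq_zero h)
  have hu' : (a * t) % p < p := Nat.mod_lt _ hp
  have hv' : (b * t) % p < p := Nat.mod_lt _ hp
  have hχ' : ∀ x : ZMod ℓ, x ≠ 0 →
      φ (χ x) = ι x ^ (t * ((Fintype.card (ZMod ℓ) - 1) / p)) := by rw [hcard]; exact hχ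
  have hpq : p ∣ Fintype.card (ZMod ℓ) - 1 := by rw [hcard]; exact ⟨N, hN⟩
  have h1 := pow_form_pow ι φ χ hp hpq t hχ' a
  have h2 := pow_form_pow ι φ χ hp hpq t hχ' b
  rw [hcard, hNdiv] at h1 h2
  set u := (a * t) % p with hu_def
  set v := (b * t) % p with hv_def
  rw [map_jacobiSum_eq_sum ι φ (χ ^ a) (χ ^ b) (u * N) (v * N) (Nat.mul_pos hu hNpos)
    (Nat.mul_pos hv hNpos) h1 h2, map_eq_zero_iff ι hι]
  have hmul : ∀ w : ℕ, w < p → w * N + N ≤ p * N := by
    intro w hw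
    have : (w + 1) * N ≤ p * N := Nat.mul_le_mul_right N hw
    linarith [this, add_mul w 1 N]
  constructor
  · intro h0
    by_contra hlt
    push Not at hlt
    refine sum_pow_mul_one_sub_pow_ne_zero (ℓ := ℓ) (u * N) (v * N) (Nat.mul_pos hu hNpos) ?_ ?_ ?_ ?_
      h0
    · have := hmul u hu'; omega
    · have := hmul v hv'; omega
    · have : p * N ≤ (u + v) * N := Nat.mul_le_mul_right N hlt
      rw [add_mul] at this
      omega
    · have h3 := hmul u hu'
      have h4 := hmul v hv'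
      omega
  · intro hlt
    refine sum_pow_mul_one_sub_pow_eq_zero (u * N) (v * N) ?_
    rw [hcard]
    have := hmul (u + v) hlt
    rw [add_mul] at this
    omega

end PrimeFieldJacobi

/-! ## The leaves `JacT` and `JacVanish` -/

section Leaves

open NumberField

variable {p : ℕ} [Fact p.Prime]

/-- Common setup: for a prime `P ∋ ℓ` of `𝓞 K`, the quotient `𝓞 K ⧸ P` is a domain of
characteristic `ℓ`. -/
private theorem quot_setup {K : Type} [Field K] [NumberField K] {ℓ : ℕ} [Fact ℓ.Prime]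
    {P : Ideal (𝓞 K)} (hP : P.IsPrime) (hℓP : (ℓ : 𝓞 K) ∈ P) :
    IsDomain (𝓞 K ⧸ P) ∧ CharP (𝓞 K ⧸ P) ℓ := by
  have hℓ : ℓ.Prime := Fact.out
  have : IsDomain (𝓞 K ⧸ P) := Ideal.Quotient.isDomain P
  refine ⟨inferInstance, (CharP.charP_iff_prime_eq_zero hℓ).mpr ?_⟩
  rw [← map_natCast (Ideal.Quotient.mk P)]
  exact Ideal.Quotient.eq_zero_iff_mem.mpr hℓP

/-- [JacT]. -/
theorem jacT : JacT p := by
  intro K _ _ ℓ _ χ P hord hP hℓP
  have hp : p.Prime := Fact.out
  have hℓ : ℓ.Prime := Fact.out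
  have hpl : p ∣ ℓ - 1 := by
    have := MulChar.orderOf_dvd_card_sub_one (ZMod ℓ) χ
    rwa [hord, ZMod.card] at this
  obtain ⟨hdom, hchar⟩ := quot_setup hP hℓP
  have := hdom
  have := hchar
  let ι : ZMod ℓ →+* (𝓞 K ⧸ P) := ZMod.castHom (dvd_refl ℓ) (𝓞 K ⧸ P)
  let φ : 𝓞 K →+* (𝓞 K ⧸ P) := Ideal.Quotient.mk P
  have hχp : χ ^ p = 1 := hord ▸ pow_orderOf_eq_one χ
  have hNpos : 0 < (ℓ - 1) / p :=
    Nat.div_pos (Nat.le_of_dvd (by have := hℓ.two_le; omega) hpl) hp.pos
  obtain ⟨t, htp, ht⟩ := exists_pow_form ι φ χ hp.pos (by rw [ZMod.card]; exact hpl) hχp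
  rw [ZMod.card] at ht
  have hχ1 : χ ≠ 1 := by
    intro h
    rw [h, orderOf_one] at hord
    exact hp.one_lt.ne hord
  have ht1 : 1 ≤ t := by
    by_contra h0
    have ht0 : t = 0 := by omega
    subst ht0
    have hsum : ∑ x : ZMod ℓ, χ x = 0 := MulChar.sum_eq_zero_of_ne_one hχ1
    have h1 : ∑ x : ZMod ℓ, φ (χ x) = 0 := by rw [← map_sum, hsum, map_zero]
    have h2 : ∑ x : ZMod ℓ, φ (χ x) = ∑ x ∈ (univ : Finset (ZMod ℓ)).erase 0, (1 : 𝓞 K ⧸ P) := by
      rw [← Finset.add_sum_erase univ _ (mem_univ (0 : ZMod ℓ)), MulChar.map_zero, map_zero,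
        zero_add]
      refine sum_congr rfl fun x hx => ?_
      rw [ht x (ne_of_mem_erase hx), zero_mul, pow_zero]
    rw [h2, sum_const, card_erase_of_mem (mem_univ _), card_univ, ZMod.card, nsmul_eq_mul,
      mul_one] at h1
    have h3 : ((ℓ - 1 : ℕ) : 𝓞 K ⧸ P) + 1 = 0 := by
      rw [← Nat.cast_succ, Nat.succ_eq_add_one, Nat.sub_add_cancel hℓ.one_le]
      exact CharP.cast_eq_zero _ ℓ
    rw [h1, zero_add] at h3
    exact one_ne_zero h3
  refine ⟨t, ht1, htp, fun x => ?_⟩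
  rw [← Ideal.Quotient.eq]
  change φ (χ x) = φ (((x.val : ℕ) : 𝓞 K) ^ (t * ((ℓ - 1) / p)))
  rw [map_pow, map_natCast, ZMod.natCast_val, ← ZMod.castHom_apply (h := dvd_refl ℓ)]
  rcases eq_or_ne x 0 with rfl | hx
  · rw [MulChar.map_zero, map_zero, map_zero, zero_pow (Nat.mul_ne_zero (by omega) hNpos.ne')]
  · exact ht x hx

/-- [JacVanish]. -/
theorem jacVanish : JacVanish p := by
  intro K _ _ ℓ _ χ P t a b hord hP hℓP ht1 htp hcong ha hb
  have hp : p.Prime := Fact.out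
  have hℓ : ℓ.Prime := Fact.out
  have hpl : p ∣ ℓ - 1 := by
    have := MulChar.orderOf_dvd_card_sub_one (ZMod ℓ) χ
    rwa [hord, ZMod.card] at this
  obtain ⟨hdom, hchar⟩ := quot_setup hP hℓP
  have := hdom
  have := hchar
  let ι : ZMod ℓ →+* (𝓞 K ⧸ P) := ZMod.castHom (dvd_refl ℓ) (𝓞 K ⧸ P)
  let φ : 𝓞 K →+* (𝓞 K ⧸ P) := Ideal.Quotient.mk P
  have hι : Function.Injective ι := ι.injective
  have h0 : ∀ x : ZMod ℓ, x ≠ 0 → φ (χ x) = ι x ^ (t * ((ℓ - 1) / p)) := by
    intro x _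
    have := (Ideal.Quotient.eq (I := P)).mpr (hcong x)
    rw [map_pow, map_natCast, ZMod.natCast_val, ← ZMod.castHom_apply (h := dvd_refl ℓ)] at this
    exact this
  have hpt : ¬ p ∣ t := fun h => by
    have := Nat.le_of_dvd (by omega) h
    omega
  have hat : ¬ p ∣ a * t := fun h => (hp.dvd_mul.mp h).elim ha hpt
  have hbt : ¬ p ∣ b * t := fun h => (hp.dvd_mul.mp h).elim hb hpt
  rw [← Ideal.Quotient.eq_zero_iff_mem]
  exact map_jacobiSum_eq_zero_iff hp.pos hpl ι hι φ χ t h0 a b hat hbt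

end Leaves

end Fermat.Agent.S14C.Cross.JacCore
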