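/-
S14C / Cross — JacTopAux.lean (helper97).  Auxiliary lemmas for the leaf [JacTop]
(consumed by helper91's Cross/JacTop.lean) and for [GaussOrd]:
* `jac_mul_jac_inv`   : `J(χ,φ) · J(χ⁻¹,φ⁻¹) = q` in `𝓞 K`;
* `absNorm_comap_smul`: a Galois conjugate of an ideal has the same absolute norm;
* `factors_of_count`  : the norm-counting argument giving the exact factorisation of `(J)`.
-/
import Mathlib

set_option autoImplicit false

namespace Fermat.Agent.S14C.Cross.JacTopAux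

open NumberField Finset

variable {K : Type} [Field K] [NumberField K]

/-- (L5) `J(χ,φ) · J(χ⁻¹,φ⁻¹) = q` for characters of `𝔽_q` with values in `𝓞 K`. -/
theorem jac_mul_jac_inv {q : ℕ} [Fact q.Prime] (χ φ : MulChar (ZMod q) (𝓞 K)) (hχ : χ ≠ 1)
    (hφ : φ ≠ 1) (hχφ : χ * φ ≠ 1) :
    jacobiSum χ φ * jacobiSum χ⁻¹ φ⁻¹ = (q : 𝓞 K) := by
  have hq : q.Prime := Fact.out
  have hinj : Function.Injective (algebraMap (𝓞 K) K) :=
    FaithfulSMul.algebraMap_injective (𝓞 K) K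
  apply hinj
  rw [map_mul, ← jacobiSum_ringHomComp, ← jacobiSum_ringHomComp, ← MulChar.ringHomComp_inv,
    ← MulChar.ringHomComp_inv, map_natCast]
  have hchar : ringChar K ≠ ringChar (ZMod q) := by
    rw [ZMod.ringChar_zmod_n, ringChar.eq_zero]
    exact hq.ne_zero.symm
  have h := jacobiSum_mul_jacobiSum_inv hchar
    ((MulChar.ringHomComp_ne_one_iff hinj).mpr hχ) ((MulChar.ringHomComp_ne_one_iff hinj).mpr hφ)
    (by rw [← MulChar.ringHomComp_mul]; exact (MulChar.ringHomComp_ne_one_iff hinj).mpr hχφ)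
  rw [h, ZMod.card]

/-- (L7) The absolute norm is invariant under pulling back along a Galois automorphism. -/
theorem absNorm_comap_smul (σ : K ≃ₐ[ℚ] K) (Q : Ideal (𝓞 K)) :
    Ideal.absNorm (Q.comap (MulSemiringAction.toRingHom (K ≃ₐ[ℚ] K) (𝓞 K) σ)) =
      Ideal.absNorm Q := by
  let e : 𝓞 K ≃+* 𝓞 K := MulSemiringAction.toRingEquiv (K ≃ₐ[ℚ] K) (𝓞 K) σ
  have hcoe : (e : 𝓞 K →+* 𝓞 K) = MulSemiringAction.toRingHom (K ≃ₐ[ℚ] K) (𝓞 K) σ := rfl
  have hmap : Q = (Q.comap (MulSemiringAction.toRingHom (K ≃ₐ[ℚ] K) (𝓞 K) σ)).map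
      (e : 𝓞 K →+* 𝓞 K) := by
    rw [hcoe, Ideal.map_comap_of_surjective _ (hcoe ▸ e.surjective)]
  have E := Ideal.quotientEquiv
    (Q.comap (MulSemiringAction.toRingHom (K ≃ₐ[ℚ] K) (𝓞 K) σ)) Q e hmap
  rw [Ideal.absNorm_apply, Ideal.absNorm_apply, Submodule.cardQuot_apply, Submodule.cardQuot_apply]
  exact Nat.card_congr E.toEquiv

/-- (L8) Norm-counting: if `J · J' = q`, `[K : ℚ] = 2h`, and `P_1, …, P_{2h}` are distinct primes
of norm `q` with `J ∈ P_c` for `c ≤ h` and `J' ∈ P_c` for `c > h`, then `(J) = ∏_{c ≤ h} P_c`. -/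
theorem factors_of_count (q h : ℕ) (hq : q.Prime) (J J' : 𝓞 K) (hJ : J * J' = (q : 𝓞 K))
    (hfin : Module.finrank ℚ K = 2 * h) (Pc : ℕ → Ideal (𝓞 K))
    (hprime : ∀ c ∈ Finset.Icc 1 (2 * h), (Pc c).IsPrime)
    (hnorm : ∀ c ∈ Finset.Icc 1 (2 * h), Ideal.absNorm (Pc c) = q)
    (hinj : ∀ c ∈ Finset.Icc 1 (2 * h), ∀ c' ∈ Finset.Icc 1 (2 * h), Pc c = Pc c' → c = c')
    (hmem : ∀ c ∈ Finset.Icc 1 h, J ∈ Pc c)
    (hmem' : ∀ c ∈ Finset.Icc (h + 1) (2 * h), J' ∈ Pc c) :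
    UniqueFactorizationMonoid.normalizedFactors (Ideal.span {J}) = (Multiset.Icc 1 h).map Pc := by
  classical
  have hsub1 : Finset.Icc 1 h ⊆ Finset.Icc 1 (2 * h) := Finset.Icc_subset_Icc le_rfl (by omega)
  have hsub2 : Finset.Icc (h + 1) (2 * h) ⊆ Finset.Icc 1 (2 * h) :=
    Finset.Icc_subset_Icc (by omega) le_rfl
  have hne : ∀ c ∈ Finset.Icc 1 (2 * h), Pc c ≠ ⊥ := by
    intro c hc hbot
    have := hnorm c hc
    rw [hbot, Ideal.absNorm_bot] at this
    exact hq.ne_zero this.symm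
  have hPrime : ∀ c ∈ Finset.Icc 1 (2 * h), Prime (Pc c) := fun c hc =>
    Ideal.prime_of_isPrime (hne c hc) (hprime c hc)
  -- general divisibility statement
  have key : ∀ (s : Finset ℕ), s ⊆ Finset.Icc 1 (2 * h) → ∀ x : 𝓞 K, (∀ c ∈ s, x ∈ Pc c) →
      ∏ c ∈ s, Pc c ∣ Ideal.span {x} := by
    intro s hs x hx
    have hinj' : Set.InjOn Pc (s : Set ℕ) := fun c hc c' hc' hcc' =>
      hinj c (hs hc) c' (hs hc') hcc'
    rw [← Finset.prod_image (f := fun P : Ideal (𝓞 K) => P) hinj']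
    refine Finset.prod_primes_dvd _ ?_ ?_
    · intro P hP
      obtain ⟨c, hc, rfl⟩ := Finset.mem_image.mp hP
      exact hPrime c (hs hc)
    · intro P hP
      obtain ⟨c, hc, rfl⟩ := Finset.mem_image.mp hP
      exact Ideal.dvd_span_singleton.mpr (hx c hc)
  have hnormprod : ∀ (s : Finset ℕ), s ⊆ Finset.Icc 1 (2 * h) →
      Ideal.absNorm (∏ c ∈ s, Pc c) = q ^ s.card := by
    intro s hs
    rw [map_prod, Finset.prod_congr rfl (fun c hc => hnorm c (hs hc)), Finset.prod_const]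
  obtain ⟨I, hI⟩ := key _ hsub1 J hmem
  obtain ⟨I', hI'⟩ := key _ hsub2 J' hmem'
  have hcard1 : (Finset.Icc 1 h).card = h := by simp
  have hcard2 : (Finset.Icc (h + 1) (2 * h)).card = h := by simp; omega
  have hN : Ideal.absNorm (Ideal.span {J}) * Ideal.absNorm (Ideal.span {J'}) = q ^ (2 * h) := by
    rw [← map_mul, Ideal.span_singleton_mul_span_singleton, hJ, Ideal.absNorm_span_natCast,
      RingOfIntegers.rank, hfin]
  rw [hI, hI', map_mul, map_mul, hnormprod _ hsub1, hnormprod _ hsub2, hcard1, hcard2] at hN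
  have hq0 : 0 < q ^ h := pos_of_ne_zero (pow_ne_zero _ hq.ne_zero)
  have h1 : Ideal.absNorm I * Ideal.absNorm I' = 1 := by
    have : q ^ h * q ^ h * (Ideal.absNorm I * Ideal.absNorm I') = q ^ h * q ^ h * 1 := by
      calc q ^ h * q ^ h * (Ideal.absNorm I * Ideal.absNorm I')
          = q ^ h * Ideal.absNorm I * (q ^ h * Ideal.absNorm I') := by ring
        _ = q ^ (2 * h) := hN
        _ = q ^ h * q ^ h * 1 := by rw [mul_one, two_mul, pow_add]
    exact Nat.eq_of_mul_eq_mul_left (Nat.mul_pos hq0 hq0) this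
  have hI1 : I = ⊤ := Ideal.absNorm_eq_one_iff.mp (Nat.eq_one_of_mul_eq_one_right h1)
  rw [hI, hI1, Ideal.mul_top]
  have : (∏ c ∈ Finset.Icc 1 h, Pc c) = ((Multiset.Icc 1 h).map Pc).prod := rfl
  rw [this]
  refine UniqueFactorizationMonoid.normalizedFactors_prod_of_prime ?_
  intro P hP
  obtain ⟨c, hc, rfl⟩ := Multiset.mem_map.mp hP
  exact hPrime c (hsub1 (Finset.mem_Icc.mpr (Multiset.mem_Icc.mp hc)))

end Fermat.Agent.S14C.Cross.JacTopAux
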