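import Mathlib
import Fermat.Agent.S14C.Cross.Plan
import Fermat.Agent.S14C.Cross.GaussSymC
import Fermat.Agent.S14C.Cross.JacTopAux

/-!
# S14, team T2 (crossing hedge), block [JacTop]

For `K = ℚ(ζ_p)` and a prime `Q` of `𝓞 K` of prime norm `q ≠ p`, the Jacobi sum
`J = J(χ, χ)` of the `p`-th power residue character `χ` of `Q` generates the ideal
`∏_{c = 1}^{(p-1)/2} σ_c⁻¹ Q`, where `σ_c ζ = ζ ^ c`.

Proof: pick `χ` of order `p` on `ZMod q` with `χ ≡ x ^ (t (q-1)/p) mod Q` (`JacT`) and `s` with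
`s t ≡ 1 mod p`; `J := J(χ^s, χ^s)`.  Galois transport gives `σ_c J = J(χ^{sc}, χ^{sc})`, which
lies in `Q` iff `2c < p` (`JacVanish`), and similarly for `J' = J(χ^{-s}, χ^{-s})` iff `2c > p`.
The `p - 1` primes `P_c = σ_c⁻¹ Q` are distinct of norm `q`, and `J J' = q`; the counting lemma
`JacTopAux.factors_of_count` (helper97) concludes.
-/

set_option autoImplicit false

open NumberField

namespace Fermat.Agent.S14C.Cross.JacTop

/-- Existence of the automorphism `ζ ↦ ζ ^ c` of a cyclotomic field over `ℚ`. -/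
theorem exists_aut {p : ℕ} [Fact p.Prime] (K : Type) [Field K] [NumberField K]
    [IsCyclotomicExtension {p} ℚ K] {ζ : K} (hζ : IsPrimitiveRoot ζ p) (c : ℕ) (hc : ¬ p ∣ c) :
    ∃ σ : K ≃ₐ[ℚ] K, σ ζ = ζ ^ c := by
  have hp : p.Prime := Fact.out
  have hirr : Irreducible (Polynomial.cyclotomic p ℚ) :=
    Polynomial.cyclotomic.irreducible_rat hp.pos
  have hμ : IsPrimitiveRoot (ζ ^ c) p :=
    hζ.pow_of_coprime c ((Nat.Prime.coprime_iff_not_dvd hp).mpr hc).symm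
  have hmin : minpoly ℚ (hζ.powerBasis ℚ).gen = minpoly ℚ (hμ.powerBasis ℚ).gen := by
    simp only [IsPrimitiveRoot.powerBasis_gen]
    rw [← hζ.minpoly_eq_cyclotomic_of_irreducible hirr,
      ← hμ.minpoly_eq_cyclotomic_of_irreducible hirr]
  refine ⟨(hζ.powerBasis ℚ).equivOfMinpoly (hμ.powerBasis ℚ) hmin, ?_⟩
  have := (hζ.powerBasis ℚ).equivOfMinpoly_gen (hμ.powerBasis ℚ) hmin
  simpa using this

section Action

variable {K : Type} [Field K] [NumberField K]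

/-- The ring endomorphism of `𝓞 K` induced by an automorphism of `K`. -/
noncomputable abbrev sRing (σ : K ≃ₐ[ℚ] K) : 𝓞 K →+* 𝓞 K :=
  MulSemiringAction.toRingHom (K ≃ₐ[ℚ] K) (𝓞 K) σ

theorem sRing_apply (σ : K ≃ₐ[ℚ] K) (x : 𝓞 K) : sRing σ x = σ • x := rfl

theorem coe_smul' (σ : K ≃ₐ[ℚ] K) (x : 𝓞 K) : ((σ • x : 𝓞 K) : K) = σ (x : K) := rfl

theorem smul_zeta {ζ : 𝓞 K} {σ : K ≃ₐ[ℚ] K} {c : ℕ}
    (hσ : σ (ζ : K) = (ζ : K) ^ c) : σ • ζ = ζ ^ c := by
  apply RingOfIntegers.coe_injective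
  change σ (ζ : K) = ((ζ ^ c : 𝓞 K) : K)
  rw [hσ]
  simp

/-- Galois transport of a character with values in `μ_p`. -/
theorem ringHomComp_sRing {p q : ℕ} [Fact p.Prime] [Fact q.Prime] {ζ : 𝓞 K}
    (hζ : IsPrimitiveRoot ζ p) {σ : K ≃ₐ[ℚ] K} {c : ℕ} (hσ : σ (ζ : K) = (ζ : K) ^ c)
    (χ : MulChar (ZMod q) (𝓞 K)) (hχ : χ ^ p = 1) : χ.ringHomComp (sRing σ) = χ ^ c := by
  ext a
  rw [MulChar.ringHomComp_apply, MulChar.pow_apply_coe, sRing_apply]
  have hw : (χ a) ^ p = 1 := by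
    rw [← MulChar.pow_apply_coe, hχ, MulChar.one_apply_coe]
  obtain ⟨i, -, hi⟩ := hζ.eq_pow_of_pow_eq_one hw
  rw [← hi, smul_pow', smul_zeta hσ, ← pow_mul, ← pow_mul, mul_comm]

/-- Galois transport of Jacobi sums. -/
theorem smul_jacobiSum {p q : ℕ} [Fact p.Prime] [Fact q.Prime] {ζ : 𝓞 K}
    (hζ : IsPrimitiveRoot ζ p) {σ : K ≃ₐ[ℚ] K} {c : ℕ} (hσ : σ (ζ : K) = (ζ : K) ^ c)
    (χ φ : MulChar (ZMod q) (𝓞 K)) (hχ : χ ^ p = 1) (hφ : φ ^ p = 1) :
    σ • jacobiSum χ φ = jacobiSum (χ ^ c) (φ ^ c) := by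
  rw [← ringHomComp_sRing hζ hσ χ hχ, ← ringHomComp_sRing hζ hσ φ hφ, jacobiSum_ringHomComp,
    sRing_apply]

/-- Modulo a prime of prime norm, every integer of `K` is congruent to a rational integer. -/
theorem exists_int_sub_mem {Q : Ideal (𝓞 K)} {q : ℕ} (hq : q.Prime)
    (hN : Ideal.absNorm Q = q) (y : 𝓞 K) : ∃ n : ℤ, y - (n : 𝓞 K) ∈ Q := by
  classical
  have hcard : Nat.card (𝓞 K ⧸ Q) = q := by
    rw [← hN, Ideal.absNorm_apply, Submodule.cardQuot_apply]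
  have : Finite (𝓞 K ⧸ Q) := Nat.finite_of_card_ne_zero (by rw [hcard]; exact hq.ne_zero)
  let _ : Fintype (𝓞 K ⧸ Q) := Fintype.ofFinite _
  have : Fact q.Prime := ⟨hq⟩
  have hcard' : Fintype.card (𝓞 K ⧸ Q) = q := by rw [← Nat.card_eq_fintype_card, hcard]
  have hnt : Nontrivial (𝓞 K ⧸ Q) := by
    rw [← Fintype.one_lt_card_iff_nontrivial, hcard']
    exact hq.one_lt
  have h1 : (1 : 𝓞 K ⧸ Q) ≠ 0 := one_ne_zero
  have hy : Ideal.Quotient.mk Q y ∈ AddSubgroup.zmultiples (1 : 𝓞 K ⧸ Q) :=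
    mem_zmultiples_of_prime_card hcard h1
  obtain ⟨n, hn⟩ := AddSubgroup.mem_zmultiples_iff.mp hy
  refine ⟨n, ?_⟩
  rw [← Ideal.Quotient.eq_zero_iff_mem, map_sub, map_intCast, ← hn]
  simp

/-- `p ∣ q - 1` when `𝓞 K` has a primitive `p`-th root of unity and a prime of norm `q ≠ p`. -/
theorem dvd_sub_one_of_absNorm {p : ℕ} [Fact p.Prime] {ζ : 𝓞 K} (hζ : IsPrimitiveRoot ζ p)
    {Q : Ideal (𝓞 K)} (hQ : Q.IsPrime) {q : ℕ} (hq : q.Prime) (hN : Ideal.absNorm Q = q)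
    (hpQ : (p : 𝓞 K) ∉ Q) : p ∣ q - 1 := by
  classical
  have hp : p.Prime := Fact.out
  have h0 : Q ≠ ⊥ := by
    rintro rfl
    rw [Ideal.absNorm_bot] at hN
    exact hq.ne_zero hN.symm
  have hmax : Q.IsMaximal := Ideal.IsPrime.isMaximal hQ h0
  let _ : Field (𝓞 K ⧸ Q) := Ideal.Quotient.field Q
  have : Finite (𝓞 K ⧸ Q) := Ideal.finiteQuotientOfFreeOfNeBot Q h0
  let _ : Fintype (𝓞 K ⧸ Q) := Fintype.ofFinite _
  have hcard : Fintype.card (𝓞 K ⧸ Q) = q := by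
    rw [← hN, Ideal.absNorm_apply, Submodule.cardQuot_apply, Nat.card_eq_fintype_card]
  have hprim := GaussSymC.isPrimitiveRoot_mk hζ hpQ
  have h1 : Ideal.Quotient.mk Q ζ ^ (Fintype.card (𝓞 K ⧸ Q) - 1) = 1 :=
    FiniteField.pow_card_sub_one_eq_one _ (hprim.ne_zero hp.ne_zero)
  rw [hcard] at h1
  exact (hprim.pow_eq_one_iff_dvd _).mp h1

end Action

/-- **Block [JacTop]** (`Cross/Plan.lean`). -/
theorem jacTop {p : ℕ} [Fact p.Prime] (hT : JacT p) (hV : JacVanish p) : JacTop p := by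
  intro K _ _ _ ζ Q q hζ hQ hq hN hqp
  have hp : p.Prime := Fact.out
  rcases hp.eq_two_or_odd' with h2 | hodd
  · -- `p = 2`: the empty product
    refine ⟨1, fun _ => ⊤, one_dvd _, ?_, ?_⟩
    · have h0 : (p - 1) / 2 = 0 := by omega
      rw [h0, Ideal.span_singleton_one, ← Ideal.one_eq_top,
        UniqueFactorizationMonoid.normalizedFactors_one]
      rfl
    · intro c hc
      have h0 : (p - 1) / 2 = 0 := by omega
      rw [h0] at hc
      simp at hc
  -- `p` odd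
  obtain ⟨h, hh⟩ := hodd
  have hh2 : (p - 1) / 2 = h := by omega
  have : Fact q.Prime := ⟨hq⟩
  have hqQ : (q : 𝓞 K) ∈ Q := hN ▸ Ideal.absNorm_mem Q
  have hpQ : (p : 𝓞 K) ∉ Q := by
    intro hpQ
    have hcop : IsCoprime (p : ℤ) (q : ℤ) :=
      Nat.isCoprime_iff_coprime.mpr ((Nat.coprime_primes hp hq).mpr (Ne.symm hqp))
    obtain ⟨a, b, hab⟩ := hcop
    have h1 : (1 : 𝓞 K) ∈ Q := by
      have h2 : ((a * p + b * q : ℤ) : 𝓞 K) = 1 := by rw [hab]; simp
      rw [← h2]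
      push_cast
      exact Q.add_mem (Q.mul_mem_left _ hpQ) (Q.mul_mem_left _ hqQ)
    exact hQ.ne_top ((Ideal.eq_top_iff_one _).mpr h1)
  have hpq : p ∣ q - 1 := dvd_sub_one_of_absNorm hζ hQ hq hN hpQ
  -- the character
  obtain ⟨χ, hχ⟩ := MulChar.exists_mulChar_orderOf (ZMod q) (by rw [ZMod.card]; exact hpq) hζ
  have hχp : χ ^ p = 1 := by rw [← hχ]; exact pow_orderOf_eq_one χ
  have hχe : ∀ e : ℕ, (χ ^ e) ^ p = 1 := by
    intro e
    rw [← pow_mul, mul_comm, pow_mul, hχp, one_pow]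
  obtain ⟨t, ht1, htp, hTT⟩ := hT K q χ Q hχ hQ hqQ
  -- `s` with `s t ≡ 1`
  obtain ⟨s, hs⟩ : ∃ s : ℕ, (s * t) % p = 1 := by
    have htne : (t : ZMod p) ≠ 0 := by
      intro h0
      have := (ZMod.natCast_eq_zero_iff t p).mp h0
      exact absurd (Nat.le_of_dvd (by omega) this) (by omega)
    refine ⟨((t : ZMod p)⁻¹).val, ?_⟩
    have h1 : (((t : ZMod p)⁻¹).val * t : ℕ) = ((1 : ℕ) : ZMod p) := by
      rw [Nat.cast_mul, ZMod.natCast_zmod_val, inv_mul_cancel₀ htne, Nat.cast_one]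
    have h2 := (ZMod.natCast_eq_natCast_iff' _ _ _).mp h1
    rw [h2]
    exact Nat.mod_eq_of_lt hp.one_lt
  have hsp : ¬ p ∣ s := by
    intro hd
    have : p ∣ s * t := Dvd.dvd.mul_right hd t
    rw [Nat.dvd_iff_mod_eq_zero, hs] at this
    exact one_ne_zero this
  -- the automorphisms
  have hζK : IsPrimitiveRoot (ζ : K) p := hζ.map_of_injective RingOfIntegers.coe_injective
  have hex : ∀ c : ℕ, ∃ σ : K ≃ₐ[ℚ] K, ¬ p ∣ c → σ (ζ : K) = (ζ : K) ^ c := by
    intro c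
    by_cases hc : p ∣ c
    · exact ⟨1, fun h => absurd hc h⟩
    · obtain ⟨σ, hσ⟩ := exists_aut K hζK c hc
      exact ⟨σ, fun _ => hσ⟩
  choose σ hσ using hex
  have hndvd : ∀ c ∈ Finset.Icc 1 (2 * h), ¬ p ∣ c := by
    intro c hc hd
    rw [Finset.mem_Icc] at hc
    have := Nat.le_of_dvd (by omega) hd
    omega
  let Pc : ℕ → Ideal (𝓞 K) := fun c => Q.comap (sRing (σ c))
  -- membership criterion
  have hmemiff : ∀ c ∈ Finset.Icc 1 (2 * h), ∀ e : ℕ, ¬ p ∣ e →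
      (jacobiSum (χ ^ e) (χ ^ e) ∈ Pc c ↔ (e * c * t) % p + (e * c * t) % p < p) := by
    intro c hc e he
    have hcd := hndvd c hc
    have hecd : ¬ p ∣ e * c := by
      intro hd
      rcases (Nat.Prime.dvd_mul hp).mp hd with h1 | h1
      · exact he h1
      · exact hcd h1
    have h1 : jacobiSum (χ ^ e) (χ ^ e) ∈ Pc c ↔ jacobiSum (χ ^ (e * c)) (χ ^ (e * c)) ∈ Q := by
      change sRing (σ c) (jacobiSum (χ ^ e) (χ ^ e)) ∈ Q ↔ _
      rw [sRing_apply, smul_jacobiSum hζ (hσ c hcd) _ _ (hχe e) (hχe e), ← pow_mul]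
    rw [h1]
    exact hV K q χ Q t (e * c) (e * c) hχ hQ hqQ ht1 htp hTT hecd hecd
  set J := jacobiSum (χ ^ s) (χ ^ s) with hJdef
  -- the inverse character
  have hinv : (χ ^ s)⁻¹ = χ ^ (s * (p - 1)) := by
    rw [inv_eq_iff_mul_eq_one, ← pow_add]
    have : s + s * (p - 1) = p * s := by
      have hp1 : 1 ≤ p := hp.pos
      zify [hp1]
      ring
    rw [this, pow_mul, hχp, one_pow]
  have hχs : χ ^ s ≠ 1 := by
    intro h1
    exact hsp (hχ ▸ orderOf_dvd_of_pow_eq_one h1)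
  have hχss : χ ^ s * χ ^ s ≠ 1 := by
    intro h1
    rw [← pow_add] at h1
    have hd : p ∣ s + s := hχ ▸ orderOf_dvd_of_pow_eq_one h1
    rw [← two_mul] at hd
    rcases (Nat.Prime.dvd_mul hp).mp hd with h2 | h2
    · have := Nat.le_of_dvd (by norm_num) h2
      omega
    · exact hsp h2
  have hJJ : J * jacobiSum (χ ^ s)⁻¹ (χ ^ s)⁻¹ = (q : 𝓞 K) :=
    JacTopAux.jac_mul_jac_inv (χ ^ s) (χ ^ s) hχs hχs hχss
  have hirr : Irreducible (Polynomial.cyclotomic p ℚ) :=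
    Polynomial.cyclotomic.irreducible_rat hp.pos
  have hfin : Module.finrank ℚ K = 2 * h := by
    rw [IsCyclotomicExtension.finrank K hirr, Nat.totient_prime hp]
    omega
  refine ⟨J, Pc, Dvd.intro _ hJJ, ?_, ?_⟩
  · rw [hh2]
    apply JacTopAux.factors_of_count q h hq J _ hJJ hfin Pc
    · intro c _
      exact Ideal.comap_isPrime _ _
    · intro c _
      exact (JacTopAux.absNorm_comap_smul (σ c) Q).trans hN
    · -- injectivity
      intro c hc c' hc' hcc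
      have hcd := hndvd c hc
      have hcd' := hndvd c' hc'
      rw [Finset.mem_Icc] at hc hc'
      have key : ∀ x : 𝓞 K, σ c • x - σ c' • x ∈ Q := by
        intro x
        obtain ⟨n, hn⟩ := exists_int_sub_mem hq hN (σ c' • x)
        have h1 : x - (n : 𝓞 K) ∈ Pc c' := by
          change sRing (σ c') (x - (n : 𝓞 K)) ∈ Q
          rw [map_sub, map_intCast, sRing_apply]
          exact hn
        rw [← hcc] at h1
        have h2 : σ c • x - (n : 𝓞 K) ∈ Q := by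
          have h3 : sRing (σ c) (x - (n : 𝓞 K)) ∈ Q := h1
          rwa [map_sub, map_intCast, sRing_apply] at h3
        have h4 := Q.sub_mem h2 hn
        have h5 : σ c • x - (n : 𝓞 K) - (σ c' • x - (n : 𝓞 K)) = σ c • x - σ c' • x := by ring
        rwa [h5] at h4
      have h1 := key ζ
      rw [smul_zeta (hσ c hcd), smul_zeta (hσ c' hcd')] at h1
      have hclt : c < p := by omega
      have hclt' : c' < p := by omega
      have h2 : ζ ^ ((c : ZMod p)).val - ζ ^ ((c' : ZMod p)).val ∈ Q := by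
        rw [ZMod.val_natCast_of_lt hclt, ZMod.val_natCast_of_lt hclt']
        exact h1
      have h3 := GaussSymC.zeta_pow_inj_mod hζ hpQ h2
      have h4 := congrArg ZMod.val h3
      rwa [ZMod.val_natCast_of_lt hclt, ZMod.val_natCast_of_lt hclt'] at h4
    · -- `J ∈ Pc c` for `c ≤ h`
      intro c hc
      have hc' : c ∈ Finset.Icc 1 (2 * h) := by
        rw [Finset.mem_Icc] at hc ⊢
        omega
      rw [hJdef, hmemiff c hc' s hsp]
      rw [Finset.mem_Icc] at hc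
      have h1 : (s * c * t) % p = c := by
        have h2 : s * c * t = c * (s * t) := by ring
        rw [h2, Nat.mul_mod, hs, mul_one, Nat.mod_mod]
        exact Nat.mod_eq_of_lt (by omega)
      rw [h1]
      omega
    · -- `J' ∈ Pc c` for `c > h`
      intro c hc
      have hc' : c ∈ Finset.Icc 1 (2 * h) := by
        rw [Finset.mem_Icc] at hc ⊢
        omega
      have hspp : ¬ p ∣ s * (p - 1) := by
        intro hd
        rcases (Nat.Prime.dvd_mul hp).mp hd with h2 | h2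
        · exact hsp h2
        · have := Nat.le_of_dvd (by omega) h2
          omega
      rw [hinv, hmemiff c hc' _ hspp]
      rw [Finset.mem_Icc] at hc
      have h1 : (s * (p - 1) * c * t) % p = p - c := by
        have h2 : s * (p - 1) * c * t = ((p - 1) * c) * (s * t) := by ring
        rw [h2, Nat.mul_mod, hs, mul_one, Nat.mod_mod]
        obtain ⟨c₀, rfl⟩ : ∃ c₀, c = c₀ + 1 := ⟨c - 1, by omega⟩
        have h3 : (p - 1) * (c₀ + 1) = (p - (c₀ + 1)) + p * c₀ := by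
          have hp1 : c₀ + 1 ≤ p := by omega
          have hp2 : 1 ≤ p := by omega
          zify [hp1, hp2]
          ring
        rw [h3, Nat.add_mul_mod_self_left]
        exact Nat.mod_eq_of_lt (by omega)
      rw [h1]
      omega
  · intro c hc
    rw [hh2] at hc
    have hc' : c ∈ Finset.Icc 1 (2 * h) := by
      rw [Finset.mem_Icc] at hc ⊢
      omega
    exact ⟨σ c, hσ c (hndvd c hc'), fun x => Iff.rfl⟩

end Fermat.Agent.S14C.Cross.JacTop
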