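import Mathlib
import Fermat.Agent.S14C.Cross.Plan

/-!
# S14, team T2, crossing hedge: leaves [KExt] and [NotPow]

* `kExt : KExt p` — for a number field `K` containing a primitive `p`-th root of unity and an
  integer `μ` of `K` which is not a `p`-th power in `K`, the Kummer extension
  `F = K[X]/(X^p - μ)` is a number field, Galois of degree `p` over `K`, and contains an
  integer `θ` with `θ ^ p = μ`.
* `notPow : NotPow p` — an integer whose valuation at some prime is prime to `p` is not a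
  `p`-th power.
-/

set_option autoImplicit false

open NumberField Polynomial

namespace Fermat.Agent.S14C.Cross.KExt

theorem kExt {p : ℕ} [Fact p.Prime] : KExt p := by
  intro K _ _ ζ μ Cc hζ hμ hC
  have hp : p.Prime := Fact.out
  have hirr : Irreducible (X ^ p - C ((μ : 𝓞 K) : K)) :=
    X_pow_sub_C_irreducible_of_prime hp (fun b hb => hμ ⟨b, hb.symm⟩)
  have := Fact.mk hirr
  have : Module.Finite K (AdjoinRoot (X ^ p - C ((μ : 𝓞 K) : K))) :=
    (AdjoinRoot.powerBasis hirr.ne_zero).finite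
  have : NumberField (AdjoinRoot (X ^ p - C ((μ : 𝓞 K) : K))) :=
    NumberField.of_module_finite K _
  have hζK : IsPrimitiveRoot ((ζ : 𝓞 K) : K) p :=
    hζ.map_of_injective (f := algebraMap (𝓞 K) K) RingOfIntegers.coe_injective
  have hne : (primitiveRoots p K).Nonempty := ⟨_, (mem_primitiveRoots hp.pos).mpr hζK⟩
  have := isSplittingField_AdjoinRoot_X_pow_sub_C hne hirr
  have : IsGalois K (AdjoinRoot (X ^ p - C ((μ : 𝓞 K) : K))) :=
    isGalois_of_isSplittingField_X_pow_sub_C hne hirr _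
  have hfin : Module.finrank K (AdjoinRoot (X ^ p - C ((μ : 𝓞 K) : K))) = p :=
    finrank_of_isSplittingField_X_pow_sub_C hne hirr _
  have hθ₀ : (AdjoinRoot.root (X ^ p - C ((μ : 𝓞 K) : K))) ^ p =
      algebraMap K (AdjoinRoot (X ^ p - C ((μ : 𝓞 K) : K))) (μ : K) :=
    root_X_pow_sub_C_pow p ((μ : 𝓞 K) : K)
  have hint : IsIntegral ℤ (AdjoinRoot.root (X ^ p - C ((μ : 𝓞 K) : K))) := by
    have h1 : IsIntegral ℤ ((AdjoinRoot.root (X ^ p - C ((μ : 𝓞 K) : K))) ^ p) := by
      rw [hθ₀]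
      exact (RingOfIntegers.isIntegral_coe μ).algebraMap
    exact IsIntegral.of_pow hp.pos h1
  refine hC (AdjoinRoot (X ^ p - C ((μ : 𝓞 K) : K))) hfin ⟨_, hint⟩ ?_
  apply RingOfIntegers.ext
  exact hθ₀

theorem notPow {p : ℕ} [Fact p.Prime] : NotPow p := by
  intro K _ _ μ 𝔩 k h𝔩 h𝔩0 hpk hk hk1
  rintro ⟨y, hy⟩
  -- `y` is an integer
  have hyint : IsIntegral ℤ y := by
    have h1 : IsIntegral ℤ (y ^ p) := by rw [← hy]; exact RingOfIntegers.isIntegral_coe μ
    exact IsIntegral.of_pow (Fact.out : p.Prime).pos h1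
  set y' : 𝓞 K := ⟨y, hyint⟩ with hy'
  have hμy : μ = y' ^ p := by
    apply RingOfIntegers.ext
    rw [hy]; rfl
  have hprime : Prime 𝔩 := Ideal.prime_of_isPrime h𝔩0 h𝔩
  have hspan : Ideal.span {μ} = Ideal.span {y'} ^ p := by
    rw [hμy, Ideal.span_singleton_pow]
  have hfin : emultiplicity 𝔩 (Ideal.span {μ}) = k := by
    rw [emultiplicity_eq_coe]
    exact ⟨Ideal.dvd_span_singleton.mpr hk, fun h => hk1 (Ideal.dvd_span_singleton.mp h)⟩
  rw [hspan, emultiplicity_pow hprime] at hfin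
  -- `p * e = k` in `ℕ∞`, so `p ∣ k`
  cases h : emultiplicity 𝔩 (Ideal.span {y'}) with
  | top =>
    rw [h] at hfin
    have hp0 : ((p : ℕ∞)) ≠ 0 := by exact_mod_cast (Fact.out : p.Prime).ne_zero
    rw [ENat.mul_top hp0] at hfin
    exact ENat.top_ne_natCast _ hfin
  | coe j =>
    rw [h] at hfin
    have : p * j = k := by exact_mod_cast hfin
    exact hpk ⟨j, this.symm⟩

end Fermat.Agent.S14C.Cross.KExt
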