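import Mathlib
import Fermat.Agent.S14C.Cross.Plan

/-!
# S14, team T2, crossing hedge: leaf [KummerSplit]

If `F = K(θ)`, `θ ^ p = μ`, is a Galois extension of degree `p` of a number field `K ∋ ζ_p`,
and `P ∌ p μ` is a prime of `K` at which `μ` is a `p`-th power residue, then every prime `𝔅` of
`F` above `P` has trivial decomposition group, hence residue degree one.

Proof: `μ ≡ y ^ p (mod P)`, so `∏ (θ - ζ₀ y) ∈ 𝔅` and `θ ≡ ζ₀ y (mod 𝔅)` for some `p`-th root of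
unity `ζ₀`.  If `σ ≠ 1` fixes `𝔅` then `σ θ = ζ₁ θ` with `ζ₁ ≠ 1` (otherwise `θ ∈ K`), and
`(ζ₁ - 1) ζ₀ y ∈ 𝔅`, which forces `p ∈ P` or `μ ∈ P`.
-/

set_option autoImplicit false

open NumberField

open scoped Pointwise

namespace Fermat.Agent.S14C.Cross.KummerSplit

open Fermat.Agent.S14C Fermat.Agent.S14C.Cross

/-- A `p`-th root of unity `≠ 1` in a domain is congruent to `1` only modulo ideals
containing `p`. -/
theorem natCast_mem_of_root_sub_one_mem {R : Type*} [CommRing R] [IsDomain R] {p : ℕ}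
    {ζ₁ : R} (h1 : ζ₁ ^ p = 1) (hne : ζ₁ ≠ 1) (I : Ideal R) (hI : ζ₁ - 1 ∈ I) :
    (p : R) ∈ I := by
  have hsum : ∑ i ∈ Finset.range p, ζ₁ ^ i = 0 := by
    have h := mul_geom_sum ζ₁ p
    rw [h1, sub_self] at h
    rcases mul_eq_zero.mp h with h | h
    · exact absurd (sub_eq_zero.mp h) hne
    · exact h
  have hmk : Ideal.Quotient.mk I ζ₁ = 1 := by
    rw [← map_one (Ideal.Quotient.mk I)]
    exact Ideal.Quotient.eq.mpr hI
  have h2 : Ideal.Quotient.mk I (∑ i ∈ Finset.range p, ζ₁ ^ i) = (p : R ⧸ I) := by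
    simp [map_sum, map_pow, hmk]
  rw [hsum, map_zero] at h2
  have h3 : Ideal.Quotient.mk I (p : R) = 0 := by
    rw [map_natCast]; exact h2.symm
  exact Ideal.Quotient.eq_zero_iff_mem.mp h3

theorem kummerSplit {p : ℕ} [Fact p.Prime] (hZ : SymZero p) : KummerSplit p := by
  intro K F _ _ _ _ _ _ ζ μ θ P hζ hμ hdeg hθ hP hP0 hpP hμP hsym
  have hp : p.Prime := Fact.out
  -- `μ ≡ y ^ p (mod P)`
  obtain ⟨y, hy⟩ := hZ K ζ μ P hζ hP hP0 hpP hμP hsym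
  have hyP : y ∉ P := by
    intro hyP
    apply hμP
    have h1 : y ^ p ∈ P := Ideal.pow_mem_of_mem P hyP p hp.pos
    have h2 := P.add_mem hy h1
    simpa using h2
  -- a prime of `F` above `P`
  have hPmax : P.IsMaximal := hP.isMaximal hP0
  obtain ⟨𝔅, h𝔅max, h𝔅over⟩ :=
    Ideal.exists_maximal_ideal_liesOver_of_isIntegral (S := 𝓞 F) P
  have h𝔅prime : 𝔅.IsPrime := h𝔅max.isPrime
  have hunder : 𝔅.under (𝓞 K) = P := (Ideal.over_def 𝔅 P).symm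
  have hmem_iff : ∀ x : 𝓞 K, algebraMap (𝓞 K) (𝓞 F) x ∈ 𝔅 ↔ x ∈ P := by
    intro x
    rw [← hunder]
    exact Iff.rfl
  have h𝔅0 : 𝔅 ≠ ⊥ := by
    intro h
    apply hP0
    rw [← hunder, h]
    exact Ideal.under_bot (𝓞 K) (𝓞 F)
  -- notation
  set ζ' : 𝓞 F := algebraMap (𝓞 K) (𝓞 F) ζ with hζ'def
  set y' : 𝓞 F := algebraMap (𝓞 K) (𝓞 F) y with hy'def
  have hinj : Function.Injective (algebraMap (𝓞 K) (𝓞 F)) :=
    FaithfulSMul.algebraMap_injective (𝓞 K) (𝓞 F)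
  have hζ' : IsPrimitiveRoot ζ' p := hζ.map_of_injective hinj
  -- `θ ≡ ζ₀ y (mod 𝔅)`
  have hprod : θ ^ p - y' ^ p ∈ 𝔅 := by
    have : θ ^ p - y' ^ p = algebraMap (𝓞 K) (𝓞 F) (μ - y ^ p) := by
      rw [hθ, map_sub, map_pow]
    rw [this]
    exact (hmem_iff _).mpr hy
  rw [hζ'.pow_sub_pow_eq_prod_sub_mul θ y' hp.pos] at hprod
  obtain ⟨ζ₀, hζ₀mem, hζ₀⟩ := (Ideal.IsPrime.prod_mem_iff.mp hprod)
  have hζ₀pow : ζ₀ ^ p = 1 := (Polynomial.mem_nthRootsFinset hp.pos 1).mp hζ₀mem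
  -- the decomposition group of `𝔅` is trivial
  have hθK : ∀ x : K, algebraMap K F x ≠ (θ : F) := by
    intro x hx
    apply hμ
    refine ⟨x, ?_⟩
    apply FaithfulSMul.algebraMap_injective K F
    rw [map_pow, hx]
    have h1 : ((θ ^ p : 𝓞 F) : F) = ((algebraMap (𝓞 K) (𝓞 F) μ : 𝓞 F) : F) := by rw [hθ]
    have h2 : ((θ ^ p : 𝓞 F) : F) = (θ : F) ^ p := map_pow (algebraMap (𝓞 F) F) θ p
    rw [← h2, h1]
    rfl
  have hcardG : Nat.card (F ≃ₐ[K] F) = p := by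
    rw [IsGalois.card_aut_eq_finrank, hdeg]
  have hstab : MulAction.stabilizer (F ≃ₐ[K] F) 𝔅 = ⊥ := by
    rw [eq_bot_iff]
    intro σ hσ
    rw [Subgroup.mem_bot]
    by_contra hσ1
    rw [MulAction.mem_stabilizer_iff] at hσ
    -- `σ θ = ζ₁ θ`
    have hσθp : (σ • θ) ^ p - θ ^ p = 0 := by
      rw [← smul_pow', hθ, sub_eq_zero]
      apply RingOfIntegers.ext
      change σ ((algebraMap (𝓞 K) (𝓞 F) μ : 𝓞 F) : F) = _
      have : ((algebraMap (𝓞 K) (𝓞 F) μ : 𝓞 F) : F) = algebraMap K F (μ : K) := rfl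
      rw [this, σ.commutes]
    rw [hζ'.pow_sub_pow_eq_prod_sub_mul (σ • θ) θ hp.pos] at hσθp
    obtain ⟨ζ₁, hζ₁mem, hζ₁⟩ := Finset.prod_eq_zero_iff.mp hσθp
    have hζ₁pow : ζ₁ ^ p = 1 := (Polynomial.mem_nthRootsFinset hp.pos 1).mp hζ₁mem
    have hσθ : σ • θ = ζ₁ * θ := sub_eq_zero.mp hζ₁
    -- `ζ₁ ≠ 1`, otherwise `θ ∈ K`
    have hζ₁ne : ζ₁ ≠ 1 := by
      intro h1
      rw [h1, one_mul] at hσθ
      have hfix : ∀ τ : F ≃ₐ[K] F, τ (θ : F) = (θ : F) := by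
        intro τ
        have hτ : τ ∈ Subgroup.zpowers σ := by
          rw [zpowers_eq_top_of_prime_card hcardG hσ1]
          exact Subgroup.mem_top τ
        obtain ⟨n, rfl⟩ := Subgroup.mem_zpowers_iff.mp hτ
        have hσθ' : σ (θ : F) = (θ : F) := by
          have := congrArg (fun x : 𝓞 F => (x : F)) hσθ
          exact this
        have hmem : σ ∈ MulAction.stabilizer (F ≃ₐ[K] F) (θ : F) := by
          rw [MulAction.mem_stabilizer_iff]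
          exact hσθ'
        have := Subgroup.zpow_mem _ hmem n
        rw [MulAction.mem_stabilizer_iff] at this
        exact this
      obtain ⟨x, hx⟩ := (IsGalois.mem_bot_iff_fixed (F := K) (E := F) (θ : F)).mpr hfix
      exact hθK x hx
    -- `(ζ₁ - 1) ζ₀ y ∈ 𝔅`
    have h1 : σ • (θ - ζ₀ * y') ∈ 𝔅 := by
      have : σ • (θ - ζ₀ * y') ∈ σ • 𝔅 := Ideal.smul_mem_pointwise_smul σ _ 𝔅 hζ₀
      rwa [hσ] at this
    have hσζ₀ : σ • ζ₀ = ζ₀ := by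
      obtain ⟨i, -, rfl⟩ := hζ'.eq_pow_of_pow_eq_one hζ₀pow
      rw [smul_pow']
      congr 1
      apply RingOfIntegers.ext
      change σ ((algebraMap (𝓞 K) (𝓞 F) ζ : 𝓞 F) : F) = _
      have : ((algebraMap (𝓞 K) (𝓞 F) ζ : 𝓞 F) : F) = algebraMap K F (ζ : K) := rfl
      rw [this, σ.commutes]
    have hσy : σ • y' = y' := by
      apply RingOfIntegers.ext
      change σ ((algebraMap (𝓞 K) (𝓞 F) y : 𝓞 F) : F) = _
      have : ((algebraMap (𝓞 K) (𝓞 F) y : 𝓞 F) : F) = algebraMap K F (y : K) := rfl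
      rw [this, σ.commutes]
    rw [smul_sub, smul_mul', hσθ, hσζ₀, hσy] at h1
    have h2 : ζ₁ * (θ - ζ₀ * y') ∈ 𝔅 := 𝔅.mul_mem_left ζ₁ hζ₀
    have h3 : (ζ₁ - 1) * (ζ₀ * y') ∈ 𝔅 := by
      have := 𝔅.sub_mem h2 h1
      have e : ζ₁ * (θ - ζ₀ * y') - (ζ₁ * θ - ζ₀ * y') = -((ζ₁ - 1) * (ζ₀ * y')) := by ring
      rw [e] at this
      exact (Ideal.neg_mem_iff 𝔅).mp this
    rcases h𝔅prime.mem_or_mem h3 with h4 | h4
    · have hp𝔅 : ((p : ℕ) : 𝓞 F) ∈ 𝔅 := natCast_mem_of_root_sub_one_mem hζ₁pow hζ₁ne 𝔅 h4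
      apply hpP
      rw [← hmem_iff]
      simpa using hp𝔅
    · rcases h𝔅prime.mem_or_mem h4 with h5 | h5
      · have : (1 : 𝓞 F) ∈ 𝔅 := by
          rw [← hζ₀pow]
          exact Ideal.pow_mem_of_mem 𝔅 h5 p hp.pos
        exact h𝔅prime.ne_top ((Ideal.eq_top_iff_one 𝔅).mpr this)
      · exact hyP ((hmem_iff y).mp h5)
  -- conclude with `|D| = |I| · f`
  have hperf : PerfectField P.ResidueField := inferInstance
  have hcard := Ideal.card_stabilizer_eq_card_inertia_mul_finrank (G := F ≃ₐ[K] F) P 𝔅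
  rw [hstab] at hcard
  have hone : Nat.card (⊥ : Subgroup (F ≃ₐ[K] F)) = 1 := by simp
  rw [hone] at hcard
  exact ⟨𝔅, h𝔅prime, h𝔅0, hunder, Nat.eq_one_of_mul_eq_one_left hcard.symm⟩

end Fermat.Agent.S14C.Cross.KummerSplit
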