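import Fermat.Agent.S14C.EvalI

/-!
# Crossing hedge, block [NormVal]: transport of the X-space along the relative norm
-/

set_option autoImplicit false

open NumberField

namespace Fermat.Agent.S14C.NormVal

open Fermat.Agent.S14C Fermat.Agent.S14C.EvalI

variable {K F : Type} [Field K] [NumberField K] [Field F] [NumberField F] [Algebra K F]
  {p : ℕ} [Fact p.Prime]

/-- the relative norm of a nonzero prime is the prime below to the inertia degree -/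
theorem relNorm_prime (𝔅 : Ideal (𝓞 F)) (h𝔅 : 𝔅.IsPrime) (h0 : 𝔅 ≠ ⊥) :
    Ideal.relNorm (𝓞 K) 𝔅 = (𝔅.under (𝓞 K)) ^ (𝔅.inertiaDeg (𝓞 K)) := by
  have : 𝔅.IsMaximal := Ring.DimensionLEOne.maximalOfPrime h0 h𝔅
  have : (𝔅.under (𝓞 K)).IsMaximal := Ideal.IsMaximal.under (𝓞 K) 𝔅
  exact Ideal.relNorm_eq_pow_of_isMaximal 𝔅 (𝔅.under (𝓞 K))

theorem under_ne_bot (𝔅 : Ideal (𝓞 F)) (h0 : 𝔅 ≠ ⊥) : 𝔅.under (𝓞 K) ≠ ⊥ := by
  intro h
  apply h0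
  have := Ideal.eq_bot_of_comap_eq_bot (R := 𝓞 K) (S := 𝓞 F) (I := 𝔅) h
  exact this

theorem exists_prime_of_relNorm_le (𝔭 : Ideal (𝓞 K)) (h𝔭 : 𝔭.IsPrime) :
    ∀ I : Ideal (𝓞 F), I ≠ ⊥ → Ideal.relNorm (𝓞 K) I ≤ 𝔭 →
      ∃ P : Ideal (𝓞 F), P.IsPrime ∧ P ≠ ⊥ ∧ P.under (𝓞 K) ≤ 𝔭 ∧ I ≤ P := by
  apply ideal_induction
  · intro h
    rw [Ideal.relNorm_top] at h
    exact absurd (top_le_iff.mp h) h𝔭.ne_top
  · intro P hP hP0 h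
    rw [relNorm_prime P hP hP0] at h
    exact ⟨P, hP, hP0, h𝔭.le_of_pow_le h, le_rfl⟩
  · intro I J hI hJ h1 h2 h
    rw [map_mul] at h
    rcases h𝔭.mul_le.mp h with h | h
    · obtain ⟨P, hP, hP0, hu, hle⟩ := h1 h
      exact ⟨P, hP, hP0, hu, Ideal.mul_le_left.trans hle⟩
    · obtain ⟨P, hP, hP0, hu, hle⟩ := h2 h
      exact ⟨P, hP, hP0, hu, Ideal.mul_le_right.trans hle⟩

/-- coprimality to a rational integer passes to the relative norm -/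
theorem isCoprime_intNorm (x : 𝓞 F) (hx0 : x ≠ 0) (m : ℕ) (h : IsCoprime x (m : 𝓞 F)) :
    IsCoprime (Algebra.intNorm (𝓞 K) (𝓞 F) x) (m : 𝓞 K) := by
  by_contra hnot
  have hne : Ideal.span {Algebra.intNorm (𝓞 K) (𝓞 F) x, (m : 𝓞 K)} ≠ ⊤ := by
    intro htop
    apply hnot
    rw [Ideal.eq_top_iff_one, Ideal.mem_span_pair] at htop
    obtain ⟨a, b, hab⟩ := htop
    exact ⟨a, b, hab⟩
  obtain ⟨𝔭, h𝔭, hle⟩ := Ideal.exists_le_maximal _ hne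
  have hN : Algebra.intNorm (𝓞 K) (𝓞 F) x ∈ 𝔭 := hle (Ideal.subset_span (by simp))
  have hm : (m : 𝓞 K) ∈ 𝔭 := hle (Ideal.subset_span (by simp))
  have hI : Ideal.span ({x} : Set (𝓞 F)) ≠ ⊥ := by
    rw [Ne, Ideal.span_singleton_eq_bot]; exact hx0
  have hrel : Ideal.relNorm (𝓞 K) (Ideal.span ({x} : Set (𝓞 F))) ≤ 𝔭 := by
    rw [Ideal.relNorm_singleton, Ideal.span_singleton_le_iff_mem]
    exact hN
  obtain ⟨P, hP, hP0, hu, hxP⟩ := exists_prime_of_relNorm_le 𝔭 h𝔭.isPrime _ hI hrel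
  have : P.IsMaximal := Ring.DimensionLEOne.maximalOfPrime hP0 hP
  have : (P.under (𝓞 K)).IsMaximal := Ideal.IsMaximal.under (𝓞 K) P
  have hPu : P.under (𝓞 K) = 𝔭 := Ideal.IsMaximal.eq_of_le inferInstance h𝔭.ne_top hu
  have hmP : (m : 𝓞 F) ∈ P := by
    have : (m : 𝓞 K) ∈ P.under (𝓞 K) := hPu ▸ hm
    have h3 := Ideal.mem_comap.mp this
    simpa using h3
  obtain ⟨u, v, huv⟩ := h
  apply hP.ne_top
  rw [Ideal.eq_top_iff_one, ← huv]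
  exact P.add_mem (P.mul_mem_left _ (hxP (Ideal.mem_span_singleton_self x))) (P.mul_mem_left _ hmP)

/-- **[NormVal]**: if `Θ` lies in the X-space of `(K, α, m)` then `𝔅 ↦ Θ(N_{F/K} 𝔅)` lies in the
X-space of `(F, α, m * ℓ)`; the base change formula for `sym` is an explicit hypothesis. -/
theorem inX_relNorm (ζ α : 𝓞 K) (m ℓ : ℕ) (Θ : Ideal (𝓞 K) → ZMod p)
    (hbc : ∀ 𝔅 : Ideal (𝓞 F), 𝔅.IsPrime → 𝔅 ≠ ⊥ → ((m * ℓ : ℕ) : 𝓞 F) ∉ 𝔅 →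
      sym p (algebraMap (𝓞 K) (𝓞 F) ζ) (algebraMap (𝓞 K) (𝓞 F) α) 𝔅 =
        ((𝔅.inertiaDeg (𝓞 K) : ℕ) : ZMod p) * sym p ζ α (𝔅.under (𝓞 K)))
    (hΘ : InX p ζ α m Θ) :
    InX p (algebraMap (𝓞 K) (𝓞 F) ζ) (algebraMap (𝓞 K) (𝓞 F) α) (m * ℓ)
      (fun 𝔅 => evalI Θ (Ideal.relNorm (𝓞 K) 𝔅)) := by
  constructor
  · intro x hx
    by_cases hx0 : x = 0
    · subst hx0
      have : Ideal.span ({0} : Set (𝓞 F)) = ⊥ := by simp
      rw [this]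
      unfold evalI
      rw [show (⊥ : Ideal (𝓞 F)) = 0 from rfl, UniqueFactorizationMonoid.normalizedFactors_zero]
      rfl
    have hI : Ideal.span ({x} : Set (𝓞 F)) ≠ ⊥ := by
      rw [Ne, Ideal.span_singleton_eq_bot]; exact hx0
    rw [evalI_comp Θ (Ideal.relNorm (𝓞 K)) (fun I hI => by
      rwa [Ne, Ideal.relNorm_eq_bot_iff]) _ hI, Ideal.relNorm_singleton]
    apply hΘ.principal
    apply isCoprime_intNorm _ hx0
    have hx' : IsCoprime x ((m : 𝓞 F) * (ℓ : 𝓞 F)) := by simpa using hx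
    exact hx'.of_mul_right_left
  · intro 𝔅 h𝔅 h𝔅0 hm hs
    have hm' : ((m * ℓ : ℕ) : 𝓞 F) ∉ 𝔅 := hm
    rw [hbc 𝔅 h𝔅 h𝔅0 hm'] at hs
    show evalI Θ (Ideal.relNorm (𝓞 K) 𝔅) = 0
    rw [relNorm_prime 𝔅 h𝔅 h𝔅0, evalI_pow]
    have hprime : (𝔅.under (𝓞 K)).IsPrime := Ideal.IsPrime.under (𝓞 K) 𝔅
    rw [evalI_prime Θ hprime (under_ne_bot 𝔅 h𝔅0)]
    rcases mul_eq_zero.mp hs with h | h
    · rw [h, zero_mul]
    · have hmu : (m : 𝓞 K) ∉ 𝔅.under (𝓞 K) := by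
        intro hmem
        apply hm
        have h3 := Ideal.mem_comap.mp hmem
        have h4 : (m : 𝓞 F) ∈ 𝔅 := by simpa using h3
        rw [Nat.cast_mul]
        exact 𝔅.mul_mem_right _ h4
      rw [hΘ.split _ hprime (under_ne_bot 𝔅 h𝔅0) hmu h, mul_zero]

end Fermat.Agent.S14C.NormVal
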