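import Mathlib
import Fermat.Agent.S14C.Cross.Plan
import Fermat.Agent.S14C.EvalI
import Fermat.Agent.S14C.Cross.NormVal

/-!
# Crossing hedge, block [Norm]: the leaves `NormTower`, `NormCoprime`, `NormVal`

* `norm_eq_intNorm` : the bridge `RingOfIntegers.norm K x = Algebra.intNorm (𝓞 K) (𝓞 F) x`.
* `normTower : Cross.NormTower` : `N_{F/ℚ} x = N_{K/ℚ} (N_{F/K} x)` on integers.
* `normCoprime : Cross.NormCoprime` : the relative norm of an integer coprime to `n` is
  coprime to `n`.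
* `normVal : Cross.NormVal p` : `evalI (Θ ∘ N) (x) = evalI Θ (N_{F/K} x)`.
-/

set_option autoImplicit false

open NumberField

namespace Fermat.Agent.S14C.NormQ

open Fermat.Agent.S14C Fermat.Agent.S14C.EvalI Fermat.Agent.S14C.Cross

variable {K F : Type} [Field K] [NumberField K] [Field F] [NumberField F] [Algebra K F]

/-- The bridge: the norm on rings of integers is the `intNorm` of the extension `𝓞 F / 𝓞 K`. -/
theorem norm_eq_intNorm (x : 𝓞 F) :
    RingOfIntegers.norm K x = Algebra.intNorm (𝓞 K) (𝓞 F) x := by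
  apply RingOfIntegers.ext
  rw [RingOfIntegers.coe_norm]
  exact (Algebra.algebraMap_intNorm (A := 𝓞 K) (K := K) (L := F) (B := 𝓞 F) x).symm

/-- The image in `ℚ` of the absolute norm of the relative norm. -/
theorem coe_norm_int_norm (x : 𝓞 F) :
    ((Algebra.norm ℤ (RingOfIntegers.norm K x) : ℤ) : ℚ) = Algebra.norm ℚ (x : F) := by
  rw [Algebra.coe_norm_int, RingOfIntegers.coe_norm, Algebra.norm_norm]

/-- **[NormTower]** Transitivity of the norm on integers. -/
theorem normTower : Fermat.Agent.S14C.Cross.NormTower := by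
  intro K F _ _ _ _ _ x
  have h : ((Algebra.norm ℤ x : ℤ) : ℚ) = ((Algebra.norm ℤ (RingOfIntegers.norm K x) : ℤ) : ℚ) := by
    rw [coe_norm_int_norm, Algebra.coe_norm_int]
  exact_mod_cast h

/-- A natural number which is a unit in `𝓞 F` is a unit in `𝓞 K`. -/
theorem isUnit_natCast_of_isUnit (n : ℕ) (h : IsUnit (n : 𝓞 F)) : IsUnit (n : 𝓞 K) := by
  have h1 : IsUnit (RingOfIntegers.norm K (n : 𝓞 F)) := h.map _
  have h2 : (n : 𝓞 F) = algebraMap (𝓞 K) (𝓞 F) (n : 𝓞 K) := by simp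
  rw [h2, RingOfIntegers.norm_algebraMap] at h1
  exact (isUnit_pow_iff (Nat.pos_iff_ne_zero.mp Module.finrank_pos)).mp h1

/-- The relative norm of `0` is `0`. -/
theorem norm_zero' : RingOfIntegers.norm K (0 : 𝓞 F) = 0 := by
  rw [norm_eq_intNorm, Algebra.intNorm_zero]

/-- **[NormCoprime]** The relative norm of an integer coprime to `n` is coprime to `n`. -/
theorem normCoprime : Fermat.Agent.S14C.Cross.NormCoprime := by
  intro K F _ _ _ _ _ x n h
  by_cases hx0 : x = 0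
  · subst hx0
    rw [isCoprime_zero_left] at h
    rw [norm_zero', isCoprime_zero_left]
    exact isUnit_natCast_of_isUnit n h
  · rw [norm_eq_intNorm]
    exact Fermat.Agent.S14C.NormVal.isCoprime_intNorm x hx0 n h

/-- On nonzero primes, `liftTheta K Θ` is `𝔅 ↦ evalI Θ (N_{F/K} 𝔅)`. -/
theorem liftTheta_eq_evalI_relNorm {p : ℕ} (Θ : Ideal (𝓞 K) → ZMod p) (𝔅 : Ideal (𝓞 F))
    (h𝔅 : 𝔅.IsPrime) (h0 : 𝔅 ≠ ⊥) :
    liftTheta K Θ 𝔅 = evalI Θ (Ideal.relNorm (𝓞 K) 𝔅) := by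
  rw [Fermat.Agent.S14C.NormVal.relNorm_prime 𝔅 h𝔅 h0, evalI_pow,
    evalI_prime Θ (Ideal.IsPrime.under (𝓞 K) 𝔅) (Fermat.Agent.S14C.NormVal.under_ne_bot 𝔅 h0)]
  rfl

/-- `NormVal` for every natural number `p` (no primality needed). -/
theorem normVal_nat (p : ℕ) : Fermat.Agent.S14C.Cross.NormVal p := by
  intro K F _ _ _ _ _ Θ x hx
  have hI : Ideal.span ({x} : Set (𝓞 F)) ≠ ⊥ := by
    rw [Ne, Ideal.span_singleton_eq_bot]; exact hx
  have h1 : evalI (liftTheta K Θ) (Ideal.span {x}) =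
      evalI (fun P => evalI Θ (Ideal.relNorm (𝓞 K) P)) (Ideal.span {x}) :=
    evalI_congr (fun P hP hP0 _ => liftTheta_eq_evalI_relNorm Θ P hP hP0)
  rw [h1, evalI_comp Θ (Ideal.relNorm (𝓞 K)) (fun I hI => by
    rwa [Ne, Ideal.relNorm_eq_bot_iff]) _ hI, Ideal.relNorm_singleton, norm_eq_intNorm]

/-- **[NormVal]** `evalI (Θ ∘ N) (x) = evalI Θ (N_{F/K} x)`. -/
theorem normVal {p : ℕ} [Fact p.Prime] : Fermat.Agent.S14C.Cross.NormVal p :=
  normVal_nat p

end Fermat.Agent.S14C.NormQ
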