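/-
S14, team T2 (crossing hedge), leaf [PR1] (owner: helper76).

If `θ ^ p = μ` with `μ ∈ 𝓞 K`, `p ∤ ord_𝔩 μ`, and `F / K` is Galois of degree `p`, then `F / K`
is totally ramified above `𝔩` (`e = p`, `f = g = 1`), the Galois group fixes the unique prime
`𝔏` above `𝔩` and acts trivially on `𝓞 F ⧸ 𝔏 = 𝓞 K ⧸ 𝔩`; hence the norm of every integer of
`F` is a `p`-th power residue modulo `𝔩`.
-/
import Mathlib
import Fermat.Agent.S14C.Cross.Plan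

set_option autoImplicit false

open NumberField

open scoped Pointwise

namespace Fermat.Agent.S14C.Cross.PR1

open UniqueFactorizationMonoid in
/-- `p ∣ e(𝔏 | 𝔩)` as soon as `θ ^ p = μ` and `p ∤ ord_𝔩 μ`. -/
theorem dvd_ramificationIdx {K F : Type} [Field K] [NumberField K] [Field F] [NumberField F]
    [Algebra K F] {p : ℕ} (hp : p.Prime) (μ : 𝓞 K) (θ : 𝓞 F) (𝔩 : Ideal (𝓞 K)) (k : ℕ)
    (hθ : θ ^ p = algebraMap (𝓞 K) (𝓞 F) μ) (h𝔩0 : 𝔩 ≠ ⊥) (hk : ¬ p ∣ k)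
    (hμk : μ ∈ 𝔩 ^ k) (hμk1 : μ ∉ 𝔩 ^ (k + 1))
    (𝔏 : Ideal (𝓞 F)) [𝔏.IsPrime] [𝔏.LiesOver 𝔩] :
    p ∣ 𝔏.ramificationIdx (𝓞 K) := by
  classical
  have hinj : Function.Injective (algebraMap (𝓞 K) (𝓞 F)) :=
    FaithfulSMul.algebraMap_injective (𝓞 K) (𝓞 F)
  have hμ0 : μ ≠ 0 := by
    rintro rfl
    exact hμk1 (Ideal.zero_mem _)
  obtain ⟨𝔞, h𝔞⟩ : 𝔩 ^ k ∣ Ideal.span {μ} := by
    rw [Ideal.dvd_span_singleton]; exact hμk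
  have h𝔞𝔩 : ¬ 𝔞 ≤ 𝔩 := by
    intro hle
    apply hμk1
    rw [← Ideal.dvd_span_singleton, h𝔞, pow_succ]
    exact mul_dvd_mul_left _ (Ideal.dvd_iff_le.mpr hle)
  have h𝔞0 : 𝔞 ≠ ⊥ := by
    rintro rfl
    exact h𝔞𝔩 bot_le
  set I : Ideal (𝓞 F) := 𝔩.map (algebraMap (𝓞 K) (𝓞 F)) with hI
  have hI0 : I ≠ ⊥ := (Ideal.map_eq_bot_iff_of_injective hinj).not.mpr h𝔩0
  have h𝔞'0 : 𝔞.map (algebraMap (𝓞 K) (𝓞 F)) ≠ ⊥ :=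
    (Ideal.map_eq_bot_iff_of_injective hinj).not.mpr h𝔞0
  have he := Ideal.IsDedekindDomain.ramificationIdx_eq_normalizedFactors_count 𝔩 𝔏 hI0
  have hmap : Ideal.span {θ} ^ p = I ^ k * 𝔞.map (algebraMap (𝓞 K) (𝓞 F)) := by
    rw [Ideal.span_singleton_pow, hθ, ← Set.image_singleton, ← Ideal.map_span, h𝔞, Ideal.map_mul,
      Ideal.map_pow]
  have h𝔞' : ¬ 𝔞.map (algebraMap (𝓞 K) (𝓞 F)) ≤ 𝔏 := by
    intro hle
    apply h𝔞𝔩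
    have h1 := Ideal.map_le_iff_le_comap.mp hle
    have h2 : 𝔏.comap (algebraMap (𝓞 K) (𝓞 F)) = 𝔩 := (Ideal.over_def 𝔏 𝔩).symm
    rwa [h2] at h1
  have hcount : Multiset.count 𝔏 (normalizedFactors (Ideal.span {θ} ^ p)) =
      Multiset.count 𝔏 (normalizedFactors (I ^ k * 𝔞.map (algebraMap (𝓞 K) (𝓞 F)))) := by
    rw [hmap]
  rw [normalizedFactors_pow, Multiset.count_nsmul,
    normalizedFactors_mul (pow_ne_zero k hI0) h𝔞'0, Multiset.count_add, normalizedFactors_pow,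
    Multiset.count_nsmul, ← he] at hcount
  have hzero : Multiset.count 𝔏 (normalizedFactors (𝔞.map (algebraMap (𝓞 K) (𝓞 F)))) = 0 := by
    rw [Multiset.count_eq_zero]
    intro hmem
    exact h𝔞' (Ideal.le_of_dvd (dvd_of_mem_normalizedFactors hmem))
  rw [hzero, add_zero] at hcount
  have hdvd : p ∣ k * 𝔏.ramificationIdx (𝓞 K) := ⟨_, hcount.symm⟩
  exact (hp.dvd_mul.mp hdvd).resolve_left hk

/-- Leaf [PR1]. -/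
theorem pr1 {p : ℕ} [hp : Fact p.Prime] : PR1 p := by
  intro K F _ _ _ _ _ _ μ θ 𝔩 k hdeg hθ h𝔩 h𝔩0 hk hμk hμk1 x
  classical
  have : 𝔩.IsMaximal := h𝔩.isMaximal h𝔩0
  obtain ⟨⟨𝔏, h𝔏p, h𝔏l⟩⟩ := (inferInstance : Nonempty (𝔩.primesOver (𝓞 F)))
  have := h𝔏p
  have := h𝔏l
  have hinj : Function.Injective (algebraMap (𝓞 K) (𝓞 F)) :=
    FaithfulSMul.algebraMap_injective (𝓞 K) (𝓞 F)
  have h𝔏0 : 𝔏 ≠ ⊥ := by
    rintro rfl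
    apply h𝔩0
    have h2 : (⊥ : Ideal (𝓞 F)).comap (algebraMap (𝓞 K) (𝓞 F)) = 𝔩 :=
      (Ideal.over_def (⊥ : Ideal (𝓞 F)) 𝔩).symm
    rw [← h2]
    exact Ideal.comap_bot_of_injective _ hinj
  have : 𝔏.IsMaximal := h𝔏p.isMaximal h𝔏0
  have hpe := dvd_ramificationIdx hp.out μ θ 𝔩 k hθ h𝔩0 hk hμk hμk1 𝔏
  have hfund := Ideal.ncard_primesOver_mul_ramificationIdxIn_mul_inertiaDegIn 𝔩 (𝓞 F) (F ≃ₐ[K] F)
  rw [Ideal.ramificationIdxIn_eq_ramificationIdx 𝔩 𝔏 (F ≃ₐ[K] F),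
    Ideal.inertiaDegIn_eq_inertiaDeg 𝔩 𝔏 (F ≃ₐ[K] F), IsGalois.card_aut_eq_finrank, hdeg] at hfund
  obtain ⟨e', he'⟩ := hpe
  have hone : (𝔩.primesOver (𝓞 F)).ncard * e' * 𝔏.inertiaDeg (𝓞 K) = 1 := by
    apply Nat.eq_of_mul_eq_mul_left hp.out.pos
    rw [mul_one]
    rw [he'] at hfund
    calc p * ((𝔩.primesOver (𝓞 F)).ncard * e' * 𝔏.inertiaDeg (𝓞 K))
        = (𝔩.primesOver (𝓞 F)).ncard * (p * e' * 𝔏.inertiaDeg (𝓞 K)) := by ring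
      _ = p := hfund
  obtain ⟨hge, hf⟩ := mul_eq_one.mp hone
  obtain ⟨hg, -⟩ := mul_eq_one.mp hge
  -- `𝓞 K → 𝓞 F ⧸ 𝔏` is surjective
  have hfin : Module.finrank (𝓞 K ⧸ 𝔩) (𝓞 F ⧸ 𝔏) = 1 := by
    rw [← Ideal.inertiaDeg_eq_of_isMaximal 𝔩 𝔏]; exact hf
  let : Field (𝓞 K ⧸ 𝔩) := Ideal.Quotient.field 𝔩
  let : Field (𝓞 F ⧸ 𝔏) := Ideal.Quotient.field 𝔏
  have hbot := Subalgebra.bot_eq_top_of_finrank_eq_one hfin
  have hx : Ideal.Quotient.mk 𝔏 x ∈ (⊥ : Subalgebra (𝓞 K ⧸ 𝔩) (𝓞 F ⧸ 𝔏)) := by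
    rw [hbot]; trivial
  obtain ⟨c', hc'⟩ := Algebra.mem_bot.mp hx
  obtain ⟨c, rfl⟩ := Ideal.Quotient.mk_surjective c'
  have hxc : x - algebraMap (𝓞 K) (𝓞 F) c ∈ 𝔏 := by
    rw [← Ideal.Quotient.eq, ← hc']
    rfl
  refine ⟨c, ?_⟩
  -- the Galois group fixes `𝔏`
  have hfix : ∀ σ : F ≃ₐ[K] F, σ • 𝔏 = 𝔏 := by
    intro σ
    obtain ⟨a, ha⟩ := Set.ncard_eq_one.mp hg
    have hmem : ∀ P : 𝔩.primesOver (𝓞 F), P.1 = a := fun P =>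
      Set.mem_singleton_iff.mp ((Set.ext_iff.mp ha P.1).mp P.2)
    have h1 := Ideal.coe_smul_primesOver σ (⟨𝔏, h𝔏p, h𝔏l⟩ : 𝔩.primesOver (𝓞 F))
    exact h1.symm.trans ((hmem _).trans (hmem ⟨𝔏, h𝔏p, h𝔏l⟩).symm)
  have hσ : ∀ σ : F ≃ₐ[K] F, σ • x - algebraMap (𝓞 K) (𝓞 F) c ∈ 𝔏 := by
    intro σ
    have h1 : σ • (x - algebraMap (𝓞 K) (𝓞 F) c) ∈ σ • 𝔏 :=
      Ideal.smul_mem_pointwise_smul σ _ 𝔏 hxc
    rw [hfix σ, smul_sub, smul_algebraMap] at h1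
    exact h1
  have hprod : algebraMap (𝓞 K) (𝓞 F) (RingOfIntegers.norm K x) = ∏ σ : F ≃ₐ[K] F, σ • x := by
    apply RingOfIntegers.ext
    rw [RingOfIntegers.coe_algebraMap_norm, Algebra.norm_eq_prod_automorphisms]
    simp only [map_prod]
    rfl
  have hcard : Fintype.card (F ≃ₐ[K] F) = p := by
    rw [← Nat.card_eq_fintype_card, IsGalois.card_aut_eq_finrank, hdeg]
  have hmem : algebraMap (𝓞 K) (𝓞 F) (RingOfIntegers.norm K x - c ^ p) ∈ 𝔏 := by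
    rw [map_sub, map_pow, hprod, ← hcard, ← Finset.card_univ, ← Finset.prod_const,
      ← Ideal.Quotient.eq, map_prod, map_prod]
    exact Finset.prod_congr rfl (fun σ _ => Ideal.Quotient.eq.mpr (hσ σ))
  have h2 : 𝔏.comap (algebraMap (𝓞 K) (𝓞 F)) = 𝔩 := (Ideal.over_def 𝔏 𝔩).symm
  rw [← h2]
  exact hmem

end Fermat.Agent.S14C.Cross.PR1
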