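import Mathlib
import Fermat.Agent.S14C.Cross.Plan

/-!
# S14, team T2, crossing hedge: leaf [PR1] (independent B proof)

`F / K` Galois of prime degree `p`, `θ ^ p = μ` with `θ ∈ 𝓞 F`, `μ ∈ 𝓞 K`, and `𝔩` a prime of `K`
with `p ∤ ord_𝔩 μ`.  Then `𝔩` is totally ramified in `F`, and the norm of every integer of `F` is
a `p`-th power residue modulo `𝔩`.

Proof: for a prime `𝔏` above `𝔩`, `p · ord_𝔏 θ = e · ord_𝔩 μ` gives `p ∣ e`; as `e = |I(𝔏)|` divides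
`|G| = p`, the inertia group is all of `G`, so `σ x ≡ x (mod 𝔏)` for every `σ` and
`|D| = |I| · f` gives `f = 1`.  Hence `N x = ∏ σ x ≡ x ^ p ≡ c ^ p (mod 𝔏)` with `c ∈ 𝓞 K`.
-/

set_option autoImplicit false

open NumberField

open scoped Pointwise

namespace Fermat.Agent.S14C.Cross.PR1B

open Fermat.Agent.S14C Fermat.Agent.S14C.Cross

theorem pr1 {p : ℕ} [Fact p.Prime] : PR1 p := by
  intro K F _ _ _ _ _ _ μ θ 𝔩 k hdeg hθ h𝔩 h𝔩0 hpk hμk hμk1 x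
  have hp : p.Prime := Fact.out
  have h𝔩max : 𝔩.IsMaximal := h𝔩.isMaximal h𝔩0
  obtain ⟨𝔏, h𝔏max, h𝔏over⟩ :=
    Ideal.exists_maximal_ideal_liesOver_of_isIntegral (S := 𝓞 F) 𝔩
  have h𝔏prime : 𝔏.IsPrime := h𝔏max.isPrime
  have hunder : 𝔏.under (𝓞 K) = 𝔩 := (Ideal.over_def 𝔏 𝔩).symm
  have hmem_iff : ∀ z : 𝓞 K, algebraMap (𝓞 K) (𝓞 F) z ∈ 𝔏 ↔ z ∈ 𝔩 := by
    intro z
    rw [← hunder]
    exact Iff.rfl
  have h𝔏0 : 𝔏 ≠ ⊥ := by
    intro h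
    apply h𝔩0
    rw [← hunder, h]
    exact Ideal.under_bot (𝓞 K) (𝓞 F)
  have hinj : Function.Injective (algebraMap (𝓞 K) (𝓞 F)) :=
    FaithfulSMul.algebraMap_injective (𝓞 K) (𝓞 F)
  have hμ0 : μ ≠ 0 := by
    rintro rfl
    exact hμk1 (Ideal.zero_mem _)
  have hθ0 : θ ≠ 0 := by
    rintro rfl
    rw [zero_pow hp.ne_zero] at hθ
    exact hμ0 (hinj (by rw [← hθ, map_zero]))
  -- `p ∣ e`
  have h𝔩irr : Irreducible 𝔩 := (Ideal.prime_of_isPrime h𝔩0 h𝔩).irreducible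
  have h𝔏pr : Prime 𝔏 := Ideal.prime_of_isPrime h𝔏0 h𝔏prime
  have hem1 : emultiplicity 𝔩 (Ideal.span {μ}) = k := by
    apply emultiplicity_eq_of_dvd_of_not_dvd
    · rw [Ideal.dvd_iff_le, Ideal.span_singleton_le_iff_mem]
      exact hμk
    · rw [Ideal.dvd_iff_le, Ideal.span_singleton_le_iff_mem]
      exact hμk1
  have hspan0 : Ideal.span {μ} ≠ ⊥ := by simpa using hμ0
  have hem2 := Ideal.IsDedekindDomain.emultiplicity_map_eq_ramificationIdx'_mul (S := 𝓞 F)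
    (v := 𝔩) (w := 𝔏) hspan0 h𝔩irr h𝔏pr.irreducible h𝔏0
  rw [hem1, Ideal.map_span, Set.image_singleton, ← hθ, ← Ideal.span_singleton_pow,
    emultiplicity_pow h𝔏pr] at hem2
  have hfin : FiniteMultiplicity 𝔏 (Ideal.span {θ}) :=
    FiniteMultiplicity.of_prime_left h𝔏pr (by simpa using hθ0)
  rw [hfin.emultiplicity_eq_multiplicity] at hem2
  have hem3 : p * multiplicity 𝔏 (Ideal.span {θ}) = 𝔩.ramificationIdx' 𝔏 * k := by
    exact_mod_cast hem2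
  have hpe' : p ∣ 𝔩.ramificationIdx' 𝔏 := by
    have : p ∣ 𝔩.ramificationIdx' 𝔏 * k := ⟨_, hem3.symm⟩
    exact (hp.dvd_mul.mp this).resolve_right hpk
  have hee : 𝔩.ramificationIdx' 𝔏 = 𝔏.ramificationIdx (𝓞 K) :=
    Ideal.ramificationIdx'_eq_ramificationIdx 𝔩 𝔏 h𝔩0
  -- the inertia group is everything
  have hcardG : Nat.card (F ≃ₐ[K] F) = p := by
    rw [IsGalois.card_aut_eq_finrank, hdeg]
  have hperf : PerfectField 𝔩.ResidueField := inferInstance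
  have hcardI : Nat.card (𝔏.inertia (F ≃ₐ[K] F)) = 𝔏.ramificationIdx (𝓞 K) := by
    rw [Ideal.card_inertia_eq_ramificationIdxIn (G := F ≃ₐ[K] F) 𝔩 𝔏,
      Ideal.ramificationIdxIn_eq_ramificationIdx 𝔩 𝔏 (F ≃ₐ[K] F)]
  have hcardI' : Nat.card (𝔏.inertia (F ≃ₐ[K] F)) = p := by
    apply Nat.dvd_antisymm
    · rw [← hcardG]
      exact Subgroup.card_subgroup_dvd_card _
    · rw [hcardI, ← hee]
      exact hpe'
  have hItop : 𝔏.inertia (F ≃ₐ[K] F) = ⊤ :=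
    Subgroup.eq_top_of_card_eq _ (by rw [hcardI', hcardG])
  have hσ : ∀ (σ : F ≃ₐ[K] F) (z : 𝓞 F), σ • z - z ∈ 𝔏 := by
    intro σ
    have : σ ∈ 𝔏.inertia (F ≃ₐ[K] F) := by rw [hItop]; exact Subgroup.mem_top σ
    exact this
  -- residue degree one
  have hf : 𝔏.inertiaDeg (𝓞 K) = 1 := by
    have hcard := Ideal.card_stabilizer_eq_card_inertia_mul_finrank (G := F ≃ₐ[K] F) 𝔩 𝔏
    rw [hcardI'] at hcard
    have hle : Nat.card (MulAction.stabilizer (F ≃ₐ[K] F) 𝔏) ≤ p := by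
      rw [← hcardG]
      exact Nat.le_of_dvd Nat.card_pos (Subgroup.card_subgroup_dvd_card _)
    have hpos : 0 < Nat.card (MulAction.stabilizer (F ≃ₐ[K] F) 𝔏) := Nat.card_pos
    rw [hcard] at hle hpos
    have h1 : 𝔏.inertiaDeg (𝓞 K) ≤ 1 := by
      by_contra hcon
      push Not at hcon
      have : p * 2 ≤ p * 𝔏.inertiaDeg (𝓞 K) := Nat.mul_le_mul_left p hcon
      have hp0 := hp.pos
      omega
    have h2 : 0 < 𝔏.inertiaDeg (𝓞 K) := Nat.pos_of_mul_pos_left hpos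
    omega
  rw [Ideal.inertiaDeg_eq_of_isMaximal 𝔩 𝔏] at hf
  let _ : Field (𝓞 K ⧸ 𝔩) := Ideal.Quotient.field 𝔩
  let _ : Field (𝓞 F ⧸ 𝔏) := Ideal.Quotient.field 𝔏
  have hbij := Module.Free.bijective_algebraMap_of_finrank_eq_one hf
  obtain ⟨cbar, hcbar⟩ := hbij.2 (Ideal.Quotient.mk 𝔏 x)
  obtain ⟨c, rfl⟩ := Ideal.Quotient.mk_surjective cbar
  have hxc : x - algebraMap (𝓞 K) (𝓞 F) c ∈ 𝔏 := by
    rw [← Ideal.Quotient.eq]
    exact hcbar.symm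
  -- the norm
  have hnorm : algebraMap (𝓞 K) (𝓞 F) (RingOfIntegers.norm K x) = ∏ σ : F ≃ₐ[K] F, σ • x := by
    apply RingOfIntegers.ext
    rw [RingOfIntegers.coe_algebraMap_norm K x, Algebra.norm_eq_prod_automorphisms]
    simp only [map_prod]
    rfl
  have hmk : Ideal.Quotient.mk 𝔏 (∏ σ : F ≃ₐ[K] F, σ • x) = Ideal.Quotient.mk 𝔏 (x ^ p) := by
    rw [map_prod, map_pow]
    have : ∀ σ : F ≃ₐ[K] F, Ideal.Quotient.mk 𝔏 (σ • x) = Ideal.Quotient.mk 𝔏 x :=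
      fun σ => Ideal.Quotient.eq.mpr (hσ σ x)
    simp only [this, Finset.prod_const, Finset.card_univ]
    rw [← Nat.card_eq_fintype_card, hcardG]
  refine ⟨c, ?_⟩
  rw [← hmem_iff, map_sub, map_pow, hnorm, ← Ideal.Quotient.eq, hmk, map_pow, map_pow]
  congr 1
  exact Ideal.Quotient.eq.mpr hxc

end Fermat.Agent.S14C.Cross.PR1B
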