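import Mathlib
import Fermat.Agent.S14C.Cross.Plan

/-!
# S14, team T2, crossing hedge: leaf [PR2]

In a Galois number field `K` of degree `< p`, an integer `z` which is a `p`-th power residue
modulo every prime above a rational prime `ℓ ≡ 1 (mod p)` has absolute norm a `p`-th power
modulo `ℓ`.

* `exists_pow_eq_of_pow_eq_one` : in `(ZMod ℓ)ˣ`, cyclic of order `ℓ - 1 = p * e`, an element
  killed by `e` is a `p`-th power.
* `exists_pow_eq_of_map_eq_pow` : the finite-field claim — an element of `𝔽_ℓ` which is a `p`-th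
  power in a finite field `k ⊇ 𝔽_ℓ` with `ℓ ^ f` elements, `0 < f < p`, is a `p`-th power in `𝔽_ℓ`.
* `intCast_norm_eq_prod_smul` : `N(z) = ∏ σ, σ • z` in `𝓞 K` for `K / ℚ` Galois.
* `pr2 : Fermat.Agent.S14C.Cross.PR2 p`.
-/

set_option autoImplicit false

open NumberField

namespace Fermat.Agent.S14C.PR2

/-- In the cyclic group `(ZMod ℓ)ˣ` of order `ℓ - 1 = p * e`, an element killed by `e` is a
`p`-th power. -/
theorem exists_pow_eq_of_pow_eq_one {p ℓ e : ℕ} [Fact ℓ.Prime] (he : ℓ = p * e + 1)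
    (he0 : e ≠ 0) (a : ZMod ℓ) (ha : a ≠ 0) (hae : a ^ e = 1) : ∃ n : ZMod ℓ, a = n ^ p := by
  obtain ⟨g, hg⟩ := IsCyclic.exists_monoid_generator (α := (ZMod ℓ)ˣ)
  obtain ⟨j, hj⟩ := hg (Units.mk0 a ha)
  have hord : orderOf g = p * e := by
    have h1 : orderOf g = Nat.card (ZMod ℓ)ˣ :=
      orderOf_eq_card_of_forall_mem_zpowers fun x => Submonoid.powers_le_zpowers g (hg x)
    rw [h1, Nat.card_eq_fintype_card, ZMod.card_units, he, Nat.add_sub_cancel]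
  have h2 : g ^ (j * e) = 1 := by
    have h3 : (Units.mk0 a ha) ^ e = 1 := by
      ext
      simpa using hae
    rw [pow_mul]
    simp only at hj
    rw [hj, h3]
  have h4 : p * e ∣ j * e := by
    rw [← hord]
    exact orderOf_dvd_of_pow_eq_one h2
  have h5 : p ∣ j := Nat.dvd_of_mul_dvd_mul_right (Nat.pos_of_ne_zero he0) h4
  obtain ⟨t, rfl⟩ := h5
  refine ⟨((g ^ t : (ZMod ℓ)ˣ) : ZMod ℓ), ?_⟩
  have h6 : ((Units.mk0 a ha : (ZMod ℓ)ˣ) : ZMod ℓ) = a := rfl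
  rw [← h6, ← hj]
  simp only
  push_cast
  rw [← pow_mul, mul_comm]

/-- The finite-field claim: an element of `𝔽_ℓ` (`ℓ ≡ 1 (mod p)`) which becomes a `p`-th power
in a finite field `k ⊇ 𝔽_ℓ` with `ℓ ^ f` elements, `0 < f < p`, is a `p`-th power in `𝔽_ℓ`. -/
theorem exists_pow_eq_of_map_eq_pow {p ℓ f : ℕ} [Fact p.Prime] [Fact ℓ.Prime] (hℓ : ℓ % p = 1)
    {k : Type*} [Field k] [Finite k] (hcard : Nat.card k = ℓ ^ f) (hf0 : f ≠ 0) (hfp : f < p)
    (φ : ZMod ℓ →+* k) (a : ZMod ℓ) (b : k) (hab : φ a = b ^ p) : ∃ n : ZMod ℓ, a = n ^ p := by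
  have hp : p.Prime := Fact.out
  have hℓp : ℓ.Prime := Fact.out
  by_cases ha : a = 0
  · exact ⟨0, by rw [ha, zero_pow hp.ne_zero]⟩
  have hφ : Function.Injective φ := φ.injective
  have hb : b ≠ 0 := by
    rintro rfl
    rw [zero_pow hp.ne_zero] at hab
    exact ha (hφ (by rw [hab, map_zero]))
  -- `ℓ = p * e + 1`
  set e : ℕ := ℓ / p with he_def
  have he : ℓ = p * e + 1 := by
    have := Nat.div_add_mod ℓ p
    rw [hℓ] at this
    exact this.symm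
  have he0 : e ≠ 0 := by
    rintro h0
    rw [h0, mul_zero, zero_add] at he
    exact hℓp.one_lt.ne' he
  -- the geometric sum `M = 1 + ℓ + ... + ℓ ^ (f - 1)`, with `M * (ℓ - 1) + 1 = ℓ ^ f`
  set M : ℕ := ∑ i ∈ Finset.range f, (p * e + 1) ^ i with hM_def
  have hM : M * (p * e) + 1 = ℓ ^ f := by
    rw [he]
    exact geom_sum_mul_add (p * e) f
  -- `M ≡ f (mod p)` is prime to `p`
  have hMp : ¬ p ∣ M := by
    rw [← ZMod.natCast_eq_zero_iff]
    have h1 : ((M : ℕ) : ZMod p) = (f : ZMod p) := by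
      rw [hM_def]
      push_cast
      simp
    rw [h1, ZMod.natCast_eq_zero_iff]
    exact Nat.not_dvd_of_pos_of_lt (Nat.pos_of_ne_zero hf0) hfp
  have hcop : Nat.gcd p M = 1 := (Nat.Prime.coprime_iff_not_dvd hp).2 hMp
  -- `b ^ (ℓ ^ f - 1) = 1`
  have hb1 : b ^ (M * (p * e)) = 1 := by
    have : Fintype k := Fintype.ofFinite k
    have h1 := FiniteField.pow_card_sub_one_eq_one b hb
    rw [← Nat.card_eq_fintype_card, hcard, ← hM, Nat.add_sub_cancel] at h1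
    exact h1
  -- the image of `u = a ^ e` is killed by `M` and by `p`, hence is `1`
  have hu1 : (φ (a ^ e)) ^ M = 1 := by
    rw [map_pow, hab, ← pow_mul, ← pow_mul, ← hb1]
    congr 1
    ring
  have hu2 : (φ (a ^ e)) ^ p = 1 := by
    rw [← map_pow, ← pow_mul]
    have h1 : a ^ (ℓ - 1) = 1 := ZMod.pow_card_sub_one_eq_one ha
    have h2 : e * p = ℓ - 1 := by
      rw [he, Nat.add_sub_cancel, mul_comm]
    rw [h2, h1, map_one]
  have hu3 : φ (a ^ e) = 1 := by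
    have h1 : (φ (a ^ e)) ^ Nat.gcd p M = 1 := pow_gcd_eq_one.2 ⟨hu2, hu1⟩
    rwa [hcop, pow_one] at h1
  have hu : a ^ e = 1 := hφ (by rw [hu3, map_one])
  exact exists_pow_eq_of_pow_eq_one he he0 a ha hu

/-- The absolute norm of an integer of a Galois number field is the product of its Galois
conjugates (identity in `𝓞 K`). -/
theorem intCast_norm_eq_prod_smul {K : Type} [Field K] [NumberField K] [IsGalois ℚ K] (z : 𝓞 K) :
    ((Algebra.norm ℤ z : ℤ) : 𝓞 K) = ∏ σ : K ≃ₐ[ℚ] K, σ • z := by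
  apply RingOfIntegers.coe_injective
  have h1 : (((Algebra.norm ℤ z : ℤ) : 𝓞 K) : K) = algebraMap ℚ K (Algebra.norm ℚ (z : K)) := by
    rw [← Algebra.coe_norm_int]
    simp
  have h2 : ((∏ σ : K ≃ₐ[ℚ] K, σ • z : 𝓞 K) : K) = ∏ σ : K ≃ₐ[ℚ] K, σ (z : K) := by
    change algebraMap (𝓞 K) K (∏ σ : K ≃ₐ[ℚ] K, σ • z) = _
    rw [map_prod]
    rfl
  exact h1.trans ((Algebra.norm_eq_prod_automorphisms ℚ (z : K)).trans h2.symm)

/-- [PR2] In a Galois number field of degree `< p`, an integer which is a `p`-th power residue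
modulo every prime above `ℓ ≡ 1 (mod p)` has norm a `p`-th power mod `ℓ`. -/
theorem pr2 {p : ℕ} [Fact p.Prime] : Fermat.Agent.S14C.Cross.PR2 p := by
  intro K _ _ _ ℓ _ z hd hℓ hz
  have hℓp : ℓ.Prime := Fact.out
  -- the norm of `(ℓ)`
  have hnorm : Ideal.absNorm (Ideal.span {(ℓ : 𝓞 K)}) = ℓ ^ Module.finrank ℚ K := by
    rw [Ideal.absNorm_span_natCast, RingOfIntegers.rank]
  have hne : Ideal.span {(ℓ : 𝓞 K)} ≠ ⊤ := by
    intro htop
    rw [← Ideal.absNorm_eq_one_iff, hnorm] at htop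
    have hd0 : Module.finrank ℚ K ≠ 0 := Module.finrank_pos.ne'
    exact (Nat.one_lt_pow hd0 hℓp.one_lt).ne' htop
  -- a maximal ideal `𝔩` above `ℓ`
  obtain ⟨𝔩, h𝔩max, h𝔩le⟩ := Ideal.exists_le_maximal _ hne
  have hℓmem : (ℓ : 𝓞 K) ∈ 𝔩 := h𝔩le (Ideal.mem_span_singleton_self _)
  -- its norm is `ℓ ^ f` with `1 ≤ f ≤ [K : ℚ]`
  obtain ⟨f, hfd, hf⟩ := (Nat.dvd_prime_pow hℓp).1
    (hnorm ▸ Ideal.absNorm_dvd_absNorm_of_le h𝔩le)
  have hf0 : f ≠ 0 := by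
    rintro rfl
    rw [pow_zero, Ideal.absNorm_eq_one_iff] at hf
    exact h𝔩max.ne_top hf
  -- the residue field `𝓞 K ⧸ 𝔩`, a finite field of characteristic `ℓ` with `ℓ ^ f` elements
  let _ : Field (𝓞 K ⧸ 𝔩) := Ideal.Quotient.field 𝔩
  have hcard : Nat.card (𝓞 K ⧸ 𝔩) = ℓ ^ f := by
    rw [← hf, Ideal.absNorm_apply, Submodule.cardQuot_apply]
  have : Finite (𝓞 K ⧸ 𝔩) :=
    Nat.finite_of_card_ne_zero (by rw [hcard]; exact pow_ne_zero _ hℓp.ne_zero)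
  have hchar0 : ((ℓ : ℕ) : 𝓞 K ⧸ 𝔩) = 0 := by
    have h1 : Ideal.Quotient.mk 𝔩 (ℓ : 𝓞 K) = 0 := Ideal.Quotient.eq_zero_iff_mem.2 hℓmem
    rwa [map_natCast] at h1
  have : CharP (𝓞 K ⧸ 𝔩) ℓ := ringChar.of_eq (CharP.ringChar_of_prime_eq_zero hℓp hchar0)
  -- `p`-th power residues at the conjugate primes `σ⁻¹ 𝔩`
  have hconj : ∀ σ : K ≃ₐ[ℚ] K, ∃ c : 𝓞 K, σ • z - (σ • c) ^ p ∈ 𝔩 := by
    intro σ
    have hprime : (Ideal.comap (MulSemiringAction.toRingHom (K ≃ₐ[ℚ] K) (𝓞 K) σ) 𝔩).IsPrime :=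
      Ideal.IsPrime.comap _
    obtain ⟨c, hc⟩ := hz _ hprime (by rw [Ideal.mem_comap, map_natCast]; exact hℓmem)
    refine ⟨c, ?_⟩
    rw [Ideal.mem_comap, map_sub, map_pow] at hc
    exact hc
  choose c hc using hconj
  -- the norm is a `p`-th power in the residue field, hence in the prime field
  have hkey : (ZMod.castHom (dvd_refl ℓ) (𝓞 K ⧸ 𝔩)) ((Algebra.norm ℤ z : ℤ) : ZMod ℓ) =
      (∏ σ : K ≃ₐ[ℚ] K, Ideal.Quotient.mk 𝔩 (σ • c σ)) ^ p := by
    rw [map_intCast, ← map_intCast (Ideal.Quotient.mk 𝔩), intCast_norm_eq_prod_smul, map_prod,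
      ← Finset.prod_pow]
    refine Finset.prod_congr rfl fun σ _ => ?_
    rw [← map_pow]
    exact Ideal.Quotient.eq.2 (hc σ)
  exact exists_pow_eq_of_map_eq_pow hℓ hcard hf0 (lt_of_le_of_lt hfd hd) _ _ _ hkey

end Fermat.Agent.S14C.PR2
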