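import Mathlib
import Fermat.Agent.S14C.Cross.Plan

/-!
# S14, team T2, crossing hedge: leaf [PR2] (independent B proof)

`K / ℚ` Galois of degree `< p`, `ℓ ≡ 1 (mod p)` a prime, `z ∈ 𝓞 K` a `p`-th power residue modulo
every prime above `ℓ`.  Then `N_{K/ℚ} z` is a `p`-th power modulo `ℓ`.

Proof: fix a prime `𝔩₁ ∋ ℓ`.  For every `σ`, `z ≡ c_σ ^ p` modulo the prime `σ⁻¹ 𝔩₁`, hence
`σ z ≡ (σ c_σ) ^ p (mod 𝔩₁)` and `N z = ∏ σ z ≡ d ^ p (mod 𝔩₁)`.  The residue field `k = 𝓞 K ⧸ 𝔩₁`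
has degree `f ≤ [K : ℚ] < p` over `𝔽_ℓ`; taking `N_{k / 𝔽_ℓ}` gives `a ^ f = b ^ p` in `𝔽_ℓ` for
`a = N z mod ℓ`, and `gcd(f, p) = 1` makes `a` a `p`-th power.
-/

set_option autoImplicit false

open NumberField

namespace Fermat.Agent.S14C.Cross.PR2B

open Fermat.Agent.S14C Fermat.Agent.S14C.Cross

/-- In a field, if `a ^ f = b ^ p` with `f` prime to `p`, then `a` is a `p`-th power. -/
theorem exists_pow_eq_of_pow_eq {k : Type*} [Field k] {p f : ℕ} (hp : 1 < p) (hfp : Nat.Coprime f p)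
    {a b : k} (h : a ^ f = b ^ p) : ∃ n : k, a = n ^ p := by
  by_cases ha : a = 0
  · exact ⟨0, by rw [ha, zero_pow (by omega)]⟩
  obtain ⟨u, hu⟩ := Nat.exists_mul_mod_eq_one_of_coprime hfp hp
  have hdiv : f * u = p * (f * u / p) + 1 := by
    have := Nat.div_add_mod (f * u) p
    omega
  refine ⟨b ^ u * (a ^ (f * u / p))⁻¹, ?_⟩
  have h1 : a ^ (f * u) = (b ^ u) ^ p := by
    rw [pow_mul, h, ← pow_mul, ← pow_mul, mul_comm]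
  have h2 : a ^ (f * u) = (a ^ (f * u / p)) ^ p * a := by
    rw [← pow_mul, ← pow_succ, mul_comm (f * u / p) p, ← hdiv]
  have h3 : (a ^ (f * u / p)) ^ p ≠ 0 := pow_ne_zero _ (pow_ne_zero _ ha)
  rw [mul_pow, inv_pow, ← h1, h2]
  field_simp

theorem pr2 {p : ℕ} [Fact p.Prime] : PR2 p := by
  intro K _ _ _ ℓ _ z hdeg _ hz
  have hp : p.Prime := Fact.out
  have hℓ : ℓ.Prime := Fact.out
  -- a prime above `ℓ`
  have hmaxℓ : (Ideal.span {(ℓ : ℤ)}).IsMaximal := Int.ideal_span_isMaximal_of_prime ℓ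
  obtain ⟨𝔩₁, h𝔩max, h𝔩over⟩ :=
    Ideal.exists_maximal_ideal_liesOver_of_isIntegral (S := 𝓞 K) (Ideal.span {(ℓ : ℤ)})
  have h𝔩prime : 𝔩₁.IsPrime := h𝔩max.isPrime
  have hℓmem : (ℓ : 𝓞 K) ∈ 𝔩₁ := by
    have h1 : (ℓ : ℤ) ∈ 𝔩₁.under ℤ := by
      rw [← Ideal.over_def 𝔩₁ (Ideal.span {(ℓ : ℤ)})]
      exact Ideal.mem_span_singleton_self _
    have h2 : algebraMap ℤ (𝓞 K) (ℓ : ℤ) ∈ 𝔩₁ := h1
    simpa using h2
  have h𝔩0 : 𝔩₁ ≠ ⊥ := by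
    intro h
    rw [h, Ideal.mem_bot] at hℓmem
    exact hℓ.ne_zero (by exact_mod_cast hℓmem)
  -- the congruence `σ z ≡ (σ c_σ) ^ p (mod 𝔩₁)`
  have hc : ∀ σ : K ≃ₐ[ℚ] K, ∃ c : 𝓞 K, σ • z - (σ • c) ^ p ∈ 𝔩₁ := by
    intro σ
    have hprime : (𝔩₁.comap (MulSemiringAction.toRingHom (K ≃ₐ[ℚ] K) (𝓞 K) σ)).IsPrime :=
      Ideal.comap_isPrime _ 𝔩₁
    have hmem : (ℓ : 𝓞 K) ∈ 𝔩₁.comap (MulSemiringAction.toRingHom (K ≃ₐ[ℚ] K) (𝓞 K) σ) := by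
      rw [Ideal.mem_comap, map_natCast]
      exact hℓmem
    obtain ⟨c, hc⟩ := hz _ hprime hmem
    refine ⟨c, ?_⟩
    rw [Ideal.mem_comap, map_sub, map_pow] at hc
    exact hc
  choose c hc using hc
  -- the norm as a product
  have hnorm : algebraMap ℤ (𝓞 K) (Algebra.norm ℤ z) = ∏ σ : K ≃ₐ[ℚ] K, σ • z := by
    apply RingOfIntegers.ext
    have h1 : ((algebraMap ℤ (𝓞 K) (Algebra.norm ℤ z) : 𝓞 K) : K) =
        algebraMap ℚ K ((Algebra.norm ℤ z : ℤ) : ℚ) := by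
      simp
    rw [h1, Algebra.coe_norm_int, Algebra.norm_eq_prod_automorphisms]
    simp only [map_prod]
    rfl
  -- the residue field
  let _ : Field (𝓞 K ⧸ 𝔩₁) := Ideal.Quotient.field 𝔩₁
  have hfin : Finite (𝓞 K ⧸ 𝔩₁) := Ideal.finiteQuotientOfFreeOfNeBot 𝔩₁ h𝔩0
  let _ : Fintype (𝓞 K ⧸ 𝔩₁) := Fintype.ofFinite _
  have hchar : CharP (𝓞 K ⧸ 𝔩₁) ℓ := by
    rw [CharP.charP_iff_prime_eq_zero hℓ]
    have : Ideal.Quotient.mk 𝔩₁ (ℓ : 𝓞 K) = 0 := Ideal.Quotient.eq_zero_iff_mem.mpr hℓmem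
    simpa using this
  let _ : Algebra (ZMod ℓ) (𝓞 K ⧸ 𝔩₁) := ZMod.algebra _ ℓ
  set d : 𝓞 K := ∏ σ : K ≃ₐ[ℚ] K, σ • c σ with hd
  have hmk : Ideal.Quotient.mk 𝔩₁ (algebraMap ℤ (𝓞 K) (Algebra.norm ℤ z)) =
      (Ideal.Quotient.mk 𝔩₁ d) ^ p := by
    rw [hnorm, hd, map_prod, map_prod, ← Finset.prod_pow]
    refine Finset.prod_congr rfl fun σ _ => ?_
    rw [← map_pow]
    exact Ideal.Quotient.eq.mpr (hc σ)
  have halg : algebraMap (ZMod ℓ) (𝓞 K ⧸ 𝔩₁) ((Algebra.norm ℤ z : ℤ) : ZMod ℓ) =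
      (Ideal.Quotient.mk 𝔩₁ d) ^ p := by
    rw [← hmk]
    simp
  have hpow : ((Algebra.norm ℤ z : ℤ) : ZMod ℓ) ^ Module.finrank (ZMod ℓ) (𝓞 K ⧸ 𝔩₁) =
      (Algebra.norm (ZMod ℓ) (Ideal.Quotient.mk 𝔩₁ d)) ^ p := by
    rw [← Algebra.norm_algebraMap (S := 𝓞 K ⧸ 𝔩₁), halg, map_pow]
  -- the residue degree is `< p`
  have hcard : Fintype.card (𝓞 K ⧸ 𝔩₁) = ℓ ^ Module.finrank (ZMod ℓ) (𝓞 K ⧸ 𝔩₁) := by
    rw [Module.card_eq_pow_finrank (K := ZMod ℓ), ZMod.card]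
  have hdvd : Fintype.card (𝓞 K ⧸ 𝔩₁) ∣ ℓ ^ Module.finrank ℚ K := by
    have h1 : Ideal.absNorm 𝔩₁ ∣ Ideal.absNorm (Ideal.span {(ℓ : 𝓞 K)}) :=
      Ideal.absNorm_dvd_absNorm_of_le ((Ideal.span_singleton_le_iff_mem _).mpr hℓmem)
    rw [Ideal.absNorm_span_singleton] at h1
    have h2 : Algebra.norm ℤ (ℓ : 𝓞 K) = (ℓ : ℤ) ^ Module.finrank ℚ K := by
      have := Algebra.norm_algebraMap (R := ℤ) (S := 𝓞 K) (ℓ : ℤ)
      rw [RingOfIntegers.rank] at this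
      simpa using this
    rw [h2, Int.natAbs_pow, Int.natAbs_natCast, Ideal.absNorm_apply, Submodule.cardQuot_apply,
      Nat.card_eq_fintype_card] at h1
    exact h1
  have hfle : Module.finrank (ZMod ℓ) (𝓞 K ⧸ 𝔩₁) ≤ Module.finrank ℚ K := by
    rw [hcard] at hdvd
    exact (Nat.pow_dvd_pow_iff_le_right hℓ.one_lt).mp hdvd
  have hfpos : 0 < Module.finrank (ZMod ℓ) (𝓞 K ⧸ 𝔩₁) := Module.finrank_pos
  have hcop : Nat.Coprime (Module.finrank (ZMod ℓ) (𝓞 K ⧸ 𝔩₁)) p := by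
    rw [Nat.coprime_comm, hp.coprime_iff_not_dvd]
    intro hdiv
    have := Nat.le_of_dvd hfpos hdiv
    omega
  obtain ⟨n, hn⟩ := exists_pow_eq_of_pow_eq hp.one_lt hcop hpow
  exact ⟨n, hn⟩

end Fermat.Agent.S14C.Cross.PR2B
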