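import Fermat.Agent.S14C.EvalI

/-!
# Crossing hedge: Theorem R and reciprocity from Prop X (hypothesis-shaped)
-/

set_option autoImplicit false

open NumberField

namespace Fermat.Agent.S14C.Recip

open Fermat.Agent.S14C Fermat.Agent.S14C.EvalI

variable {K : Type} [Field K] [NumberField K] {p : ℕ} [Fact p.Prime]

/-- a rational prime in a nonzero prime ideal of `𝓞 K` -/
theorem exists_prime_natCast_mem (P : Ideal (𝓞 K)) (hP : P.IsPrime) (hP0 : P ≠ ⊥) :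
    ∃ q : ℕ, q.Prime ∧ (q : 𝓞 K) ∈ P := by
  have h1 : ((Ideal.absNorm P : ℕ) : 𝓞 K) ∈ P := Ideal.absNorm_mem P
  have h0 : Ideal.absNorm P ≠ 0 := by
    rw [Ne, Ideal.absNorm_eq_zero_iff]; exact hP0
  have hne1 : Ideal.absNorm P ≠ 1 := by
    rw [Ne, Ideal.absNorm_eq_one_iff]; exact hP.ne_top
  -- induction on the prime factorisation
  have key : ∀ n : ℕ, n ≠ 0 → n ≠ 1 → ((n : ℕ) : 𝓞 K) ∈ P → ∃ q : ℕ, q.Prime ∧ (q : 𝓞 K) ∈ P := by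
    intro n
    induction n using Nat.strong_induction_on with
    | _ n ih =>
      intro hn0 hn1 hn
      obtain ⟨q, hq, hqn⟩ := Nat.exists_prime_and_dvd hn1
      obtain ⟨k, rfl⟩ := hqn
      rw [Nat.cast_mul] at hn
      rcases hP.mem_or_mem hn with h | h
      · exact ⟨q, hq, h⟩
      · have hk0 : k ≠ 0 := by rintro rfl; simp at hn0
        have hk1 : k ≠ 1 := by
          rintro rfl
          simp only [Nat.cast_one] at h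
          exact hP.ne_top ((Ideal.eq_top_iff_one P).mpr h)
        have hlt : k < q * k := by
          have := hq.two_le
          nlinarith [Nat.pos_of_ne_zero hk0]
        exact ih k hlt hk0 hk1 h
  exact key _ h0 hne1 h1

/-- for a prime ideal of prime norm `q`: `(n : 𝓞 K) ∈ P ↔ q ∣ n` -/
theorem natCast_mem_iff_of_absNorm_prime (P : Ideal (𝓞 K)) (hP : P.IsPrime) {q : ℕ} (hq : q.Prime)
    (hqP : (q : 𝓞 K) ∈ P) (n : ℕ) : (n : 𝓞 K) ∈ P ↔ q ∣ n := by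
  constructor
  · intro hn
    by_contra hdvd
    have hcop : Nat.Coprime q n := (Nat.Prime.coprime_iff_not_dvd hq).mpr hdvd
    have h1 : ((Nat.gcd q n : ℕ) : ℤ) = q * Nat.gcdA q n + n * Nat.gcdB q n := Nat.gcd_eq_gcd_ab q n
    rw [hcop] at h1
    have h2 : (1 : 𝓞 K) = (q : 𝓞 K) * ((Nat.gcdA q n : ℤ) : 𝓞 K) + (n : 𝓞 K) * ((Nat.gcdB q n : ℤ) : 𝓞 K) := by
      have := congrArg (fun z : ℤ => (z : 𝓞 K)) h1
      simpa using this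
    apply hP.ne_top
    rw [Ideal.eq_top_iff_one, h2]
    exact P.add_mem (P.mul_mem_right _ hqP) (P.mul_mem_right _ hn)
  · rintro ⟨k, rfl⟩
    rw [Nat.cast_mul]
    exact P.mul_mem_right _ hqP

/-- **Theorem R** (dual form): if Prop X holds for `(K, α, m)`, every element of the X-space is a
multiple of `sym α` on the primes not dividing `m`. -/
theorem thmR (ζ α : 𝓞 K) (m : ℕ) (hm : m ≠ 0) (hζ : IsPrimitiveRoot ζ p)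
    (hα : ¬ ∃ y : K, (α : K) = y ^ p) (hZ : ZSym p)
    (hX : ∀ Θ : Ideal (𝓞 K) → ZMod p, InX p ζ α m Θ →
      ∀ (P₁ P₂ : Ideal (𝓞 K)) (q₁ q₂ : ℕ), P₁.IsPrime → P₂.IsPrime → P₁ ≠ ⊥ → P₂ ≠ ⊥ →
        q₁.Prime → q₂.Prime → q₁ ≠ q₂ → (q₁ : 𝓞 K) ∈ P₁ → (q₂ : 𝓞 K) ∈ P₂ →
        (m : 𝓞 K) ∉ P₁ → (m : 𝓞 K) ∉ P₂ → sym p ζ α P₁ ≠ 0 → sym p ζ α P₂ ≠ 0 →
        Θ P₁ * sym p ζ α P₂ = Θ P₂ * sym p ζ α P₁)
    (Θ : Ideal (𝓞 K) → ZMod p) (hΘ : InX p ζ α m Θ) :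
    ∃ c : ZMod p, ∀ P : Ideal (𝓞 K), P.IsPrime → P ≠ ⊥ → (m : 𝓞 K) ∉ P →
      Θ P = c * sym p ζ α P := by
  -- first reference prime
  obtain ⟨P₀, q₀, hP₀, hP₀0, hq₀, hN₀, hq₀T, -, -, hs₀⟩ := hZ K ζ α hζ hα m.primeFactors
  have hq₀P : (q₀ : 𝓞 K) ∈ P₀ := by rw [← hN₀]; exact Ideal.absNorm_mem P₀
  have hq₀m : ¬ q₀ ∣ m := fun h => hq₀T (Nat.mem_primeFactors.mpr ⟨hq₀, h, hm⟩)
  have hmP₀ : (m : 𝓞 K) ∉ P₀ := fun h =>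
    hq₀m ((natCast_mem_iff_of_absNorm_prime P₀ hP₀ hq₀ hq₀P m).mp h)
  -- second reference prime
  obtain ⟨P₁, q₁, hP₁, hP₁0, hq₁, hN₁, hq₁T, -, -, hs₁⟩ :=
    hZ K ζ α hζ hα (insert q₀ m.primeFactors)
  have hq₁P : (q₁ : 𝓞 K) ∈ P₁ := by rw [← hN₁]; exact Ideal.absNorm_mem P₁
  have hq₁q₀ : q₁ ≠ q₀ := fun h => hq₁T (h ▸ Finset.mem_insert_self _ _)
  have hq₁m : ¬ q₁ ∣ m := fun h =>
    hq₁T (Finset.mem_insert_of_mem (Nat.mem_primeFactors.mpr ⟨hq₁, h, hm⟩))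
  have hmP₁ : (m : 𝓞 K) ∉ P₁ := fun h =>
    hq₁m ((natCast_mem_iff_of_absNorm_prime P₁ hP₁ hq₁ hq₁P m).mp h)
  have h01 := hX Θ hΘ P₀ P₁ q₀ q₁ hP₀ hP₁ hP₀0 hP₁0 hq₀ hq₁ hq₁q₀.symm hq₀P hq₁P hmP₀ hmP₁ hs₀ hs₁
  refine ⟨Θ P₀ / sym p ζ α P₀, ?_⟩
  intro P hP hP0 hmP
  by_cases hs : sym p ζ α P = 0
  · rw [hs, mul_zero]; exact hΘ.split P hP hP0 hmP hs
  obtain ⟨q, hq, hqP⟩ := exists_prime_natCast_mem P hP hP0
  by_cases hqq : q = q₀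
  · -- use the second reference prime
    have hqq₁ : q₁ ≠ q := by rw [hqq]; exact hq₁q₀
    have h1 := hX Θ hΘ P₁ P q₁ q hP₁ hP hP₁0 hP0 hq₁ hq hqq₁ hq₁P hqP hmP₁ hmP hs₁ hs
    field_simp
    have e1 : Θ P₁ = Θ P₀ * sym p ζ α P₁ / sym p ζ α P₀ := by
      field_simp; exact h01.symm
    have e2 : Θ P = Θ P₁ * sym p ζ α P / sym p ζ α P₁ := by
      field_simp; exact h1.symm
    rw [e2, e1]; field_simp
  · have h1 := hX Θ hΘ P₀ P q₀ q hP₀ hP hP₀0 hP0 hq₀ hq (Ne.symm hqq) hq₀P hqP hmP₀ hmP hs₀ hs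
    field_simp
    exact h1.symm

/-- **Reciprocity** (S1): with the first inequality `FIX`, the symbol `sym α` kills every principal
ideal coprime to `m`. -/
theorem recip [IsCyclotomicExtension {p} ℚ K] (ζ α : 𝓞 K) (m : ℕ) (hm : m ≠ 0) (hpm : p ∣ m)
    (hαm : ∀ P : Ideal (𝓞 K), P.IsPrime → α ∈ P → (m : 𝓞 K) ∈ P)
    (hζ : IsPrimitiveRoot ζ p) (hα0 : α ≠ 0)
    (hα : ¬ ∃ y : K, (α : K) = y ^ p)
    (hsing : ∃ 𝔞 : Ideal (𝓞 K), Ideal.span {α} = 𝔞 ^ p)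
    (hloc : ∀ x : 𝓞 K, (∃ y : K, y ≠ 0 ∧ (x : K) = (α : K) * y ^ p) →
      ∀ n : ℕ, ∃ c : 𝓞 K, x - c ^ p ∈ Ideal.span {ζ - 1} ^ n)
    (hZ : ZSym p) (hFI : FIX p)
    (hX : ∀ Θ : Ideal (𝓞 K) → ZMod p, InX p ζ α m Θ →
      ∀ (P₁ P₂ : Ideal (𝓞 K)) (q₁ q₂ : ℕ), P₁.IsPrime → P₂.IsPrime → P₁ ≠ ⊥ → P₂ ≠ ⊥ →
        q₁.Prime → q₂.Prime → q₁ ≠ q₂ → (q₁ : 𝓞 K) ∈ P₁ → (q₂ : 𝓞 K) ∈ P₂ →
        (m : 𝓞 K) ∉ P₁ → (m : 𝓞 K) ∉ P₂ → sym p ζ α P₁ ≠ 0 → sym p ζ α P₂ ≠ 0 →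
        Θ P₁ * sym p ζ α P₂ = Θ P₂ * sym p ζ α P₁)
    (x : 𝓞 K) (hx : IsCoprime x (m : 𝓞 K)) :
    evalI (sym p ζ α) (Ideal.span {x}) = 0 := by
  obtain ⟨Θ₀, hΘ₀, Pstar, hPs, hPs0, hmPs, hne⟩ :=
    hFI K ζ α m hζ hα0 hα hsing hloc hm hpm hαm
  obtain ⟨c, hc⟩ := thmR ζ α m hm hζ hα hZ hX Θ₀ hΘ₀
  have hc0 : c ≠ 0 := by
    rintro rfl
    exact hne (by rw [hc Pstar hPs hPs0 hmPs, zero_mul])
  have h1 : evalI (sym p ζ α) (Ideal.span {x}) = evalI (fun P => c⁻¹ * Θ₀ P) (Ideal.span {x}) := by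
    apply evalI_congr
    intro P hP hP0 hxP
    have hmP : (m : 𝓞 K) ∉ P := by
      intro hmP
      obtain ⟨u, v, huv⟩ := hx
      apply hP.ne_top
      rw [Ideal.eq_top_iff_one, ← huv]
      exact P.add_mem (P.mul_mem_left _ (hxP (Ideal.mem_span_singleton_self x)))
        (P.mul_mem_left _ hmP)
    rw [hc P hP hP0 hmP, ← mul_assoc, inv_mul_cancel₀ hc0, one_mul]
  rw [h1, evalI_const_mul, hΘ₀.principal x hx, mul_zero]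

end Fermat.Agent.S14C.Recip
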