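import Fermat.Agent.S14C.Cross.Plan
import Fermat.Agent.S14C.EvalI
import Fermat.Agent.S14C.Cross.Recip
import Fermat.Agent.S14C.Cross.NormVal

/-!
# Crossing hedge, block [PropX]: assembly of the crossing proposition from the leaves
-/

set_option autoImplicit false
set_option linter.unusedSectionVars false

open NumberField

namespace Fermat.Agent.S14C.Cross.PropX

open Fermat.Agent.S14C Fermat.Agent.S14C.Cross Fermat.Agent.S14C.EvalI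

/-! ### small helpers on powers of a root of unity indexed by `ZMod p` -/

theorem pow_val_natCast {R : Type*} [Monoid R] {p : ℕ} [NeZero p] {ζ : R} (h : ζ ^ p = 1) (n : ℕ) :
    ζ ^ ((n : ZMod p).val) = ζ ^ n := by
  rw [ZMod.val_natCast, ← pow_eq_pow_mod n h]

theorem pow_val_add {R : Type*} [Monoid R] {p : ℕ} [NeZero p] {ζ : R} (h : ζ ^ p = 1)
    (a b : ZMod p) : ζ ^ a.val * ζ ^ b.val = ζ ^ (a + b).val := by
  rw [ZMod.val_add, ← pow_eq_pow_mod _ h, pow_add]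

theorem pow_val_mul_natCast {R : Type*} [Monoid R] {p : ℕ} [NeZero p] {ζ : R} (h : ζ ^ p = 1)
    (a : ZMod p) (n : ℕ) : (ζ ^ a.val) ^ n = ζ ^ ((n : ZMod p) * a).val := by
  rw [ZMod.val_mul, ZMod.val_natCast, ← pow_eq_pow_mod _ h, ← pow_mul]
  rw [pow_eq_pow_mod (a.val * n) h, pow_eq_pow_mod (n % p * a.val) h]
  congr 1
  rw [Nat.mul_comm a.val n, Nat.mod_mul_mod]

theorem eq_zero_of_pow_val_eq_one {R : Type*} [CommRing R] [IsDomain R] {p : ℕ} [NeZero p]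
    {ζ : R} (hζ : IsPrimitiveRoot ζ p) (a : ZMod p) (h : ζ ^ a.val = 1) : a = 0 := by
  have h1 := (hζ.pow_eq_one_iff_dvd a.val).mp h
  have h2 : a.val = 0 := Nat.eq_zero_of_dvd_of_lt h1 (ZMod.val_lt a)
  exact (ZMod.val_eq_zero a).mp h2


/-! ### residue characteristic and norm of a prime -/

theorem absNorm_eq_prime_pow {K : Type} [Field K] [NumberField K] (P : Ideal (𝓞 K))
    (hP : P.IsPrime) {q : ℕ} (hq : q.Prime) (hqP : (q : 𝓞 K) ∈ P) :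
    ∃ g : ℕ, 1 ≤ g ∧ g ≤ Module.finrank ℚ K ∧ Ideal.absNorm P = q ^ g := by
  have hle : Ideal.span {(q : 𝓞 K)} ≤ P := (Ideal.span_singleton_le_iff_mem P).mpr hqP
  have hdvd := Ideal.absNorm_dvd_absNorm_of_le hle
  have hN : Ideal.absNorm (Ideal.span {(q : 𝓞 K)}) = q ^ Module.finrank ℚ K := by
    rw [Ideal.absNorm_span_singleton]
    have h1 : (Algebra.norm ℤ) ((q : 𝓞 K)) = (q : ℤ) ^ Module.finrank ℤ (𝓞 K) := by
      have := Algebra.norm_algebraMap (R := ℤ) (S := 𝓞 K) (q : ℤ)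
      simpa using this
    rw [h1, RingOfIntegers.rank, Int.natAbs_pow, Int.natAbs_natCast]
  rw [hN] at hdvd
  obtain ⟨g, hg, hgeq⟩ := (Nat.dvd_prime_pow hq).mp hdvd
  refine ⟨g, ?_, hg, hgeq⟩
  rcases Nat.eq_zero_or_pos g with h0 | h0
  · exfalso
    rw [h0, pow_zero, Ideal.absNorm_eq_one_iff] at hgeq
    exact hP.ne_top hgeq
  · exact h0

theorem finrank_cyclo {p : ℕ} [Fact p.Prime] (K : Type) [Field K] [NumberField K]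
    [IsCyclotomicExtension {p} ℚ K] : Module.finrank ℚ K = p - 1 := by
  have hp : p.Prime := Fact.out
  have : NeZero p := ⟨hp.ne_zero⟩
  rw [IsCyclotomicExtension.finrank (n := p) K (Polynomial.cyclotomic.irreducible_rat hp.pos),
    Nat.totient_prime hp]

/-! ### base change of characters and of `gaussPow` -/

theorem gaussPow_ringHomComp (p : ℕ) {ℓ : ℕ} [Fact ℓ.Prime] {R R' : Type*} [CommRing R]
    [CommRing R'] (χ : MulChar (ZMod ℓ) R) (f : R →+* R') :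
    gaussPow p (χ.ringHomComp f) = f (gaussPow p χ) := by
  unfold gaussPow
  rw [map_mul, map_mul, map_prod, map_natCast, MulChar.ringHomComp_apply]
  congr 1
  apply Finset.prod_congr rfl
  intro i _
  rw [MulChar.ringHomComp_pow, jacobiSum_ringHomComp]

theorem orderOf_ringHomComp {p : ℕ} [Fact p.Prime] {ℓ : ℕ} {R R' : Type*} [CommRing R]
    [CommRing R'] (χ : MulChar (ZMod ℓ) R) (f : R →+* R') (hf : Function.Injective f)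
    (hχ : orderOf χ = p) : orderOf (χ.ringHomComp f) = p := by
  have hp : p.Prime := Fact.out
  apply orderOf_eq_prime
  · rw [MulChar.ringHomComp_pow, ← hχ, pow_orderOf_eq_one, MulChar.ringHomComp_one]
  · rw [MulChar.ringHomComp_ne_one_iff hf]
    intro h
    rw [h, orderOf_one] at hχ
    exact hp.one_lt.ne hχ


/-! ### the multiplicative bookkeeping over the prime factors of a principal ideal -/

/-- If `χ(N 𝔅) = ζ ^ (j · κ 𝔅)` for every `𝔅` of a multiset `s` of ideals, then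
`χ(∏ N 𝔅) = ζ ^ (j · ∑ κ 𝔅)`. -/
theorem char_prod_absNorm {p : ℕ} [Fact p.Prime] {F : Type} [Field F] [NumberField F] {ℓ : ℕ}
    (χ : MulChar (ZMod ℓ) (𝓞 F)) (ζ : 𝓞 F) (hζ : ζ ^ p = 1) (j : ZMod p)
    (κ : Ideal (𝓞 F) → ZMod p) (s : Multiset (Ideal (𝓞 F)))
    (h : ∀ 𝔅 ∈ s, χ ((Ideal.absNorm 𝔅 : ℕ) : ZMod ℓ) = ζ ^ (j * κ 𝔅).val) :
    χ (((s.map fun 𝔅 => Ideal.absNorm 𝔅).prod : ℕ) : ZMod ℓ) = ζ ^ (j * (s.map κ).sum).val := by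
  have hp : p.Prime := Fact.out
  have : NeZero p := ⟨hp.ne_zero⟩
  induction s using Multiset.induction_on with
  | empty => simp
  | cons a s ih =>
    rw [Multiset.map_cons, Multiset.prod_cons, Multiset.map_cons, Multiset.sum_cons, Nat.cast_mul,
      map_mul, h a (Multiset.mem_cons_self a s),
      ih (fun 𝔅 h𝔅 => h 𝔅 (Multiset.mem_cons_of_mem h𝔅)), pow_val_add hζ, mul_add]


/-! ### the field-level core of the crossing -/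

section core

variable {p : ℕ} [Fact p.Prime] {K F : Type} [Field K] [NumberField K] [Field F] [NumberField F]
  [Algebra K F]

/-- membership of (images of) elements of `𝓞 K` in a prime of `𝓞 F` -/
theorem algebraMap_mem_iff (𝔅 : Ideal (𝓞 F)) (a : 𝓞 K) :
    algebraMap (𝓞 K) (𝓞 F) a ∈ 𝔅 ↔ a ∈ 𝔅.under (𝓞 K) := Iff.rfl

theorem natCast_mem_iff (𝔅 : Ideal (𝓞 F)) (n : ℕ) :
    (n : 𝓞 F) ∈ 𝔅 ↔ (n : 𝓞 K) ∈ 𝔅.under (𝓞 K) := by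
  rw [← algebraMap_mem_iff, map_natCast]


/-- **Core of the crossing.**  Data: `F = K(θ)`, `θ ^ p = α ^ j · G` with `G = gaussPow p χ` for a
character `χ` of order `p` of `𝔽_ℓ`; primes `𝔅ᵢ` of degree one of `F` above `Pᵢ`.  Then every
`Θ` in the X-space of `(K, α, m)` satisfies `Θ P₁ · sym α P₂ = Θ P₂ · sym α P₁`. -/
theorem cross_core (hp2 : p ≠ 2) [IsCyclotomicExtension {p} ℚ K] [IsGalois K F]
    (hSIX : SIX p) (hGS : GaussSymK p) (hGO : GaussOrd p) (hNT : NormTower) (hPR1 : PR1 p)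
    (hPR2 : PR2 p) (hMul : SymMul p) (hPow : SymPow p) (hPth : SymPthPow p) (hBase : SymBase p)
    (ζ α : 𝓞 K) (m ℓ : ℕ) [Fact ℓ.Prime] (χ : MulChar (ZMod ℓ) (𝓞 K)) (j : ℕ) (θ : 𝓞 F)
    (Θ : Ideal (𝓞 K) → ZMod p) (P₁ P₂ : Ideal (𝓞 K)) (𝔅₁ 𝔅₂ : Ideal (𝓞 F))
    (hζ : IsPrimitiveRoot ζ p) (hpm : p ∣ m)
    (hαm : ∀ P : Ideal (𝓞 K), P.IsPrime → α ∈ P → (m : 𝓞 K) ∈ P)
    (hΘ : InX p ζ α m Θ) (hℓp : ℓ % p = 1) (hℓm : ¬ ℓ ∣ m) (hχ : orderOf χ = p)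
    (hj : (j : ZMod p) ≠ 0) (hdeg : Module.finrank K F = p)
    (hθ : θ ^ p = algebraMap (𝓞 K) (𝓞 F) (α ^ j * gaussPow p χ))
    (hmP₁ : (m : 𝓞 K) ∉ P₁) (hℓP₁ : (ℓ : 𝓞 K) ∉ P₁)
    (hmP₂ : (m : 𝓞 K) ∉ P₂) (hℓP₂ : (ℓ : 𝓞 K) ∉ P₂)
    (h𝔅₁ : 𝔅₁.IsPrime) (h𝔅₁0 : 𝔅₁ ≠ ⊥) (hu₁ : 𝔅₁.under (𝓞 K) = P₁)
    (hf₁ : 𝔅₁.inertiaDeg (𝓞 K) = 1)
    (h𝔅₂ : 𝔅₂.IsPrime) (h𝔅₂0 : 𝔅₂ ≠ ⊥) (hu₂ : 𝔅₂.under (𝓞 K) = P₂)
    (hf₂ : 𝔅₂.inertiaDeg (𝓞 K) = 1)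
    (hs₁ : sym p ζ α P₁ ≠ 0) :
    Θ P₁ * sym p ζ α P₂ = Θ P₂ * sym p ζ α P₁ := by
  have hp : p.Prime := Fact.out
  have hℓ : ℓ.Prime := Fact.out
  have hNZ : NeZero p := ⟨hp.ne_zero⟩
  set φ : 𝓞 K →+* 𝓞 F := algebraMap (𝓞 K) (𝓞 F) with hφ
  have hφinj : Function.Injective φ := RingOfIntegers.algebraMap.injective K F
  have hζF : IsPrimitiveRoot (φ ζ) p := hζ.map_of_injective hφinj
  have hζFp : (φ ζ) ^ p = 1 := hζF.pow_eq_one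
  have hrank : Module.finrank ℚ K < p := by
    rw [finrank_cyclo (p := p) K]; exact Nat.sub_lt hp.pos Nat.one_pos
  set G : 𝓞 K := gaussPow p χ with hG
  set χF : MulChar (ZMod ℓ) (𝓞 F) := χ.ringHomComp φ with hχFdef
  have hχF : orderOf χF = p := orderOf_ringHomComp χ φ hφinj hχ
  have hGF : gaussPow p χF = φ G := gaussPow_ringHomComp p χ φ
  -- facts about a prime of `F` not containing `m * ℓ`
  have key : ∀ 𝔅 : Ideal (𝓞 F), 𝔅.IsPrime → 𝔅 ≠ ⊥ → ((m * ℓ : ℕ) : 𝓞 F) ∉ 𝔅 →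
      (𝔅.under (𝓞 K)).IsPrime ∧ 𝔅.under (𝓞 K) ≠ ⊥ ∧ (m : 𝓞 K) ∉ 𝔅.under (𝓞 K) ∧
      (ℓ : 𝓞 K) ∉ 𝔅.under (𝓞 K) ∧ (p : 𝓞 K) ∉ 𝔅.under (𝓞 K) ∧ α ∉ 𝔅.under (𝓞 K) ∧
      G ∉ 𝔅.under (𝓞 K) := by
    intro 𝔅 h𝔅 h𝔅0 hmℓ
    have hpr : (𝔅.under (𝓞 K)).IsPrime := Ideal.IsPrime.under (𝓞 K) 𝔅
    have h0 : 𝔅.under (𝓞 K) ≠ ⊥ := NormVal.under_ne_bot 𝔅 h𝔅0
    have hm' : (m : 𝓞 K) ∉ 𝔅.under (𝓞 K) := by
      intro h
      apply hmℓ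
      rw [Nat.cast_mul]
      exact 𝔅.mul_mem_right _ ((natCast_mem_iff 𝔅 m).mpr h)
    have hℓ' : (ℓ : 𝓞 K) ∉ 𝔅.under (𝓞 K) := by
      intro h
      apply hmℓ
      rw [Nat.cast_mul]
      exact 𝔅.mul_mem_left _ ((natCast_mem_iff 𝔅 ℓ).mpr h)
    have hp' : (p : 𝓞 K) ∉ 𝔅.under (𝓞 K) := by
      intro h
      apply hm'
      obtain ⟨k, rfl⟩ := hpm
      rw [Nat.cast_mul]
      exact (𝔅.under (𝓞 K)).mul_mem_right _ h
    have hα' : α ∉ 𝔅.under (𝓞 K) := fun h => hm' (hαm _ hpr h)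
    exact ⟨hpr, h0, hm', hℓ', hp', hα', ((hGO K ℓ χ hrank hχ _ hpr h0).1 hℓ')⟩
  -- base change of the symbol
  have hbc : ∀ 𝔅 : Ideal (𝓞 F), 𝔅.IsPrime → 𝔅 ≠ ⊥ → ((m * ℓ : ℕ) : 𝓞 F) ∉ 𝔅 →
      sym p (φ ζ) (φ α) 𝔅 =
        ((𝔅.inertiaDeg (𝓞 K) : ℕ) : ZMod p) * sym p ζ α (𝔅.under (𝓞 K)) := by
    intro 𝔅 h𝔅 h𝔅0 hmℓ
    obtain ⟨-, -, -, -, hp', hα', -⟩ := key 𝔅 h𝔅 h𝔅0 hmℓ
    exact hBase K F ζ α 𝔅 hζ h𝔅 h𝔅0 (fun h => hp' ((natCast_mem_iff 𝔅 p).mp h)) hα'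
  -- the two elements of the X-space of `(F, α, m ℓ)`
  have hΘF := NormVal.inX_relNorm (F := F) ζ α m ℓ Θ hbc hΘ
  -- `χ` is trivial on `p`-th powers and on `-1`
  have hχpow : ∀ w : ZMod ℓ, χF w ≠ 0 → χF (w ^ p) = 1 := by
    intro w hw
    have hu : IsUnit w := by
      by_contra hnu
      exact hw (χF.map_nonunit hnu)
    rw [map_pow, ← hu.unit_spec, ← MulChar.pow_apply_coe, ← hχF, pow_orderOf_eq_one,
      MulChar.one_apply_coe]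
  -- the norm to `ℚ` of an integer of `F` is a `p`-th power mod `ℓ`
  have hnorm : ∀ x : 𝓞 F, ∃ n : ZMod ℓ, ((Algebra.norm ℤ x : ℤ) : ZMod ℓ) = n ^ p := by
    intro x
    rw [hNT K F x]
    have : IsGalois ℚ K := IsCyclotomicExtension.isGalois {p} ℚ K
    apply hPR2 K ℓ (RingOfIntegers.norm K x) hrank hℓp
    intro 𝔩 h𝔩 hℓ𝔩
    have h𝔩0 : 𝔩 ≠ ⊥ := by
      intro h
      rw [h, Ideal.mem_bot] at hℓ𝔩
      exact hℓ.ne_zero (by exact_mod_cast hℓ𝔩)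
    obtain ⟨k, hk, hGk, hGk1⟩ := (hGO K ℓ χ hrank hχ 𝔩 h𝔩 h𝔩0).2 hℓ𝔩
    have hα𝔩 : α ∉ 𝔩 := by
      intro h
      have h1 := hαm 𝔩 h𝔩 h
      exact hℓm ((Recip.natCast_mem_iff_of_absNorm_prime 𝔩 h𝔩 hℓ hℓ𝔩 m).mp h1)
    have hμk : α ^ j * G ∈ 𝔩 ^ k := Ideal.mul_mem_left _ _ hGk
    have hμk1 : α ^ j * G ∉ 𝔩 ^ (k + 1) := by
      intro h
      rcases Ideal.IsPrime.mul_mem_pow 𝔩 h with h' | h'
      · exact hα𝔩 (h𝔩.mem_of_pow_mem j h')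
      · exact hGk1 h'
    exact hPR1 K F (α ^ j * G) θ 𝔩 k hdeg hθ h𝔩 h𝔩0 hk hμk hμk1 x
  have hΨF : InX p (φ ζ) (φ α) (m * ℓ) (fun 𝔅 => sym p (φ ζ) (φ α) 𝔅) := by
    constructor
    · intro x hx
      by_cases hx0 : x = 0
      · subst hx0
        have : Ideal.span ({0} : Set (𝓞 F)) = ⊥ := by simp
        rw [this]
        unfold evalI
        rw [show (⊥ : Ideal (𝓞 F)) = 0 from rfl,
          UniqueFactorizationMonoid.normalizedFactors_zero]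
        rfl
      have hI : Ideal.span ({x} : Set (𝓞 F)) ≠ ⊥ := by
        rw [Ne, Ideal.span_singleton_eq_bot]; exact hx0
      -- Claim A
      have hA : ∀ 𝔅 ∈ UniqueFactorizationMonoid.normalizedFactors (Ideal.span ({x} : Set (𝓞 F))),
          χF ((Ideal.absNorm 𝔅 : ℕ) : ZMod ℓ) =
            (φ ζ) ^ ((j : ZMod p) * sym p (φ ζ) (φ α) 𝔅).val := by
        intro 𝔅 h𝔅mem
        have hprime : Prime 𝔅 := UniqueFactorizationMonoid.prime_of_normalized_factor 𝔅 h𝔅mem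
        have h𝔅 : 𝔅.IsPrime := Ideal.isPrime_of_prime hprime
        have h𝔅0 : 𝔅 ≠ ⊥ := hprime.ne_zero
        have hx𝔅 : x ∈ 𝔅 := by
          have := Ideal.le_of_dvd (UniqueFactorizationMonoid.dvd_of_mem_normalizedFactors h𝔅mem)
          exact this (Ideal.subset_span rfl)
        have hmℓ : ((m * ℓ : ℕ) : 𝓞 F) ∉ 𝔅 := by
          intro h
          obtain ⟨a, b, hab⟩ := hx
          apply h𝔅.ne_top
          rw [Ideal.eq_top_iff_one, ← hab]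
          exact 𝔅.add_mem (𝔅.mul_mem_left _ hx𝔅) (𝔅.mul_mem_left _ h)
        obtain ⟨hpr, h0, hm', hℓ', hp', hα', hG'⟩ := key 𝔅 h𝔅 h𝔅0 hmℓ
        have hp𝔅 : (p : 𝓞 F) ∉ 𝔅 := fun h => hp' ((natCast_mem_iff 𝔅 p).mp h)
        have hℓ𝔅 : (ℓ : 𝓞 F) ∉ 𝔅 := fun h => hℓ' ((natCast_mem_iff 𝔅 ℓ).mp h)
        have hα𝔅 : φ α ∉ 𝔅 := hα'
        have hG𝔅 : φ G ∉ 𝔅 := hG'
        -- the norm of `𝔅` is prime to `ℓ`
        obtain ⟨q, hq, hq𝔅⟩ := Recip.exists_prime_natCast_mem 𝔅 h𝔅 h𝔅0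
        obtain ⟨g, -, -, hNg⟩ := absNorm_eq_prime_pow 𝔅 h𝔅 hq hq𝔅
        have hqℓ : q ≠ ℓ := by
          rintro rfl
          exact hℓ𝔅 hq𝔅
        have hunit : IsUnit ((Ideal.absNorm 𝔅 : ℕ) : ZMod ℓ) := by
          rw [hNg, Nat.cast_pow]
          apply IsUnit.pow
          rw [ZMod.isUnit_iff_coprime]
          exact (Nat.coprime_primes hq hℓ).mpr hqℓ
        -- `χ(N 𝔅)` is a power of `ζ`
        have hpow1 : χF ((Ideal.absNorm 𝔅 : ℕ) : ZMod ℓ) ^ p = 1 := by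
          rw [← hunit.unit_spec, ← MulChar.pow_apply_coe, ← hχF, pow_orderOf_eq_one,
            MulChar.one_apply_coe]
        obtain ⟨i, -, hi⟩ := hζF.eq_pow_of_pow_eq_one hpow1
        have hk : χF ((Ideal.absNorm 𝔅 : ℕ) : ZMod ℓ) = (φ ζ) ^ ((i : ZMod p)).val := by
          rw [pow_val_natCast hζFp, hi]
        have hsG := hGS F ℓ χF (φ ζ) 𝔅 (i : ZMod p) hζF hχF h𝔅 h𝔅0 hp𝔅 hℓ𝔅 hk
        rw [hGF] at hsG
        -- the symbol of `θ ^ p`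
        have hμ𝔅 : φ (α ^ j * G) ∉ 𝔅 := by
          rw [map_mul, map_pow]
          intro h
          rcases h𝔅.mem_or_mem h with h' | h'
          · exact hα𝔅 (h𝔅.mem_of_pow_mem j h')
          · exact hG𝔅 h'
        have h0sym : sym p (φ ζ) (φ (α ^ j * G)) 𝔅 = 0 := by
          apply hPth F (φ ζ) (φ (α ^ j * G)) θ 𝔅 hζF h𝔅 h𝔅0 hp𝔅 hμ𝔅
          rw [hθ, sub_self]
          exact 𝔅.zero_mem
        rw [map_mul, map_pow,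
          hMul F (φ ζ) (φ α ^ j) (φ G) 𝔅 hζF h𝔅 h𝔅0 hp𝔅 (fun h => hα𝔅 (h𝔅.mem_of_pow_mem j h)) hG𝔅,
          hPow F (φ ζ) (φ α) 𝔅 j hζF h𝔅 h𝔅0 hp𝔅 hα𝔅, hsG] at h0sym
        have : (j : ZMod p) * sym p (φ ζ) (φ α) 𝔅 = (i : ZMod p) := by
          linear_combination h0sym
        rw [this, hk]
      have hB := char_prod_absNorm χF (φ ζ) hζFp (j : ZMod p) (fun 𝔅 => sym p (φ ζ) (φ α) 𝔅)
        (UniqueFactorizationMonoid.normalizedFactors (Ideal.span ({x} : Set (𝓞 F)))) hA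
      have hprod : ((UniqueFactorizationMonoid.normalizedFactors
          (Ideal.span ({x} : Set (𝓞 F)))).map fun 𝔅 => Ideal.absNorm 𝔅).prod =
          Ideal.absNorm (Ideal.span ({x} : Set (𝓞 F))) := by
        have h3 : (UniqueFactorizationMonoid.normalizedFactors
            (Ideal.span ({x} : Set (𝓞 F)))).prod = Ideal.span ({x} : Set (𝓞 F)) :=
          associated_iff_eq.mp (UniqueFactorizationMonoid.prod_normalizedFactors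
            (a := Ideal.span ({x} : Set (𝓞 F))) (by simpa using hI))
        conv_rhs => rw [← h3]
        rw [map_multiset_prod]
      rw [hprod] at hB
      -- Claim C
      have hC : χF ((Ideal.absNorm (Ideal.span ({x} : Set (𝓞 F))) : ℕ) : ZMod ℓ) = 1 := by
        obtain ⟨n, hn⟩ := hnorm x
        have hne : χF ((Ideal.absNorm (Ideal.span ({x} : Set (𝓞 F))) : ℕ) : ZMod ℓ) ≠ 0 := by
          rw [hB]
          exact pow_ne_zero _ (hζF.ne_zero hp.ne_zero)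
        rw [Ideal.absNorm_span_singleton] at hne ⊢
        rcases Int.natAbs_eq (Algebra.norm ℤ x) with habs | habs
        · have hcast : (((Algebra.norm ℤ x).natAbs : ℕ) : ZMod ℓ) = n ^ p := by
            rw [← hn]
            conv_rhs => rw [habs]
            simp
          rw [hcast] at hne ⊢
          apply hχpow n
          intro h
          apply hne
          rw [map_pow, h, zero_pow hp.ne_zero]
        · have hodd : Odd p := hp.odd_of_ne_two hp2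
          have hcast : (((Algebra.norm ℤ x).natAbs : ℕ) : ZMod ℓ) = (-n) ^ p := by
            rw [hodd.neg_pow, ← hn]
            conv_rhs => rw [habs]
            simp
          rw [hcast] at hne ⊢
          apply hχpow (-n)
          intro h
          apply hne
          rw [map_pow, h, zero_pow hp.ne_zero]
      rw [hC] at hB
      have hzero := eq_zero_of_pow_val_eq_one hζF _ hB.symm
      rcases mul_eq_zero.mp hzero with h | h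
      · exact absurd h hj
      · exact h
    · intro 𝔅 _ _ _ h
      exact h
  -- the two primes of degree one
  have hmℓ₁ : ((m * ℓ : ℕ) : 𝓞 F) ∉ 𝔅₁ := by
    rw [Nat.cast_mul]
    intro h
    rcases h𝔅₁.mem_or_mem h with h' | h'
    · exact hmP₁ (hu₁ ▸ (natCast_mem_iff 𝔅₁ m).mp h')
    · exact hℓP₁ (hu₁ ▸ (natCast_mem_iff 𝔅₁ ℓ).mp h')
  have hmℓ₂ : ((m * ℓ : ℕ) : 𝓞 F) ∉ 𝔅₂ := by
    rw [Nat.cast_mul]
    intro h
    rcases h𝔅₂.mem_or_mem h with h' | h'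
    · exact hmP₂ (hu₂ ▸ (natCast_mem_iff 𝔅₂ m).mp h')
    · exact hℓP₂ (hu₂ ▸ (natCast_mem_iff 𝔅₂ ℓ).mp h')
  have hΨ₁ : sym p (φ ζ) (φ α) 𝔅₁ = sym p ζ α P₁ := by
    rw [hbc 𝔅₁ h𝔅₁ h𝔅₁0 hmℓ₁, hf₁, hu₁, Nat.cast_one, one_mul]
  have hΨ₂ : sym p (φ ζ) (φ α) 𝔅₂ = sym p ζ α P₂ := by
    rw [hbc 𝔅₂ h𝔅₂ h𝔅₂0 hmℓ₂, hf₂, hu₂, Nat.cast_one, one_mul]
  have hP₁ : P₁.IsPrime := hu₁ ▸ Ideal.IsPrime.under (𝓞 K) 𝔅₁
  have hP₂ : P₂.IsPrime := hu₂ ▸ Ideal.IsPrime.under (𝓞 K) 𝔅₂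
  have hP₁0 : P₁ ≠ ⊥ := hu₁ ▸ NormVal.under_ne_bot 𝔅₁ h𝔅₁0
  have hP₂0 : P₂ ≠ ⊥ := hu₂ ▸ NormVal.under_ne_bot 𝔅₂ h𝔅₂0
  have hΘ₁ : evalI Θ (Ideal.relNorm (𝓞 K) 𝔅₁) = Θ P₁ := by
    rw [NormVal.relNorm_prime 𝔅₁ h𝔅₁ h𝔅₁0, hf₁, hu₁, pow_one, evalI_prime Θ hP₁ hP₁0]
  have hΘ₂ : evalI Θ (Ideal.relNorm (𝓞 K) 𝔅₂) = Θ P₂ := by
    rw [NormVal.relNorm_prime 𝔅₂ h𝔅₂ h𝔅₂0, hf₂, hu₂, pow_one, evalI_prime Θ hP₂ hP₂0]
  -- `α` is not a `p`-th power in `F`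
  have hαF : ¬ ∃ y : F, ((φ α : 𝓞 F) : F) = y ^ p := by
    rintro ⟨y, hy⟩
    have hyint : IsIntegral ℤ y := by
      apply IsIntegral.of_pow hp.pos
      rw [← hy]
      exact RingOfIntegers.isIntegral_coe (φ α)
    obtain ⟨y', rfl⟩ : ∃ y' : 𝓞 F, (y' : F) = y :=
      ⟨⟨y, hyint⟩, rfl⟩
    have hy' : φ α = y' ^ p := by
      apply RingOfIntegers.ext
      rw [hy]
      rfl
    obtain ⟨-, -, -, -, hp', hα', -⟩ := key 𝔅₁ h𝔅₁ h𝔅₁0 hmℓ₁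
    have h0 := hPth F (φ ζ) (φ α) y' 𝔅₁ hζF h𝔅₁ h𝔅₁0
      (fun h => hp' ((natCast_mem_iff 𝔅₁ p).mp h)) hα' (by rw [sub_eq_zero.mpr hy']; exact 𝔅₁.zero_mem)
    exact hs₁ (hΨ₁ ▸ h0)
  have hαmF : ∀ 𝔅 : Ideal (𝓞 F), 𝔅.IsPrime → φ α ∈ 𝔅 → ((m * ℓ : ℕ) : 𝓞 F) ∈ 𝔅 := by
    intro 𝔅 h𝔅 hα𝔅
    have h1 := hαm (𝔅.under (𝓞 K)) (Ideal.IsPrime.under (𝓞 K) 𝔅) hα𝔅
    rw [Nat.cast_mul]
    exact 𝔅.mul_mem_right _ ((natCast_mem_iff 𝔅 m).mpr h1)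
  obtain ⟨c, hc⟩ := hSIX F (φ ζ) (φ α) (m * ℓ) _ _ hζF hαF (Dvd.dvd.mul_right hpm ℓ) hαmF hΘF hΨF
    ⟨𝔅₁, h𝔅₁, h𝔅₁0, hmℓ₁, by rw [hΨ₁]; exact hs₁⟩
  have e₁ := hc 𝔅₁ h𝔅₁ h𝔅₁0 hmℓ₁
  have e₂ := hc 𝔅₂ h𝔅₂ h𝔅₂0 hmℓ₂
  simp only [hΘ₁, hΘ₂, hΨ₁, hΨ₂] at e₁ e₂
  rw [e₁, e₂]
  ring

end core

end Fermat.Agent.S14C.Cross.PropX
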