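import Mathlib

/-!
# S14, team T2, crossing hedge: block [StepK], Kummer-lemma part (B-owner file)

`kummer_aux`: let `K` be a field containing a primitive `p`-th root of unity (`p` prime) and let
`X ^ p - a` be irreducible over `K`.  If `b ≠ 0` in `K` becomes a `p`-th power in
`K(a^{1/p}) = AdjoinRoot (X ^ p - C a)`, then `b = a ^ j * z ^ p` for some `j < p`, `z` in `K`.

Proof without fixed fields: for the automorphism `τ : x ↦ ζ x` and `y ^ p = b` one has
`τ y = ζ ^ j y`; comparing coefficients in the basis `1, x, …, x^(p-1)` gives `y = z x ^ j`.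
-/

set_option autoImplicit false

open Polynomial

namespace Fermat.Agent.S14C.Cross.StepKB

section KummerLemma

variable {K : Type*} [Field K] {p : ℕ}

/-- Coefficient comparison: a polynomial of degree `< p` with `g(ζ X) = ζ^j g(X)` is a monomial
of degree `j`. -/
theorem eq_monomial_of_comp_eq {ζ : K} (hζ : IsPrimitiveRoot ζ p) {g : K[X]} (hg : g.natDegree < p)
    {j : ℕ} (hj : j < p) (h : g.comp (C ζ * X) = C (ζ ^ j) * g) :
    g = C (g.coeff j) * X ^ j := by
  ext i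
  have hi := congrArg (fun q => q.coeff i) h
  simp only [comp_C_mul_X_coeff, coeff_C_mul] at hi
  rw [coeff_C_mul, coeff_X_pow]
  by_cases hij : i = j
  · subst hij; simp
  · simp only [hij, if_false, mul_zero]
    by_cases hip : i < p
    · have hne : ζ ^ i ≠ ζ ^ j := fun h' => hij (hζ.pow_inj hip hj h')
      have h2 : g.coeff i * (ζ ^ i - ζ ^ j) = 0 := by rw [mul_sub, hi]; ring
      rcases mul_eq_zero.mp h2 with h3 | h3
      · exact h3
      · exact absurd (sub_eq_zero.mp h3) hne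
    · exact coeff_eq_zero_of_natDegree_lt (lt_of_lt_of_le hg (not_lt.mp hip))

end KummerLemma

/-- **Kummer's lemma** (power-basis form, no fixed fields), auxiliary version with the
polynomial as a variable. -/
theorem kummer_aux' {K : Type} [Field K] {p : ℕ} (hp : p.Prime) {ζ : K} (hζ : IsPrimitiveRoot ζ p)
    (a : K) (f : K[X]) (hf : f = X ^ p - C a) (H : Irreducible f)
    (τ : AdjoinRoot f ≃ₐ[K] AdjoinRoot f)
    (hτroot : τ (AdjoinRoot.root f) = algebraMap K (AdjoinRoot f) ζ * AdjoinRoot.root f)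
    (y : AdjoinRoot f) (b : K) (hb : b ≠ 0)
    (hy : y ^ p = algebraMap K (AdjoinRoot f) b) :
    ∃ j < p, ∃ z : K, b = a ^ j * z ^ p := by
  have : Fact (Irreducible f) := ⟨H⟩
  have : NeZero p := ⟨hp.ne_zero⟩
  have hmonic : f.Monic := hf ▸ monic_X_pow_sub_C a hp.ne_zero
  have hdeg : f.natDegree = p := hf ▸ natDegree_X_pow_sub_C
  have hinj : Function.Injective (algebraMap K (AdjoinRoot f)) :=
    (algebraMap K (AdjoinRoot f)).injective
  have hy0 : y ≠ 0 := by
    rintro rfl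
    rw [zero_pow hp.ne_zero] at hy
    exact hb (hinj (by rw [← hy, map_zero]))
  have hζ0 : ζ ≠ 0 := hζ.ne_zero hp.ne_zero
  -- `τ y = ζ^j y`
  have hτp : (τ y) ^ p = y ^ p := by
    rw [← map_pow, hy, AlgEquiv.commutes]
  have hζL : IsPrimitiveRoot (algebraMap K (AdjoinRoot f) ζ) p := hζ.map_of_injective hinj
  have hquot : (τ y / y) ^ p = 1 := by
    rw [div_pow, hτp, div_self (pow_ne_zero p hy0)]
  obtain ⟨j, hjp, hj⟩ := hζL.eq_pow_of_pow_eq_one hquot
  have hτy : τ y = algebraMap K (AdjoinRoot f) ζ ^ j * y := by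
    rw [hj, div_mul_cancel₀ _ hy0]
  -- a representative of degree `< p`
  obtain ⟨g₀, hg₀⟩ := AdjoinRoot.mk_surjective y
  have hgy : AdjoinRoot.mk f (g₀ %ₘ f) = y := by
    rw [← hg₀, AdjoinRoot.mk_eq_mk]
    have := modByMonic_add_div g₀ f
    refine ⟨-(g₀ /ₘ f), ?_⟩
    rw [mul_neg]
    nth_rewrite 2 [← this]
    ring
  have hgdeg : (g₀ %ₘ f).natDegree < p := by
    rw [← hdeg]
    exact natDegree_modByMonic_lt g₀ hmonic (fun h1 => by
      have := hdeg; rw [h1, natDegree_one] at this; exact hp.ne_zero this.symm)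
  generalize g₀ %ₘ f = g at hgy hgdeg
  -- `τ (mk g) = mk (g ∘ (ζ X))`
  have hτmk : τ (AdjoinRoot.mk f g) = AdjoinRoot.mk f (g.comp (C ζ * X)) := by
    rw [← AdjoinRoot.aeval_eq, ← AdjoinRoot.aeval_eq, aeval_comp]
    have h1 := Polynomial.aeval_algHom_apply (τ : AdjoinRoot f →ₐ[K] AdjoinRoot f)
      (AdjoinRoot.root f) g
    rw [AlgEquiv.coe_toAlgHom] at h1
    rw [← h1, hτroot, map_mul, aeval_C, aeval_X]
  have hmk2 : algebraMap K (AdjoinRoot f) ζ ^ j * AdjoinRoot.mk f g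
      = AdjoinRoot.mk f (C (ζ ^ j) * g) := by
    rw [map_mul, AdjoinRoot.mk_C, AdjoinRoot.algebraMap_eq, map_pow]
  have hcomp : g.comp (C ζ * X) = C (ζ ^ j) * g := by
    have h1 : AdjoinRoot.mk f (g.comp (C ζ * X)) = AdjoinRoot.mk f (C (ζ ^ j) * g) := by
      rw [← hτmk, ← hmk2, hgy, hτy]
    rw [AdjoinRoot.mk_eq_mk] at h1
    have hlt : (g.comp (C ζ * X) - C (ζ ^ j) * g).natDegree < f.natDegree := by
      rw [hdeg]
      refine lt_of_le_of_lt (natDegree_sub_le _ _) (max_lt ?_ ?_)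
      · refine lt_of_le_of_lt natDegree_comp_le ?_
        rw [natDegree_C_mul_X ζ hζ0, mul_one]
        exact hgdeg
      · exact lt_of_le_of_lt (natDegree_C_mul_le _ _) hgdeg
    exact sub_eq_zero.mp (eq_zero_of_dvd_of_natDegree_lt h1 hlt)
  obtain ⟨c, hmono⟩ : ∃ c : K, g = C c * X ^ j :=
    ⟨_, eq_monomial_of_comp_eq hζ hgdeg hjp hcomp⟩
  -- conclude
  refine ⟨j, hjp, c, ?_⟩
  apply hinj
  have hroot : AdjoinRoot.root f ^ p = algebraMap K (AdjoinRoot f) a := by
    have h0 : AdjoinRoot.mk f (X ^ p - C a) = 0 := by rw [← hf]; exact AdjoinRoot.mk_self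
    rw [map_sub, map_pow, AdjoinRoot.mk_X, AdjoinRoot.mk_C, sub_eq_zero] at h0
    rw [AdjoinRoot.algebraMap_eq]
    exact h0
  rw [← hy, ← hgy, hmono, map_mul, map_pow, AdjoinRoot.mk_C, AdjoinRoot.mk_X, mul_pow, ← pow_mul,
    mul_comm j p, pow_mul, hroot, map_mul, map_pow, map_pow, AdjoinRoot.algebraMap_eq]
  ring

/-- **Kummer's lemma** (power-basis form, no fixed fields): if `K ∋ ζ_p`, `X^p - a` is irreducible
over `K` and `b ∈ Kˣ` becomes a `p`-th power in `K(a^{1/p})`, then `b = a^j z^p` for some `j < p`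
and `z ∈ K`. -/
theorem kummer_aux {K : Type} [Field K] {p : ℕ} (hp : p.Prime) {ζ : K} (hζ : IsPrimitiveRoot ζ p)
    (a : K) (H : Irreducible (X ^ p - C a)) (y : AdjoinRoot (X ^ p - C a)) (b : K) (hb : b ≠ 0)
    (hy : y ^ p = algebraMap K (AdjoinRoot (X ^ p - C a)) b) :
    ∃ j < p, ∃ z : K, b = a ^ j * z ^ p := by
  have hζ0 : ζ ≠ 0 := hζ.ne_zero hp.ne_zero
  let η : rootsOfUnity p K := ⟨Units.mk0 ζ hζ0, by
    rw [mem_rootsOfUnity]; ext; simp [hζ.pow_eq_one]⟩
  have hτroot : autAdjoinRootXPowSubC p a η (AdjoinRoot.root (X ^ p - C a))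
      = algebraMap K (AdjoinRoot (X ^ p - C a)) ζ * AdjoinRoot.root (X ^ p - C a) := by
    have := autAdjoinRootXPowSubC_root (n := p) (a := a) η
    rw [Algebra.smul_def] at this
    exact this
  exact kummer_aux' hp hζ a (X ^ p - C a) rfl H (autAdjoinRootXPowSubC p a η) hτroot y b hb hy

end Fermat.Agent.S14C.Cross.StepKB
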