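import Fermat.Agent.S14C.Cross.Plan
import Fermat.Agent.S14C.Cross.StepKB

/-!
# S14 crossing hedge, leaf [StepK]: the auxiliary prime `ℓ`

`stepK : ZSym p → SymDvd p → SymPthPow p → StepK p`.

* `claimV` — norm to `ℚ` plus `padicValRat`: in a number field `K` with `[K : ℚ] < p` the
  identity `q₁ = (q₂ q₁^c)^j z^p` with `j < p` is impossible (`q₁ ≠ q₂` primes).
* `exists_field` — a number field `K' ∋ ζ_p` with a `p`-th root `x` of `q₂ q₁^c` in which `q₁` is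
  not a `p`-th power: `K' = ℚ(ζ_p)` if `q₂ q₁^c` is already a `p`-th power there, otherwise
  `K' = ℚ(ζ_p)[X]/(X^p - q₂ q₁^c)` and the Kummer lemma `StepKB.kummer_aux` (helper16).
* `stepK_core` — `ZSym` applied to `K'` and `q₁` gives a degree-one prime `P ∣ ℓ`; `SymDvd` gives
  `ℓ ≡ 1 (p)`, `SymPthPow` shows `q₁` is not a `p`-th power mod `ℓ`, and `x mod P` is a `p`-th
  root of `q₂ q₁^c` in `ZMod ℓ`.
-/

set_option autoImplicit false

open NumberField Polynomial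

namespace Fermat.Agent.S14C.Cross.StepK

open Fermat.Agent.S14C Fermat.Agent.S14C.Cross

/-- Valuation obstruction via the norm to `ℚ`: if `[K : ℚ] < p` then `q₁ = (q₂ q₁^c)^j z^p` with
`j < p` has no solution `z ∈ K`. -/
theorem claimV {p : ℕ} (hp : p.Prime) (K : Type) [Field K] [NumberField K]
    (hdeg : Module.finrank ℚ K < p) {q₁ q₂ : ℕ} (hq₁ : q₁.Prime) (hq₂ : q₂.Prime) (hne : q₁ ≠ q₂)
    (c j : ℕ) (hj : j < p) (z : K)
    (h : (q₁ : K) = ((q₂ : K) * (q₁ : K) ^ c) ^ j * z ^ p) : False := by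
  have hnpos : 0 < Module.finrank ℚ K := Module.finrank_pos
  have hN : ∀ m : ℕ, Algebra.norm ℚ ((m : K)) = (m : ℚ) ^ Module.finrank ℚ K := by
    intro m
    have : (m : K) = algebraMap ℚ K (m : ℚ) := by simp
    rw [this, Algebra.norm_algebraMap]
  have h1 := congrArg (Algebra.norm ℚ) h
  simp only [map_mul, map_pow, hN] at h1
  generalize Module.finrank ℚ K = n at hdeg hnpos h1
  generalize Algebra.norm ℚ z = t at h1
  have hq₁0 : (q₁ : ℚ) ≠ 0 := Nat.cast_ne_zero.mpr hq₁.ne_zero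
  have hq₂0 : (q₂ : ℚ) ≠ 0 := Nat.cast_ne_zero.mpr hq₂.ne_zero
  have ht0 : t ≠ 0 := by
    intro h0
    rw [h0, zero_pow hp.ne_zero, mul_zero] at h1
    exact pow_ne_zero n hq₁0 h1
  have := Fact.mk hq₁
  have := Fact.mk hq₂
  have hv21 : padicValRat q₂ (q₁ : ℚ) = 0 := by
    rw [padicValRat.of_nat, padicValNat_primes (Ne.symm hne)]; rfl
  have hv22 : padicValRat q₂ (q₂ : ℚ) = 1 := padicValRat.self hq₂.one_lt
  have hv11 : padicValRat q₁ (q₁ : ℚ) = 1 := padicValRat.self hq₁.one_lt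
  have hv12 : padicValRat q₁ (q₂ : ℚ) = 0 := by
    rw [padicValRat.of_nat, padicValNat_primes hne]; rfl
  have hA : ((q₂ : ℚ) ^ n * ((q₁ : ℚ) ^ n) ^ c) ^ j ≠ 0 := by positivity
  have hB : t ^ p ≠ 0 := pow_ne_zero _ ht0
  -- valuation at q₂
  have hv2 := congrArg (padicValRat q₂) h1
  rw [padicValRat.mul hA hB] at hv2
  simp only [padicValRat.pow] at hv2
  rw [padicValRat.mul (by positivity) (by positivity)] at hv2
  simp only [padicValRat.pow, hv21, hv22] at hv2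
  have hj0 : j = 0 := by
    have h2 : (p : ℤ) ∣ (j * n : ℕ) := by
      refine ⟨- padicValRat q₂ t, ?_⟩
      push_cast
      linarith
    have h3 : p ∣ j * n := Int.natCast_dvd_natCast.mp h2
    rcases (Nat.Prime.dvd_mul hp).mp h3 with h4 | h4
    · exact Nat.eq_zero_of_dvd_of_lt h4 hj
    · exact absurd (Nat.le_of_dvd hnpos h4) (by omega)
  subst hj0
  have hv1 := congrArg (padicValRat q₁) h1
  rw [pow_zero, one_mul] at hv1
  simp only [padicValRat.pow, hv11] at hv1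
  have h2 : (p : ℤ) ∣ (n : ℕ) := ⟨padicValRat q₁ t, by linarith⟩
  have h3 : p ∣ n := Int.natCast_dvd_natCast.mp h2
  exact absurd (Nat.le_of_dvd hnpos h3) (by omega)


/-- Packaging: elements of `K'` to elements of `𝓞 K'`. -/
theorem pack {p : ℕ} (hp : p.Prime) (K' : Type) [Field K'] [NumberField K'] (ζ x : K')
    (hζ : IsPrimitiveRoot ζ p) (q₁ q₂ c : ℕ) (hx : x ^ p = (q₂ : K') * (q₁ : K') ^ c)
    (hnot : ¬ ∃ y : K', (q₁ : K') = y ^ p) :
    ∃ (ζ' x' : 𝓞 K'), IsPrimitiveRoot ζ' p ∧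
      x' ^ p = (q₂ : 𝓞 K') * (q₁ : 𝓞 K') ^ c ∧
      ¬ ∃ y : K', (((q₁ : ℕ) : 𝓞 K') : K') = y ^ p := by
  have : NeZero p := ⟨hp.ne_zero⟩
  have hxint : IsIntegral ℤ x := by
    refine IsIntegral.of_pow hp.pos ?_
    rw [hx]
    have := RingOfIntegers.isIntegral_coe ((q₂ : 𝓞 K') * (q₁ : 𝓞 K') ^ c)
    simpa using this
  refine ⟨hζ.toInteger, ⟨x, hxint⟩, hζ.toInteger_isPrimitiveRoot, ?_, ?_⟩
  · apply RingOfIntegers.ext
    push_cast
    exact hx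
  · rintro ⟨y, hy⟩
    exact hnot ⟨y, by rw [← hy]; simp⟩

/-- Existence of the auxiliary field over any number field `K ∋ ζ_p` of degree `< p`. -/
theorem exists_field_of {p : ℕ} (hp : p.Prime) (K : Type) [Field K] [NumberField K]
    (hdeg : Module.finrank ℚ K < p) (ζ : K) (hζ : IsPrimitiveRoot ζ p)
    {q₁ q₂ : ℕ} (hq₁ : q₁.Prime) (hq₂ : q₂.Prime) (hne : q₁ ≠ q₂) (c : ℕ) :
    ∃ (K' : Type) (_ : Field K') (_ : NumberField K') (ζ' x : 𝓞 K'), IsPrimitiveRoot ζ' p ∧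
      x ^ p = (q₂ : 𝓞 K') * (q₁ : 𝓞 K') ^ c ∧
      ¬ ∃ y : K', (((q₁ : ℕ) : 𝓞 K') : K') = y ^ p := by
  classical
  by_cases hw : ∃ w : K, w ^ p = (q₂ : K) * (q₁ : K) ^ c
  · obtain ⟨w, hw⟩ := hw
    refine ⟨K, inferInstance, inferInstance, pack hp K ζ w hζ q₁ q₂ c hw ?_⟩
    rintro ⟨y, hy⟩
    refine claimV hp K hdeg hq₁ hq₂ hne c 0 hp.pos y ?_
    rw [pow_zero, one_mul, ← hy]
  · have hw' : ∀ w : K, w ^ p ≠ (q₂ : K) * (q₁ : K) ^ c := fun w h => hw ⟨w, h⟩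
    obtain ⟨a, ha⟩ : ∃ a : K, a = (q₂ : K) * (q₁ : K) ^ c := ⟨_, rfl⟩
    rw [← ha] at hw'
    have H : Irreducible (X ^ p - C a) := X_pow_sub_C_irreducible_of_prime hp hw'
    have : Fact (Irreducible (X ^ p - C a)) := ⟨H⟩
    let K' : Type := AdjoinRoot (X ^ p - C a)
    have : Module.Finite K K' := (AdjoinRoot.powerBasis H.ne_zero).finite
    have : CharZero K' := charZero_of_injective_algebraMap (algebraMap K K').injective
    have : Module.Finite ℚ K' := Module.Finite.trans K K'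
    have : NumberField K' := ⟨⟩
    have hζ' : IsPrimitiveRoot (algebraMap K K' ζ) p :=
      hζ.map_of_injective (algebraMap K K').injective
    have haK : algebraMap K K' a = (q₂ : K') * (q₁ : K') ^ c :=
      (congrArg (algebraMap K K') ha).trans (by simp)
    have hroot : (AdjoinRoot.root (X ^ p - C a) : K') ^ p = (q₂ : K') * (q₁ : K') ^ c := by
      have := AdjoinRoot.eval₂_root (X ^ p - C a)
      rw [← haK, AdjoinRoot.algebraMap_eq]
      simpa [sub_eq_zero] using this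
    refine ⟨K', inferInstance, inferInstance,
      pack hp K' (algebraMap K K' ζ) (AdjoinRoot.root _) hζ' q₁ q₂ c hroot ?_⟩
    rintro ⟨y, hy⟩
    have hq₁0 : (q₁ : K) ≠ 0 := Nat.cast_ne_zero.mpr hq₁.ne_zero
    have hy' : y ^ p = algebraMap K K' (q₁ : K) := by
      rw [← hy]; simp
    obtain ⟨j, hj, z, hz⟩ := StepKB.kummer_aux hp hζ a H y (q₁ : K) hq₁0 hy'
    rw [ha] at hz
    exact claimV hp K hdeg hq₁ hq₂ hne c j hj z hz

set_option backward.isDefEq.respectTransparency false in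
/-- `ℚ(ζ_p)` is a number field of degree `p - 1 < p` containing a primitive `p`-th root of
unity. -/
theorem exists_cyclo {p : ℕ} (hp : p.Prime) :
    ∃ (K : Type) (_ : Field K) (_ : NumberField K),
      Module.finrank ℚ K < p ∧ ∃ ζ : K, IsPrimitiveRoot ζ p := by
  have : NeZero p := ⟨hp.ne_zero⟩
  refine ⟨CyclotomicField p ℚ, inferInstance, inferInstance, ?_,
    _, IsCyclotomicExtension.zeta_spec p ℚ (CyclotomicField p ℚ)⟩
  rw [IsCyclotomicExtension.Rat.finrank p, Nat.totient_prime hp]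
  exact Nat.sub_lt hp.pos one_pos

/-- Existence of the auxiliary field, over `ℚ(ζ_p)`. -/
theorem exists_field {p : ℕ} (hp : p.Prime)
    {q₁ q₂ : ℕ} (hq₁ : q₁.Prime) (hq₂ : q₂.Prime) (hne : q₁ ≠ q₂) (c : ℕ) :
    ∃ (K' : Type) (_ : Field K') (_ : NumberField K') (ζ' x : 𝓞 K'), IsPrimitiveRoot ζ' p ∧
      x ^ p = (q₂ : 𝓞 K') * (q₁ : 𝓞 K') ^ c ∧
      ¬ ∃ y : K', (((q₁ : ℕ) : 𝓞 K') : K') = y ^ p := by
  obtain ⟨K, _, _, hdeg, ζ, hζ⟩ := exists_cyclo hp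
  exact exists_field_of hp K hdeg ζ hζ hq₁ hq₂ hne c

/-- Core: once a number field `K'` containing `ζ_p` and a `p`-th root `x` of `q₂ q₁^c` is given in
which `q₁` is not a `p`-th power, `ZSym` produces the prime `ℓ`. -/
theorem stepK_core {p : ℕ} [Fact p.Prime] (hZ : ZSym p) (hD : SymDvd p) (hP : SymPthPow p)
    (q₁ q₂ c : ℕ) (T : Finset ℕ)
    (K' : Type) [Field K'] [NumberField K'] (ζ x : 𝓞 K') (hζ : IsPrimitiveRoot ζ p)
    (hx : x ^ p = (q₂ : 𝓞 K') * (q₁ : 𝓞 K') ^ c)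
    (hnot : ¬ ∃ y : K', (((q₁ : ℕ) : 𝓞 K') : K') = y ^ p) :
    ∃ ℓ : ℕ, ℓ.Prime ∧ ℓ ∉ T ∧ ℓ % p = 1 ∧ ℓ ≠ q₁ ∧ ℓ ≠ q₂ ∧
      (¬ ∃ y : ZMod ℓ, y ^ p = (q₁ : ZMod ℓ)) ∧
      ∃ y : ZMod ℓ, y ^ p = (q₂ : ZMod ℓ) * (q₁ : ZMod ℓ) ^ c := by
  classical
  have hp : p.Prime := Fact.out
  obtain ⟨P, ℓ, hPp, hPbot, hℓ, hN, hℓT, hℓp, hq₁P, hsym⟩ :=
    hZ K' ζ ((q₁ : ℕ) : 𝓞 K') hζ hnot (insert p (insert q₁ (insert q₂ T)))
  simp only [Finset.mem_insert, not_or] at hℓT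
  obtain ⟨-, hℓq₁, hℓq₂, hℓT⟩ := hℓT
  -- the residue field is `ZMod ℓ`
  have hfin : Finite (𝓞 K' ⧸ P) := by
    apply Nat.finite_of_card_ne_zero
    rw [← Submodule.cardQuot_apply, ← Ideal.absNorm_apply, hN]
    exact hℓ.ne_zero
  let _ : Fintype (𝓞 K' ⧸ P) := Fintype.ofFinite _
  have hcard : Fintype.card (𝓞 K' ⧸ P) = ℓ := by
    rw [← Nat.card_eq_fintype_card, ← Submodule.cardQuot_apply, ← Ideal.absNorm_apply, hN]
  let e : ZMod ℓ ≃+* (𝓞 K' ⧸ P) := ZMod.ringEquivOfPrime _ hℓ hcard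
  let φ : 𝓞 K' →+* ZMod ℓ := (e.symm : (𝓞 K' ⧸ P) →+* ZMod ℓ).comp (Ideal.Quotient.mk P)
  have hφsurj : Function.Surjective φ :=
    e.symm.surjective.comp Ideal.Quotient.mk_surjective
  have hφker : ∀ z : 𝓞 K', φ z = 0 → z ∈ P := by
    intro z hz
    have : (Ideal.Quotient.mk P) z = 0 := by
      have h2 : e.symm ((Ideal.Quotient.mk P) z) = 0 := hz
      simpa using h2
    exact Ideal.Quotient.eq_zero_iff_mem.mp this
  have : Fact ℓ.Prime := ⟨hℓ⟩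
  -- `p ∉ P`
  have hpP : (p : 𝓞 K') ∉ P := by
    intro h
    have h1 : φ (p : 𝓞 K') = 0 := by
      change e.symm ((Ideal.Quotient.mk P) (p : 𝓞 K')) = 0
      rw [Ideal.Quotient.eq_zero_iff_mem.mpr h, map_zero]
    rw [map_natCast] at h1
    have h2 : ℓ ∣ p := (ZMod.natCast_eq_zero_iff p ℓ).mp h1
    exact hℓp ((Nat.prime_dvd_prime_iff_eq hℓ hp).mp h2)
  have hdvd : p ∣ ℓ - 1 := by
    have := hD K' ζ P hζ hPp hPbot hpP
    rwa [hN] at this
  refine ⟨ℓ, hℓ, hℓT, ?_, hℓq₁, hℓq₂, ?_, ?_⟩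
  · obtain ⟨k, hk⟩ := hdvd
    have h1 : ℓ = p * k + 1 := by have := hℓ.one_lt; omega
    rw [h1, Nat.mul_add_mod, Nat.mod_eq_of_lt hp.one_lt]
  · rintro ⟨y, hy⟩
    obtain ⟨y', rfl⟩ := hφsurj y
    apply hsym
    apply hP K' ζ ((q₁ : ℕ) : 𝓞 K') y' P hζ hPp hPbot hpP hq₁P
    apply hφker
    rw [map_sub, map_pow, map_natCast, hy, sub_self]
  · refine ⟨φ x, ?_⟩
    rw [← map_pow, hx, map_mul, map_pow, map_natCast, map_natCast]


/-- Leaf [StepK]. -/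
theorem stepK {p : ℕ} [Fact p.Prime] (hZ : ZSym p) (hD : SymDvd p) (hP : SymPthPow p) :
    StepK p := by
  intro q₁ q₂ c T hq₁ hq₂ hne _ _
  obtain ⟨K', _, _, ζ, x, hζ, hx, hnot⟩ := exists_field (Fact.out : p.Prime) hq₁ hq₂ hne c
  exact stepK_core hZ hD hP q₁ q₂ c T K' ζ x hζ hx hnot

end Fermat.Agent.S14C.Cross.StepK
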