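import Mathlib
import Fermat.Agent.S14C.Cross.Plan

/-!
# S14, team T2 (crossing hedge), block [SymBasic]

Basic API of the additive `p`-th power residue symbol `sym p ζ a P` of `XDefs`:
`SymSpec`, `SymUnique`, `ZetaInj`, `SymDvd`, `SymMul`, `SymPow`, `SymCongr`, `SymPthPow`,
`SymZero` (statements in `Cross/Plan.lean`).

Everything is a computation in the finite residue field `𝓞 F ⧸ P` (of cardinality `N P`),
in which the class of `ζ` is still a primitive `p`-th root of unity because `p ∉ P`.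
-/

set_option autoImplicit false
set_option linter.style.haveILetI false
set_option linter.unusedSectionVars false

open NumberField

namespace Fermat.Agent.S14C.Cross.SymBasic

open Fermat.Agent.S14C Fermat.Agent.S14C.Cross

section ring

variable {R : Type*} [CommRing R] [IsDomain R]

/-- If a primitive `p`-th root of unity is congruent to `1` modulo an ideal, then `p` lies in
the ideal. -/
theorem natCast_mem_of_sub_one_mem {p : ℕ} (hp : 1 < p) {μ : R} (hμ : IsPrimitiveRoot μ p)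
    (P : Ideal R) (h : μ - 1 ∈ P) : (p : R) ∈ P := by
  have hsum : ∑ i ∈ Finset.range p, μ ^ i = 0 := hμ.geom_sum_eq_zero hp
  have hmem : ∀ i : ℕ, μ ^ i - 1 ∈ P := fun i =>
    Ideal.mem_of_dvd P (sub_one_dvd_pow_sub_one μ i) h
  have h2 : ∑ i ∈ Finset.range p, (μ ^ i - 1) ∈ P := Ideal.sum_mem P fun i _ => hmem i
  rw [Finset.sum_sub_distrib, hsum] at h2
  simp only [Finset.sum_const, Finset.card_range, nsmul_eq_mul, mul_one, zero_sub] at h2
  simpa using P.neg_mem h2

/-- Powers of a `p`-th root of unity only depend on the exponent modulo `p`. -/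
theorem pow_eq_pow_of_natCast_eq {p : ℕ} {z : R} (hz : z ^ p = 1) {m n : ℕ}
    (h : (m : ZMod p) = (n : ZMod p)) : z ^ m = z ^ n := by
  rw [pow_eq_pow_mod m hz, pow_eq_pow_mod n hz, (ZMod.natCast_eq_natCast_iff' m n p).mp h]

/-- Distinct powers (exponents `< p`) of a primitive `p`-th root of unity are incongruent modulo
a prime ideal not containing `p`. -/
theorem zeta_pow_inj {p : ℕ} [Fact p.Prime] {ζ : R} (hζ : IsPrimitiveRoot ζ p) (P : Ideal R)
    [hP : P.IsPrime] (hpP : (p : R) ∉ P) {m n : ℕ} (hmn : m ≤ n) (hn : n < p)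
    (h : ζ ^ m - ζ ^ n ∈ P) : m = n := by
  have hp : p.Prime := Fact.out
  by_contra hne
  have hlt : m < n := lt_of_le_of_ne hmn hne
  have hd : 0 < n - m := Nat.sub_pos_of_lt hlt
  have hcop : (n - m).Coprime p := by
    rw [Nat.coprime_comm]
    refine (Nat.Prime.coprime_iff_not_dvd hp).mpr ?_
    intro hdv
    exact absurd (Nat.le_of_dvd hd hdv) (by omega)
  have hμ : IsPrimitiveRoot (ζ ^ (n - m)) p := hζ.pow_of_coprime _ hcop
  have hfac : ζ ^ m - ζ ^ n = -(ζ ^ m * (ζ ^ (n - m) - 1)) := by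
    have : ζ ^ n = ζ ^ m * ζ ^ (n - m) := by rw [← pow_add]; congr 1; omega
    rw [this]; ring
  rw [hfac, Ideal.neg_mem_iff] at h
  have hζP : ζ ^ m ∉ P := by
    intro hmem
    have h1 : ζ ∈ P := hP.mem_of_pow_mem m hmem
    have h2 : (1 : R) ∈ P := by
      rw [← hζ.pow_eq_one]
      exact Ideal.pow_mem_of_mem P h1 p hp.pos
    exact hP.ne_top ((Ideal.eq_top_iff_one P).mpr h2)
  exact hpP (natCast_mem_of_sub_one_mem hp.one_lt hμ P ((hP.mem_or_mem h).resolve_left hζP))

end ring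

/-! ## The residue field -/

section resfield

variable {F : Type} [Field F] [NumberField F] {p : ℕ} [Fact p.Prime]

theorem natCard_quot (P : Ideal (𝓞 F)) : Nat.card (𝓞 F ⧸ P) = Ideal.absNorm P := by
  rw [Ideal.absNorm_apply, Submodule.cardQuot_apply]

/-- Fermat's little theorem in the residue field. -/
theorem pow_absNorm_sub_one (P : Ideal (𝓞 F)) (hP : P.IsPrime) (hP0 : P ≠ ⊥) {a : 𝓞 F}
    (ha : a ∉ P) : a ^ (Ideal.absNorm P - 1) - 1 ∈ P := by
  haveI : P.IsMaximal := hP.isMaximal hP0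
  letI : Field (𝓞 F ⧸ P) := Ideal.Quotient.field P
  haveI : Finite (𝓞 F ⧸ P) := Ideal.finiteQuotientOfFreeOfNeBot P hP0
  letI : Fintype (𝓞 F ⧸ P) := Fintype.ofFinite _
  have ha' : (Ideal.Quotient.mk P a) ≠ 0 := by
    rwa [Ne, Ideal.Quotient.eq_zero_iff_mem]
  have h := FiniteField.pow_card_sub_one_eq_one _ ha'
  rw [← Nat.card_eq_fintype_card, natCard_quot] at h
  rw [← Ideal.Quotient.eq, map_pow, h, map_one]

/-- `p ∣ N P - 1`. -/
theorem dvd_absNorm_sub_one {ζ : 𝓞 F} (hζ : IsPrimitiveRoot ζ p) (P : Ideal (𝓞 F))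
    (hP : P.IsPrime) (hP0 : P ≠ ⊥) (hpP : (p : 𝓞 F) ∉ P) : p ∣ Ideal.absNorm P - 1 := by
  have hp : p.Prime := Fact.out
  haveI := hP
  haveI : P.IsMaximal := hP.isMaximal hP0
  letI : Field (𝓞 F ⧸ P) := Ideal.Quotient.field P
  have hζP : ζ ∉ P := by
    intro h1
    have h2 : (1 : 𝓞 F) ∈ P := by
      rw [← hζ.pow_eq_one]
      exact Ideal.pow_mem_of_mem P h1 p hp.pos
    exact hP.ne_top ((Ideal.eq_top_iff_one P).mpr h2)
  have h1 : (Ideal.Quotient.mk P ζ) ^ p = 1 := by rw [← map_pow, hζ.pow_eq_one, map_one]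
  have h2 : Ideal.Quotient.mk P ζ ≠ 1 := by
    intro h
    rw [← map_one (Ideal.Quotient.mk P), Ideal.Quotient.eq] at h
    exact hpP (natCast_mem_of_sub_one_mem hp.one_lt hζ P h)
  have hord : orderOf (Ideal.Quotient.mk P ζ) = p := orderOf_eq_prime h1 h2
  have h3 : (Ideal.Quotient.mk P ζ) ^ (Ideal.absNorm P - 1) = 1 := by
    have := pow_absNorm_sub_one P hP hP0 hζP
    rw [← Ideal.Quotient.eq, map_pow, map_one] at this
    exact this
  rw [← hord]
  exact orderOf_dvd_of_pow_eq_one h3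

/-- Existence of the symbol. -/
theorem exists_sym {ζ : 𝓞 F} (hζ : IsPrimitiveRoot ζ p) (P : Ideal (𝓞 F))
    (hP : P.IsPrime) (hP0 : P ≠ ⊥) (hpP : (p : 𝓞 F) ∉ P) {a : 𝓞 F} (ha : a ∉ P) :
    ∃ k : ZMod p, a ^ ((Ideal.absNorm P - 1) / p) - ζ ^ k.val ∈ P := by
  have hp : p.Prime := Fact.out
  haveI := hP
  haveI : P.IsMaximal := hP.isMaximal hP0
  letI : Field (𝓞 F ⧸ P) := Ideal.Quotient.field P
  have h1 : (Ideal.Quotient.mk P ζ) ^ p = 1 := by rw [← map_pow, hζ.pow_eq_one, map_one]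
  have h2 : Ideal.Quotient.mk P ζ ≠ 1 := by
    intro h
    rw [← map_one (Ideal.Quotient.mk P), Ideal.Quotient.eq] at h
    exact hpP (natCast_mem_of_sub_one_mem hp.one_lt hζ P h)
  have hord : orderOf (Ideal.Quotient.mk P ζ) = p := orderOf_eq_prime h1 h2
  have hprim : IsPrimitiveRoot (Ideal.Quotient.mk P ζ) p := by
    have := IsPrimitiveRoot.orderOf (Ideal.Quotient.mk P ζ)
    rwa [hord] at this
  obtain ⟨M, hM⟩ := dvd_absNorm_sub_one hζ P hP hP0 hpP
  have hdiv : (Ideal.absNorm P - 1) / p = M := by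
    rw [hM, Nat.mul_div_cancel_left M hp.pos]
  have h3 : ((Ideal.Quotient.mk P a) ^ ((Ideal.absNorm P - 1) / p)) ^ p = 1 := by
    rw [hdiv, ← pow_mul, mul_comm, ← hM]
    have := pow_absNorm_sub_one P hP hP0 ha
    rw [← Ideal.Quotient.eq, map_pow, map_one] at this
    exact this
  obtain ⟨i, hi, hi2⟩ := hprim.eq_pow_of_pow_eq_one h3
  refine ⟨(i : ZMod p), ?_⟩
  rw [ZMod.val_natCast, Nat.mod_eq_of_lt hi, ← Ideal.Quotient.eq, map_pow, map_pow, hi2]

end resfield

/-! ## The leaves -/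

variable {p : ℕ} [Fact p.Prime]

theorem zetaInj : ZetaInj p := by
  intro F _ _ ζ P i j hζ hP hpP h
  haveI := hP
  have hi : i.val < p := ZMod.val_lt i
  have hj : j.val < p := ZMod.val_lt j
  have hval : i.val = j.val := by
    rcases le_total i.val j.val with hle | hle
    · exact zeta_pow_inj hζ P hpP hle hj h
    · have h' : ζ ^ j.val - ζ ^ i.val ∈ P := by
        rw [← neg_sub]; exact P.neg_mem h
      exact (zeta_pow_inj hζ P hpP hle hi h').symm
  exact ZMod.val_injective p hval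

theorem symDvd : SymDvd p := by
  intro F _ _ ζ P hζ hP hP0 hpP
  exact dvd_absNorm_sub_one hζ P hP hP0 hpP

theorem symSpec : SymSpec p := by
  intro F _ _ ζ a P hζ hP hP0 hpP ha
  have h := exists_sym hζ P hP hP0 hpP ha
  unfold sym
  rw [dif_pos h]
  exact h.choose_spec

theorem symUnique : SymUnique p := by
  intro F _ _ ζ a P k hζ hP hP0 hpP hk
  have hp : p.Prime := Fact.out
  haveI := hP
  have hζP : ∀ n : ℕ, ζ ^ n ∉ P := by
    intro n hmem
    have h1 : ζ ∈ P := hP.mem_of_pow_mem n hmem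
    have h2 : (1 : 𝓞 F) ∈ P := by
      rw [← hζ.pow_eq_one]
      exact Ideal.pow_mem_of_mem P h1 p hp.pos
    exact hP.ne_top ((Ideal.eq_top_iff_one P).mpr h2)
  have ha : a ∉ P := by
    intro haP
    obtain ⟨M, hM⟩ := dvd_absNorm_sub_one hζ P hP hP0 hpP
    have hdiv : (Ideal.absNorm P - 1) / p = M := by
      rw [hM, Nat.mul_div_cancel_left M hp.pos]
    have hN : 2 ≤ Ideal.absNorm P := by
      have h0 : Ideal.absNorm P ≠ 0 := by
        rw [Ne, Ideal.absNorm_eq_zero_iff]; exact hP0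
      have h1 : Ideal.absNorm P ≠ 1 := by
        rw [Ne, Ideal.absNorm_eq_one_iff]; exact hP.ne_top
      omega
    have hMpos : 0 < M := by
      rcases Nat.eq_zero_or_pos M with h0 | h0
      · rw [h0, mul_zero] at hM; omega
      · exact h0
    rw [hdiv] at hk
    have h1 : a ^ M ∈ P := Ideal.pow_mem_of_mem P haP M hMpos
    have h2 : ζ ^ k.val ∈ P := by
      have := P.sub_mem h1 hk
      simpa using this
    exact hζP _ h2
  have hspec := symSpec F ζ a P hζ hP hP0 hpP ha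
  have hdiff : ζ ^ (sym p ζ a P).val - ζ ^ k.val ∈ P := by
    have := P.sub_mem hk hspec
    simpa using this
  exact zetaInj F ζ P _ _ hζ hP hpP hdiff

theorem symMul : SymMul p := by
  intro F _ _ ζ a b P hζ hP hP0 hpP ha hb
  apply symUnique F ζ (a * b) P _ hζ hP hP0 hpP
  have h1 := symSpec F ζ a P hζ hP hP0 hpP ha
  have h2 := symSpec F ζ b P hζ hP hP0 hpP hb
  have hpow : ζ ^ (sym p ζ a P + sym p ζ b P).val
      = ζ ^ (sym p ζ a P).val * ζ ^ (sym p ζ b P).val := by
    rw [← pow_add]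
    apply pow_eq_pow_of_natCast_eq hζ.pow_eq_one
    rw [ZMod.natCast_zmod_val, Nat.cast_add, ZMod.natCast_zmod_val, ZMod.natCast_zmod_val]
  rw [hpow, mul_pow]
  have : a ^ ((Ideal.absNorm P - 1) / p) * b ^ ((Ideal.absNorm P - 1) / p)
      - ζ ^ (sym p ζ a P).val * ζ ^ (sym p ζ b P).val
      = (a ^ ((Ideal.absNorm P - 1) / p) - ζ ^ (sym p ζ a P).val)
          * b ^ ((Ideal.absNorm P - 1) / p)
        + ζ ^ (sym p ζ a P).val * (b ^ ((Ideal.absNorm P - 1) / p) - ζ ^ (sym p ζ b P).val) := by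
    ring
  rw [this]
  exact P.add_mem (P.mul_mem_right _ h1) (P.mul_mem_left _ h2)

theorem symPow : SymPow p := by
  intro F _ _ ζ a P n hζ hP hP0 hpP ha
  apply symUnique F ζ (a ^ n) P _ hζ hP hP0 hpP
  have h1 := symSpec F ζ a P hζ hP hP0 hpP ha
  have hpow : ζ ^ ((n : ZMod p) * sym p ζ a P).val = (ζ ^ (sym p ζ a P).val) ^ n := by
    rw [← pow_mul]
    apply pow_eq_pow_of_natCast_eq hζ.pow_eq_one
    rw [ZMod.natCast_zmod_val, Nat.cast_mul, ZMod.natCast_zmod_val, mul_comm]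
  rw [hpow, ← pow_mul, mul_comm n, pow_mul]
  exact Ideal.mem_of_dvd P (sub_dvd_pow_sub_pow _ _ n) h1

theorem symCongr : SymCongr p := by
  intro F _ _ ζ a b P hab
  have hpred : (fun k : ZMod p => a ^ ((Ideal.absNorm P - 1) / p) - ζ ^ k.val ∈ P)
      = (fun k : ZMod p => b ^ ((Ideal.absNorm P - 1) / p) - ζ ^ k.val ∈ P) := by
    funext k
    apply propext
    have hd : a ^ ((Ideal.absNorm P - 1) / p) - b ^ ((Ideal.absNorm P - 1) / p) ∈ P :=
      Ideal.mem_of_dvd P (sub_dvd_pow_sub_pow _ _ _) hab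
    constructor
    · intro h
      have := P.sub_mem h hd
      simpa using this
    · intro h
      have := P.add_mem h hd
      simpa using this
  have key : ∀ (Q Q' : ZMod p → Prop), Q = Q' →
      (@dite _ (∃ k, Q k) (Classical.propDecidable _) (fun h => h.choose) (fun _ => 0))
        = (@dite _ (∃ k, Q' k) (Classical.propDecidable _) (fun h => h.choose) (fun _ => 0)) := by
    intro Q Q' h
    subst h
    rfl
  exact key _ _ hpred

theorem symPthPow : SymPthPow p := by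
  intro F _ _ ζ a y P hζ hP hP0 hpP ha hay
  have hp : p.Prime := Fact.out
  apply symUnique F ζ a P 0 hζ hP hP0 hpP
  rw [ZMod.val_zero, pow_zero]
  obtain ⟨M, hM⟩ := dvd_absNorm_sub_one hζ P hP hP0 hpP
  have hdiv : (Ideal.absNorm P - 1) / p = M := by
    rw [hM, Nat.mul_div_cancel_left M hp.pos]
  rw [hdiv]
  have hy : y ∉ P := by
    intro hyP
    apply ha
    have h1 : y ^ p ∈ P := Ideal.pow_mem_of_mem P hyP p hp.pos
    have := P.add_mem hay h1
    simpa using this
  have h1 : a ^ M - (y ^ p) ^ M ∈ P := Ideal.mem_of_dvd P (sub_dvd_pow_sub_pow _ _ M) hay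
  have h2 : (y ^ p) ^ M - 1 ∈ P := by
    rw [← pow_mul, ← hM]
    exact pow_absNorm_sub_one P hP hP0 hy
  have := P.add_mem h1 h2
  simpa using this

theorem symZero : SymZero p := by
  intro F _ _ ζ a P hζ hP hP0 hpP ha hsym
  have hp : p.Prime := Fact.out
  have hspec := symSpec F ζ a P hζ hP hP0 hpP ha
  rw [hsym, ZMod.val_zero, pow_zero] at hspec
  obtain ⟨M, hM⟩ := dvd_absNorm_sub_one hζ P hP hP0 hpP
  have hdiv : (Ideal.absNorm P - 1) / p = M := by
    rw [hM, Nat.mul_div_cancel_left M hp.pos]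
  rw [hdiv] at hspec
  haveI := hP
  haveI : P.IsMaximal := hP.isMaximal hP0
  letI : Field (𝓞 F ⧸ P) := Ideal.Quotient.field P
  haveI : Finite (𝓞 F ⧸ P) := Ideal.finiteQuotientOfFreeOfNeBot P hP0
  have ha' : (Ideal.Quotient.mk P a) ≠ 0 := by
    rwa [Ne, Ideal.Quotient.eq_zero_iff_mem]
  have haM : (Ideal.Quotient.mk P a) ^ M = 1 := by
    rw [← Ideal.Quotient.eq, map_pow, map_one] at hspec
    exact hspec
  -- a generator of the unit group of the residue field
  obtain ⟨g, hg⟩ := IsCyclic.exists_monoid_generator (α := (𝓞 F ⧸ P)ˣ)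
  have hgz : ∀ x : (𝓞 F ⧸ P)ˣ, x ∈ Subgroup.zpowers g := by
    intro x
    obtain ⟨n, hn⟩ := (Submonoid.mem_powers_iff _ _).mp (hg x)
    exact ⟨n, by simpa using hn⟩
  have hordg : orderOf g = Ideal.absNorm P - 1 := by
    rw [orderOf_eq_card_of_forall_mem_zpowers hgz, Nat.card_units, natCard_quot]
  obtain ⟨m, hm⟩ := (Submonoid.mem_powers_iff _ _).mp (hg (Units.mk0 _ ha'))
  have h1 : g ^ (m * M) = 1 := by
    rw [pow_mul, hm]
    apply Units.ext
    simpa using haM
  have h2 : p * M ∣ m * M := by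
    rw [← hM, ← hordg]
    exact orderOf_dvd_of_pow_eq_one h1
  have hMpos : 0 < M := by
    rcases Nat.eq_zero_or_pos M with h0 | h0
    · exfalso
      rw [h0, mul_zero] at hM
      have hN : 2 ≤ Ideal.absNorm P := by
        have h0 : Ideal.absNorm P ≠ 0 := by
          rw [Ne, Ideal.absNorm_eq_zero_iff]; exact hP0
        have h1 : Ideal.absNorm P ≠ 1 := by
          rw [Ne, Ideal.absNorm_eq_one_iff]; exact hP.ne_top
        omega
      omega
    · exact h0
  obtain ⟨m', hm'⟩ := (Nat.mul_dvd_mul_iff_right hMpos).mp h2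
  obtain ⟨y, hy⟩ := Ideal.Quotient.mk_surjective (((g ^ m' : (𝓞 F ⧸ P)ˣ) : 𝓞 F ⧸ P))
  refine ⟨y, ?_⟩
  rw [← Ideal.Quotient.eq, map_pow, hy, ← Units.val_pow_eq_pow_val, ← pow_mul, mul_comm, ← hm',
    hm]
  rfl

end Fermat.Agent.S14C.Cross.SymBasic
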