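import Mathlib
import Fermat.Agent.S14C.Cross.Plan
import Fermat.Agent.S14C.Cross.SymBasic

/-!
# S14, team T2 (crossing hedge), block [SymExt] (B seat): `SymBase`

Base change of the symbol: for `F / K`, a prime `P` of `F` and `a ∈ 𝓞 K`,
`sym (a) P = f(P | P ∩ K) · sym a (P ∩ K)`.  (`N P = N(P ∩ K) ^ f` and
`(N ^ f - 1) / (N - 1) = 1 + N + ⋯ + N^(f-1) ≡ f (mod p)` because `N ≡ 1 (mod p)`.)
-/

set_option autoImplicit false
set_option linter.style.haveILetI false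
set_option linter.unusedSectionVars false

open NumberField

namespace Fermat.Agent.S14C.Cross.SymBaseB

open Fermat.Agent.S14C Fermat.Agent.S14C.Cross Fermat.Agent.S14C.Cross.SymBasic

/-- `N P = N (P ∩ K) ^ f`. -/
theorem absNorm_eq_pow_inertiaDeg_under {K F : Type} [Field K] [NumberField K] [Field F]
    [NumberField F] [Algebra K F] (P : Ideal (𝓞 F)) (hP : P.IsPrime) (hP0 : P ≠ ⊥) :
    Ideal.absNorm P = Ideal.absNorm (P.under (𝓞 K)) ^ P.inertiaDeg (𝓞 K) := by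
  haveI := hP
  have h𝔭0 : P.under (𝓞 K) ≠ ⊥ := Ideal.under_ne_bot (𝓞 K) hP0
  haveI : (P.under (𝓞 K)).IsMaximal := (Ideal.IsPrime.under (𝓞 K) P).isMaximal h𝔭0
  haveI : P.IsMaximal := hP.isMaximal hP0
  haveI : P.LiesOver (P.under (𝓞 K)) := ⟨rfl⟩
  letI : Field (𝓞 K ⧸ P.under (𝓞 K)) := Ideal.Quotient.field _
  letI : Field (𝓞 F ⧸ P) := Ideal.Quotient.field P
  haveI : Finite (𝓞 F ⧸ P) := Ideal.finiteQuotientOfFreeOfNeBot P hP0
  haveI : Finite (𝓞 K ⧸ P.under (𝓞 K)) := Ideal.finiteQuotientOfFreeOfNeBot _ h𝔭0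
  haveI : Module.Finite (𝓞 K ⧸ P.under (𝓞 K)) (𝓞 F ⧸ P) := Module.Finite.of_finite
  rw [Ideal.inertiaDeg_eq_of_isMaximal (P.under (𝓞 K)) P, ← natCard_quot, ← natCard_quot]
  exact Module.natCard_eq_pow_finrank

variable {p : ℕ} [Fact p.Prime]

theorem symBase : SymBase p := by
  intro K F _ _ _ _ _ ζ a P hζ hP hP0 hpP ha
  have hp : p.Prime := Fact.out
  haveI := hP
  have h𝔭 : (P.under (𝓞 K)).IsPrime := Ideal.IsPrime.under (𝓞 K) P
  have h𝔭0 : P.under (𝓞 K) ≠ ⊥ := Ideal.under_ne_bot (𝓞 K) hP0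
  have hmem : ∀ x : 𝓞 K, x ∈ P.under (𝓞 K) ↔ algebraMap (𝓞 K) (𝓞 F) x ∈ P := fun x => Iff.rfl
  have hp𝔭 : (p : 𝓞 K) ∉ P.under (𝓞 K) := by
    rw [hmem, map_natCast]; exact hpP
  have ha𝔭 : a ∉ P.under (𝓞 K) := by rw [hmem]; exact ha
  have hinj : Function.Injective (algebraMap (𝓞 K) (𝓞 F)) :=
    FaithfulSMul.algebraMap_injective (𝓞 K) (𝓞 F)
  have hζF : IsPrimitiveRoot (algebraMap (𝓞 K) (𝓞 F) ζ) p := hζ.map_of_injective hinj
  set N := Ideal.absNorm (P.under (𝓞 K)) with hNdef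
  set f := P.inertiaDeg (𝓞 K) with hfdef
  have hNP : Ideal.absNorm P = N ^ f := absNorm_eq_pow_inertiaDeg_under P hP hP0
  obtain ⟨M, hM⟩ := dvd_absNorm_sub_one hζ (P.under (𝓞 K)) h𝔭 h𝔭0 hp𝔭
  have hdiv : (N - 1) / p = M := by rw [hM, Nat.mul_div_cancel_left M hp.pos]
  have hN2 : 2 ≤ N := by
    have h0 : N ≠ 0 := by
      rw [hNdef, Ne, Ideal.absNorm_eq_zero_iff]; exact h𝔭0
    have h1 : N ≠ 1 := by
      rw [hNdef, Ne, Ideal.absNorm_eq_one_iff]; exact h𝔭.ne_top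
    omega
  -- geometric sum
  set G := ∑ i ∈ Finset.range f, N ^ i with hG
  have hgeom : N ^ f - 1 = (N - 1) * G := by
    have h1 : (N ^ f - 1 : ℕ) = G * (N - 1) := by
      have := Nat.geomSum_eq hN2 f
      have hdvd : N - 1 ∣ N ^ f - 1 := Nat.sub_one_dvd_pow_sub_one N f
      rw [hG, this, Nat.div_mul_cancel hdvd]
    rw [h1, mul_comm]
  have hdivP : (Ideal.absNorm P - 1) / p = M * G := by
    rw [hNP, hgeom, hM, mul_assoc, Nat.mul_div_cancel_left _ hp.pos]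
  have hNcast : (N : ZMod p) = 1 := by
    have h1 : N = p * M + 1 := by omega
    rw [h1]; simp
  have hGcast : (G : ZMod p) = (f : ZMod p) := by
    rw [hG]; push_cast; rw [hNcast]; simp
  -- the congruence downstairs, pushed up
  have hspec := symSpec K ζ a (P.under (𝓞 K)) hζ h𝔭 h𝔭0 hp𝔭 ha𝔭
  rw [hdiv, hmem, map_sub, map_pow, map_pow] at hspec
  apply symUnique F _ _ P _ hζF hP hP0 hpP
  rw [hdivP, pow_mul]
  have hpow : algebraMap (𝓞 K) (𝓞 F) ζ ^ ((f : ZMod p) * sym p ζ a (P.under (𝓞 K))).val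
      = (algebraMap (𝓞 K) (𝓞 F) ζ ^ (sym p ζ a (P.under (𝓞 K))).val) ^ G := by
    rw [← pow_mul]
    apply pow_eq_pow_of_natCast_eq hζF.pow_eq_one
    rw [ZMod.natCast_zmod_val, Nat.cast_mul, ZMod.natCast_zmod_val, hGcast, mul_comm]
  rw [hpow]
  exact Ideal.mem_of_dvd P (sub_dvd_pow_sub_pow _ _ G) hspec

end Fermat.Agent.S14C.Cross.SymBaseB
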