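import Fermat.Agent.S14C.Cross.Plan

/-!
# S14C / Cross : [SymBasic] (B-owner file) — basic API of the symbol `sym p ζ a P`

`SymSpec`, `SymUnique`, `ZetaInj`, `SymDvd`, `SymMul`, `SymPow`, `SymCongr`, `SymPthPow`,
`SymZero` of `Cross/Plan.lean`, proved in the finite residue field `𝓞 F ⧸ P`.
-/

set_option autoImplicit false
set_option linter.unusedSectionVars false
set_option linter.style.haveILetI false

open NumberField

namespace Fermat.Agent.S14C.Cross.SymBasicB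

variable {F : Type} [Field F] [NumberField F] {p : ℕ} [Fact p.Prime]

/-- Fermat's little theorem in the residue field of a nonzero prime. -/
theorem pow_absNorm_sub_one_mem {P : Ideal (𝓞 F)} (hP : P.IsPrime) (hP0 : P ≠ ⊥) {a : 𝓞 F}
    (ha : a ∉ P) : a ^ (Ideal.absNorm P - 1) - 1 ∈ P := by
  haveI hmax : P.IsMaximal := hP.isMaximal hP0
  letI : Field (𝓞 F ⧸ P) := Ideal.Quotient.field P
  haveI : Finite (𝓞 F ⧸ P) := P.finiteQuotientOfFreeOfNeBot hP0
  letI := Fintype.ofFinite (𝓞 F ⧸ P)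
  have hcard : Fintype.card (𝓞 F ⧸ P) = Ideal.absNorm P := by
    rw [Ideal.absNorm_apply, Submodule.cardQuot_apply, Nat.card_eq_fintype_card]
  have hne : (Ideal.Quotient.mk P a) ≠ 0 := by
    rwa [Ne, Ideal.Quotient.eq_zero_iff_mem]
  have h := FiniteField.pow_card_sub_one_eq_one (Ideal.Quotient.mk P a) hne
  rw [hcard] at h
  rw [← Ideal.Quotient.eq_zero_iff_mem, map_sub, map_pow, map_one, h, sub_self]

/-- `ζ ^ d ≢ 1 (mod P)` when `p ∤ d` and `p ∉ P`. -/
theorem zeta_pow_sub_one_notMem {ζ : 𝓞 F} {P : Ideal (𝓞 F)} (hζ : IsPrimitiveRoot ζ p)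
    (_hP : P.IsPrime) (hp : (p : 𝓞 F) ∉ P) {d : ℕ} (hd : ¬ p ∣ d) : ζ ^ d - 1 ∉ P := by
  intro h
  have hpp : p.Prime := Fact.out
  apply hp
  have hz : Ideal.Quotient.mk P ζ ^ d = 1 := by
    rw [← map_pow, ← sub_eq_zero, ← map_one (Ideal.Quotient.mk P), ← map_sub,
      Ideal.Quotient.eq_zero_iff_mem]
    exact h
  have hzp : Ideal.Quotient.mk P ζ ^ p = 1 := by
    rw [← map_pow, hζ.pow_eq_one, map_one]
  have hcop : Nat.gcd d p = 1 := by
    rw [Nat.gcd_comm]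
    exact (Nat.Prime.coprime_iff_not_dvd hpp).mpr hd
  have h1 : Ideal.Quotient.mk P ζ = 1 := by
    have := pow_gcd_eq_one.mpr ⟨hz, hzp⟩
    rwa [hcop, pow_one] at this
  have hsum : ∑ i ∈ Finset.range p, ζ ^ i = 0 := hζ.geom_sum_eq_zero hpp.one_lt
  have := congrArg (Ideal.Quotient.mk P) hsum
  rw [map_sum] at this
  simp only [map_pow, h1, one_pow, Finset.sum_const, Finset.card_range, nsmul_eq_mul, mul_one,
    map_zero] at this
  rw [← Ideal.Quotient.eq_zero_iff_mem, map_natCast]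
  exact this

theorem zeta_notMem {ζ : 𝓞 F} {P : Ideal (𝓞 F)} (hζ : IsPrimitiveRoot ζ p)
    (hP : P.IsPrime) (n : ℕ) : ζ ^ n ∉ P := by
  intro h
  apply hP.ne_top
  rw [Ideal.eq_top_iff_one]
  have hpp : p.Prime := Fact.out
  have : ζ ^ n * ζ ^ (n * (p - 1)) = 1 := by
    rw [← pow_add, show n + n * (p - 1) = p * n by
      obtain ⟨k, hk⟩ : ∃ k, p = k + 1 := ⟨p - 1, by have := hpp.pos; omega⟩
      rw [hk]; simp; ring, pow_mul, hζ.pow_eq_one, one_pow]
  rw [← this]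
  exact P.mul_mem_right _ h

theorem zetaInj : ZetaInj p := by
  intro F _ _ ζ P i j hζ hP hp h
  have hpp : p.Prime := Fact.out
  haveI : NeZero p := ⟨hpp.ne_zero⟩
  -- wlog on the order of the exponents
  have key : ∀ i j : ZMod p, i.val ≤ j.val → ζ ^ i.val - ζ ^ j.val ∈ P → i = j := by
    intro i j hij h
    have hd : ζ ^ (j.val - i.val) - 1 ∈ P := by
      have h2 : ζ ^ i.val * (ζ ^ (j.val - i.val) - 1) ∈ P := by
        have : ζ ^ i.val * (ζ ^ (j.val - i.val) - 1) = -(ζ ^ i.val - ζ ^ j.val) := by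
          rw [mul_sub, ← pow_add, Nat.add_sub_cancel' hij]; ring
        rw [this]
        exact P.neg_mem h
      exact (hP.mem_or_mem h2).resolve_left (zeta_notMem hζ hP _)
    by_contra hne
    have hlt : j.val - i.val < p := lt_of_le_of_lt (Nat.sub_le _ _) (ZMod.val_lt j)
    have hpos : 0 < j.val - i.val := by
      rcases Nat.eq_zero_or_pos (j.val - i.val) with h0 | h0
      · exact absurd (ZMod.val_injective p (by omega)) hne
      · exact h0
    exact zeta_pow_sub_one_notMem hζ hP hp (Nat.not_dvd_of_pos_of_lt hpos hlt) hd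
  rcases le_total i.val j.val with hij | hij
  · exact key i j hij h
  · refine (key j i hij ?_).symm
    have : ζ ^ j.val - ζ ^ i.val = -(ζ ^ i.val - ζ ^ j.val) := by ring
    rw [this]
    exact P.neg_mem h

theorem symDvd : SymDvd p := by
  intro F _ _ ζ P hζ hP hP0 hp
  by_contra hd
  have h1 : ζ ^ (Ideal.absNorm P - 1) - 1 ∈ P := by
    have := pow_absNorm_sub_one_mem hP hP0 (a := ζ) (by simpa using zeta_notMem hζ hP 1)
    exact this
  exact zeta_pow_sub_one_notMem hζ hP hp hd h1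

/-- Every `p`-th root of unity modulo `P` is congruent to a power of `ζ`. -/
theorem exists_zeta_pow {ζ : 𝓞 F} {P : Ideal (𝓞 F)} (hζ : IsPrimitiveRoot ζ p)
    (hP : P.IsPrime) (hp : (p : 𝓞 F) ∉ P) {x : 𝓞 F} (hx : x ^ p - 1 ∈ P) :
    ∃ k : ZMod p, x - ζ ^ k.val ∈ P := by
  have hpp : p.Prime := Fact.out
  haveI : NeZero p := ⟨hpp.ne_zero⟩
  haveI : IsDomain (𝓞 F ⧸ P) := Ideal.Quotient.isDomain P
  have hprim : IsPrimitiveRoot (Ideal.Quotient.mk P ζ) p := by
    refine ⟨by rw [← map_pow, hζ.pow_eq_one, map_one], fun l hl => ?_⟩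
    by_contra hd
    apply zeta_pow_sub_one_notMem hζ hP hp hd
    rw [← Ideal.Quotient.eq_zero_iff_mem, map_sub, map_pow, hl, map_one, sub_self]
  have hx' : Ideal.Quotient.mk P x ^ p = 1 := by
    rw [← map_pow, ← sub_eq_zero, ← map_one (Ideal.Quotient.mk P), ← map_sub,
      Ideal.Quotient.eq_zero_iff_mem]
    exact hx
  obtain ⟨i, hi, hix⟩ := hprim.eq_pow_of_pow_eq_one hx'
  refine ⟨(i : ZMod p), ?_⟩
  rw [ZMod.val_natCast_of_lt hi, ← Ideal.Quotient.eq_zero_iff_mem, map_sub, map_pow, hix, sub_self]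

theorem symSpec : SymSpec p := by
  intro F _ _ ζ a P hζ hP hP0 hp ha
  have hex : ∃ k : ZMod p, a ^ ((Ideal.absNorm P - 1) / p) - ζ ^ k.val ∈ P := by
    apply exists_zeta_pow hζ hP hp
    rw [← pow_mul, Nat.div_mul_cancel (symDvd F ζ P hζ hP hP0 hp)]
    exact pow_absNorm_sub_one_mem hP hP0 ha
  unfold sym
  rw [dif_pos hex]
  exact hex.choose_spec

theorem symUnique : SymUnique p := by
  intro F _ _ ζ a P k hζ hP hP0 hp h
  have hex : ∃ k : ZMod p, a ^ ((Ideal.absNorm P - 1) / p) - ζ ^ k.val ∈ P := ⟨k, h⟩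
  have hs : a ^ ((Ideal.absNorm P - 1) / p) - ζ ^ (sym p ζ a P).val ∈ P := by
    unfold sym
    rw [dif_pos hex]
    exact hex.choose_spec
  apply zetaInj F ζ P _ _ hζ hP hp
  have : ζ ^ (sym p ζ a P).val - ζ ^ k.val =
      (a ^ ((Ideal.absNorm P - 1) / p) - ζ ^ k.val) -
        (a ^ ((Ideal.absNorm P - 1) / p) - ζ ^ (sym p ζ a P).val) := by ring
  rw [this]
  exact P.sub_mem h hs

/-- `ζ ^ (i + j).val = ζ ^ (i.val + j.val)`. -/
theorem zeta_pow_val_add {ζ : 𝓞 F} (hζ : IsPrimitiveRoot ζ p) (i j : ZMod p) :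
    ζ ^ (i + j).val = ζ ^ (i.val + j.val) := by
  have hpp : p.Prime := Fact.out
  haveI : NeZero p := ⟨hpp.ne_zero⟩
  rw [ZMod.val_add]
  conv_rhs => rw [← Nat.mod_add_div (i.val + j.val) p]
  rw [pow_add, pow_mul, hζ.pow_eq_one, one_pow, mul_one]

theorem symMul : SymMul p := by
  intro F _ _ ζ a b P hζ hP hP0 hp ha hb
  apply symUnique F ζ (a * b) P _ hζ hP hP0 hp
  have h1 := symSpec F ζ a P hζ hP hP0 hp ha
  have h2 := symSpec F ζ b P hζ hP hP0 hp hb
  rw [zeta_pow_val_add hζ, pow_add, mul_pow]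
  set N := (Ideal.absNorm P - 1) / p
  have : a ^ N * b ^ N - ζ ^ (sym p ζ a P).val * ζ ^ (sym p ζ b P).val =
      (a ^ N - ζ ^ (sym p ζ a P).val) * b ^ N +
        ζ ^ (sym p ζ a P).val * (b ^ N - ζ ^ (sym p ζ b P).val) := by ring
  rw [this]
  exact P.add_mem (P.mul_mem_right _ h1) (P.mul_mem_left _ h2)

theorem sym_one {ζ : 𝓞 F} {P : Ideal (𝓞 F)} (hζ : IsPrimitiveRoot ζ p) (hP : P.IsPrime)
    (hP0 : P ≠ ⊥) (hp : (p : 𝓞 F) ∉ P) : sym p ζ (1 : 𝓞 F) P = 0 := by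
  have hpp : p.Prime := Fact.out
  haveI : NeZero p := ⟨hpp.ne_zero⟩
  apply symUnique F ζ 1 P 0 hζ hP hP0 hp
  simp

theorem symPow : SymPow p := by
  intro F _ _ ζ a P n hζ hP hP0 hp ha
  induction n with
  | zero => simpa using sym_one hζ hP hP0 hp
  | succ n ih =>
    rw [pow_succ, symMul F ζ (a ^ n) a P hζ hP hP0 hp (fun h => ha (hP.mem_of_pow_mem n h)) ha, ih]
    push_cast
    ring

theorem symCongr : SymCongr p := by
  intro F _ _ ζ a b P hab
  have hpow : ∀ n : ℕ, a ^ n - b ^ n ∈ P := fun n =>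
    P.mem_of_dvd (sub_dvd_pow_sub_pow a b n) hab
  have hiff : ∀ k : ZMod p, a ^ ((Ideal.absNorm P - 1) / p) - ζ ^ k.val ∈ P ↔
      b ^ ((Ideal.absNorm P - 1) / p) - ζ ^ k.val ∈ P := by
    intro k
    constructor
    · intro h
      have : b ^ ((Ideal.absNorm P - 1) / p) - ζ ^ k.val =
          (a ^ ((Ideal.absNorm P - 1) / p) - ζ ^ k.val) -
            (a ^ ((Ideal.absNorm P - 1) / p) - b ^ ((Ideal.absNorm P - 1) / p)) := by ring
      rw [this]
      exact P.sub_mem h (hpow _)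
    · intro h
      have : a ^ ((Ideal.absNorm P - 1) / p) - ζ ^ k.val =
          (b ^ ((Ideal.absNorm P - 1) / p) - ζ ^ k.val) +
            (a ^ ((Ideal.absNorm P - 1) / p) - b ^ ((Ideal.absNorm P - 1) / p)) := by ring
      rw [this]
      exact P.add_mem h (hpow _)
  have hfun : (fun k : ZMod p => a ^ ((Ideal.absNorm P - 1) / p) - ζ ^ k.val ∈ P) =
      (fun k : ZMod p => b ^ ((Ideal.absNorm P - 1) / p) - ζ ^ k.val ∈ P) :=
    funext fun k => propext (hiff k)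
  unfold sym
  rw [hfun]

theorem symPthPow : SymPthPow p := by
  intro F _ _ ζ a y P hζ hP hP0 hp ha hay
  have hpp : p.Prime := Fact.out
  haveI : NeZero p := ⟨hpp.ne_zero⟩
  rw [symCongr F ζ a (y ^ p) P hay]
  have hy : y ∉ P := by
    intro hy
    apply ha
    have : a = (a - y ^ p) + y ^ p := by ring
    rw [this]
    exact P.add_mem hay (P.pow_mem_of_mem hy p hpp.pos)
  apply symUnique F ζ (y ^ p) P 0 hζ hP hP0 hp
  rw [ZMod.val_zero, pow_zero, ← pow_mul, Nat.mul_div_cancel' (symDvd F ζ P hζ hP hP0 hp)]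
  exact pow_absNorm_sub_one_mem hP hP0 hy

theorem symZero : SymZero p := by
  intro F _ _ ζ a P hζ hP hP0 hp ha hs
  have hpp : p.Prime := Fact.out
  haveI : NeZero p := ⟨hpp.ne_zero⟩
  haveI hmax : P.IsMaximal := hP.isMaximal hP0
  letI : Field (𝓞 F ⧸ P) := Ideal.Quotient.field P
  haveI : Finite (𝓞 F ⧸ P) := P.finiteQuotientOfFreeOfNeBot hP0
  letI := Fintype.ofFinite (𝓞 F ⧸ P)
  have hcard : Fintype.card (𝓞 F ⧸ P) = Ideal.absNorm P := by
    rw [Ideal.absNorm_apply, Submodule.cardQuot_apply, Nat.card_eq_fintype_card]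
  set N := (Ideal.absNorm P - 1) / p with hN
  have hpN : p * N = Ideal.absNorm P - 1 := Nat.mul_div_cancel' (symDvd F ζ P hζ hP hP0 hp)
  have hspec := symSpec F ζ a P hζ hP hP0 hp ha
  rw [hs, ZMod.val_zero, pow_zero] at hspec
  -- in the residue field: `ā ^ N = 1`
  have hne : (Ideal.Quotient.mk P a) ≠ 0 := by
    rwa [Ne, Ideal.Quotient.eq_zero_iff_mem]
  have haN : Ideal.Quotient.mk P a ^ N = 1 := by
    rw [← map_pow, ← sub_eq_zero, ← map_one (Ideal.Quotient.mk P), ← map_sub,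
      Ideal.Quotient.eq_zero_iff_mem]
    exact hspec
  obtain ⟨g, hg⟩ := IsCyclic.exists_monoid_generator (α := (𝓞 F ⧸ P)ˣ)
  obtain ⟨m, hm⟩ := hg (Units.mk0 _ hne)
  have hord : orderOf g = p * N := by
    rw [orderOf_eq_card_of_forall_mem_powers hg, Nat.card_units, Nat.card_eq_fintype_card,
      hcard, hpN]
  have hgm : g ^ (m * N) = 1 := by
    rw [pow_mul]
    have hm' : g ^ m = Units.mk0 _ hne := hm
    rw [hm']
    ext
    simpa using haN
  have hdvd : p * N ∣ m * N := by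
    rw [← hord]
    exact orderOf_dvd_of_pow_eq_one hgm
  have hNpos : 0 < N := by
    rcases Nat.eq_zero_or_pos N with h0 | h0
    · exfalso
      rw [h0, mul_zero] at hord
      exact (orderOf_pos g).ne' hord
    · exact h0
  obtain ⟨m', rfl⟩ : p ∣ m := Nat.dvd_of_mul_dvd_mul_right hNpos hdvd
  obtain ⟨y, hy⟩ := Ideal.Quotient.mk_surjective (((g ^ m' : (𝓞 F ⧸ P)ˣ) : 𝓞 F ⧸ P))
  refine ⟨y, ?_⟩
  rw [← Ideal.Quotient.eq_zero_iff_mem, map_sub, map_pow, hy, sub_eq_zero]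
  have hm' : g ^ (p * m') = Units.mk0 _ hne := hm
  have := congrArg (fun u : (𝓞 F ⧸ P)ˣ => (u : 𝓞 F ⧸ P)) hm'
  simp only [Units.val_mk0] at this
  rw [← this, mul_comm, pow_mul]
  simp

end Fermat.Agent.S14C.Cross.SymBasicB
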