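import Fermat.Agent.S14C.Cross.GaussSymB

/-!
# S14C / Cross : [SymExt] — base change and Galois transport of the symbol

Leaves of `S14C/Cross/Plan.lean` proved here (all hypothesis-free):

* `symBase : Cross.SymBase p` — for `F / K` and a prime `P` of `F`,
  `sym_F(a, P) = f(P | P ∩ K) * sym_K(a, P ∩ K)`;
* `symGal : Cross.SymGal p` — if `σ ζ = ζ ^ c` and `P = σ⁻¹ Q` then
  `sym (σ a) Q = c * sym a P`;
* `eqLeaf : Cross.EqLeaf p` — for an `ω²`-eigen-element `α`: `sym α P = c * sym α Q`.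

Local basics: `pow_absNorm_sub_one_sub_one_mem` (Fermat's little theorem mod a prime),
`dvd_absNorm_sub_one`, `sym_spec`, `sym_eq_natCast_of_mem`, `transport_facts`.
-/

set_option autoImplicit false

open NumberField

namespace Fermat.Agent.S14C.Cross.SymExt

open Fermat.Agent.S14C.Cross.GaussSymB

section basics

variable {F : Type*} [Field F] [NumberField F]

/-- Fermat's little theorem in the residue field of a nonzero prime. -/
theorem pow_absNorm_sub_one_sub_one_mem (Q : Ideal (𝓞 F)) (hQ : Q.IsPrime) (hQ0 : Q ≠ ⊥)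
    {x : 𝓞 F} (hx : x ∉ Q) : x ^ (Ideal.absNorm Q - 1) - 1 ∈ Q := by
  classical
  have hmax : Q.IsMaximal := hQ.isMaximal hQ0
  let : Field (𝓞 F ⧸ Q) := Ideal.Quotient.field Q
  have : Finite (𝓞 F ⧸ Q) := Ideal.finiteQuotientOfFreeOfNeBot Q hQ0
  let : Fintype (𝓞 F ⧸ Q) := Fintype.ofFinite _
  have hcard : Fintype.card (𝓞 F ⧸ Q) = Ideal.absNorm Q := by
    rw [Ideal.absNorm_apply, Submodule.cardQuot_apply, Nat.card_eq_fintype_card]
  have hx' : Ideal.Quotient.mk Q x ≠ 0 := by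
    rwa [Ne, Ideal.Quotient.eq_zero_iff_mem]
  have := FiniteField.pow_card_sub_one_eq_one _ hx'
  rw [hcard] at this
  rw [← Ideal.Quotient.eq_zero_iff_mem, map_sub, map_pow, this, map_one, sub_self]

/-- `p ∣ N Q - 1` for a prime `Q ∌ p` of a field containing `ζ_p`. -/
theorem dvd_absNorm_sub_one {p : ℕ} (hp : p.Prime) {ζ : 𝓞 F} (hζ : IsPrimitiveRoot ζ p)
    (Q : Ideal (𝓞 F)) (hQ : Q.IsPrime) (hQ0 : Q ≠ ⊥) (hpQ : (p : 𝓞 F) ∉ Q) :
    p ∣ Ideal.absNorm Q - 1 := by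
  have := hQ
  have hζ' := isPrimitiveRoot_mk hp hζ Q hpQ
  have hζQ : ζ ∉ Q := by
    intro h
    have h1 : (1 : 𝓞 F) ∈ Q := by
      rw [← hζ.pow_eq_one]
      exact Q.pow_mem_of_mem h p hp.pos
    exact hQ.ne_top ((Ideal.eq_top_iff_one Q).mpr h1)
  have h1 := pow_absNorm_sub_one_sub_one_mem Q hQ hQ0 hζQ
  rw [← Ideal.Quotient.eq_zero_iff_mem, map_sub, map_pow, map_one, sub_eq_zero] at h1
  exact (hζ'.pow_eq_one_iff_dvd _).mp h1

/-- Existence and the defining congruence of the symbol. -/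
theorem sym_spec {p : ℕ} (hp : p.Prime) {ζ : 𝓞 F} (hζ : IsPrimitiveRoot ζ p) (a : 𝓞 F)
    (Q : Ideal (𝓞 F)) (hQ : Q.IsPrime) (hQ0 : Q ≠ ⊥) (hpQ : (p : 𝓞 F) ∉ Q) (ha : a ∉ Q) :
    a ^ ((Ideal.absNorm Q - 1) / p) - ζ ^ (sym p ζ a Q).val ∈ Q := by
  have := hQ
  have : NeZero p := ⟨hp.ne_zero⟩
  have hζ' := isPrimitiveRoot_mk hp hζ Q hpQ
  have hdvd := dvd_absNorm_sub_one hp hζ Q hQ hQ0 hpQ
  have h1 := pow_absNorm_sub_one_sub_one_mem Q hQ hQ0 ha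
  rw [← Ideal.Quotient.eq_zero_iff_mem, map_sub, map_pow, map_one, sub_eq_zero] at h1
  have h2 : (Ideal.Quotient.mk Q a ^ ((Ideal.absNorm Q - 1) / p)) ^ p = 1 := by
    rw [← pow_mul, Nat.div_mul_cancel hdvd, h1]
  obtain ⟨i, hi, hia⟩ := hζ'.eq_pow_of_pow_eq_one h2
  have hex : ∃ k : ZMod p, a ^ ((Ideal.absNorm Q - 1) / p) - ζ ^ k.val ∈ Q := by
    refine ⟨(i : ZMod p), ?_⟩
    rw [ZMod.val_natCast_of_lt hi, ← Ideal.Quotient.eq_zero_iff_mem, map_sub, map_pow, map_pow,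
      hia, sub_self]
  rw [sym, dif_pos hex]
  exact hex.choose_spec

/-- A congruence `a ^ ((N Q - 1) / p) ≡ ζ ^ n mod Q` with an arbitrary exponent `n : ℕ`
computes the symbol. -/
theorem sym_eq_natCast_of_mem {p : ℕ} (hp : p.Prime) {ζ : 𝓞 F} (hζ : IsPrimitiveRoot ζ p)
    (a : 𝓞 F) (Q : Ideal (𝓞 F)) (hQ : Q.IsPrime) (hpQ : (p : 𝓞 F) ∉ Q) (n : ℕ)
    (h : a ^ ((Ideal.absNorm Q - 1) / p) - ζ ^ n ∈ Q) : sym p ζ a Q = (n : ZMod p) := by
  have := hQ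
  have : NeZero p := ⟨hp.ne_zero⟩
  refine sym_eq_of_mem hp hζ a Q hpQ _ ?_
  have h1 : ζ ^ (n : ZMod p).val = ζ ^ n := by
    rw [ZMod.val_natCast, ← pow_eq_pow_mod n hζ.pow_eq_one]
  rw [h1]
  exact h

end basics

end Fermat.Agent.S14C.Cross.SymExt

namespace Fermat.Agent.S14C.Cross.SymExt

open Fermat.Agent.S14C.Cross.GaussSymB

/-- Leaf [SymBase] of `S14C/Cross/Plan.lean`: base change of the symbol. -/
theorem symBase {p : ℕ} [Fact p.Prime] : Cross.SymBase p := by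
  intro K F _ _ _ _ _ ζ a P hζ hP hP0 hpP haP
  have hp : p.Prime := Fact.out
  have : NeZero p := ⟨hp.ne_zero⟩
  have hinj : Function.Injective (algebraMap (𝓞 K) (𝓞 F)) :=
    FaithfulSMul.algebraMap_injective (𝓞 K) (𝓞 F)
  have hζF : IsPrimitiveRoot (algebraMap (𝓞 K) (𝓞 F) ζ) p := hζ.map_of_injective hinj
  have := hP
  have h𝔭 : (P.under (𝓞 K)).IsPrime := inferInstance
  have h𝔭0 : P.under (𝓞 K) ≠ ⊥ := fun h => hP0 (Ideal.eq_bot_of_comap_eq_bot h)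
  have hp𝔭 : (p : 𝓞 K) ∉ P.under (𝓞 K) := by
    intro h
    apply hpP
    have h' : algebraMap (𝓞 K) (𝓞 F) (p : 𝓞 K) ∈ P := h
    rwa [map_natCast] at h'
  have ha𝔭 : a ∉ P.under (𝓞 K) := fun h => haP h
  have hs := sym_spec hp hζ a _ h𝔭 h𝔭0 hp𝔭 ha𝔭
  have hdvd := dvd_absNorm_sub_one hp hζ _ h𝔭 h𝔭0 hp𝔭
  have hN : Ideal.absNorm (P.under (𝓞 K)) ^ P.inertiaDeg (𝓞 K) = Ideal.absNorm P :=
    Ideal.absNorm_pow_inertiaDeg (P.under (𝓞 K)) P
  set N := Ideal.absNorm (P.under (𝓞 K)) with hNdef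
  set f := P.inertiaDeg (𝓞 K) with hfdef
  set s := (sym p ζ a (P.under (𝓞 K))).val with hsdef
  have hN1 : 1 ≤ N := by
    rw [hNdef]
    refine Nat.one_le_iff_ne_zero.mpr ?_
    rw [Ne, Ideal.absNorm_eq_zero_iff]
    exact h𝔭0
  obtain ⟨e, he⟩ := hdvd
  -- geometric sum
  set E := ∑ i ∈ Finset.range f, N ^ i with hE
  have hgeom : E * (N - 1) + 1 = N ^ f := by
    have := geom_sum_mul_add (N - 1) f
    rwa [Nat.sub_add_cancel hN1] at this
  have hNp : ((N : ℕ) : ZMod p) = 1 := by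
    have h1 : N = p * e + 1 := by omega
    rw [h1]
    push_cast
    rw [ZMod.natCast_self, zero_mul, zero_add]
  have hEp : ((E : ℕ) : ZMod p) = (f : ZMod p) := by
    rw [hE]
    push_cast
    rw [hNp]
    simp
  have hexp : (Ideal.absNorm P - 1) / p = e * E := by
    rw [← hN, ← hgeom, Nat.add_sub_cancel, he]
    rw [show E * (p * e) = p * (e * E) by ring, Nat.mul_div_cancel_left _ hp.pos]
  have he' : (N - 1) / p = e := by
    rw [he, Nat.mul_div_cancel_left _ hp.pos]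
  rw [he'] at hs
  -- transport the congruence to `P` and raise it to the power `E`
  have h1 : Ideal.Quotient.mk P (algebraMap (𝓞 K) (𝓞 F) a) ^ e =
      Ideal.Quotient.mk P (algebraMap (𝓞 K) (𝓞 F) ζ) ^ s := by
    rw [← map_pow, ← map_pow, ← map_pow, ← map_pow, ← sub_eq_zero, ← map_sub, ← map_sub,
      Ideal.Quotient.eq_zero_iff_mem]
    exact hs
  have h2 : (algebraMap (𝓞 K) (𝓞 F) a) ^ ((Ideal.absNorm P - 1) / p) -
      (algebraMap (𝓞 K) (𝓞 F) ζ) ^ (s * E) ∈ P := by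
    rw [← Ideal.Quotient.eq_zero_iff_mem, map_sub, map_pow, map_pow, hexp, pow_mul, pow_mul, h1,
      sub_self]
  rw [sym_eq_natCast_of_mem hp hζF _ P hP hpP (s * E) h2]
  push_cast
  rw [hEp, hsdef, ZMod.natCast_zmod_val, mul_comm]

end Fermat.Agent.S14C.Cross.SymExt

namespace Fermat.Agent.S14C.Cross.SymExt

open Fermat.Agent.S14C.Cross.GaussSymB

section galois

variable {K : Type} [Field K] [NumberField K]

/-- The coercion of `σ • x`. -/
theorem coe_smul' (σ : K ≃ₐ[ℚ] K) (x : 𝓞 K) : ((σ • x : 𝓞 K) : K) = σ (x : K) := rfl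

/-- Data attached to `P = σ⁻¹ Q`: `P` is a nonzero prime not containing `p`, with the same
norm as `Q`. -/
theorem transport_facts {p : ℕ} (P Q : Ideal (𝓞 K)) (σ : K ≃ₐ[ℚ] K)
    (hQ : Q.IsPrime) (hQ0 : Q ≠ ⊥) (hpQ : (p : 𝓞 K) ∉ Q)
    (hPQ : ∀ x : 𝓞 K, x ∈ P ↔ σ • x ∈ Q) :
    P.IsPrime ∧ P ≠ ⊥ ∧ (p : 𝓞 K) ∉ P ∧ Ideal.absNorm P = Ideal.absNorm Q := by
  let e : 𝓞 K ≃+* 𝓞 K := MulSemiringAction.toRingEquiv (K ≃ₐ[ℚ] K) (𝓞 K) σ
  have he : ∀ x, e x = σ • x := fun x => rfl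
  have hcomap : P = Q.comap (e : 𝓞 K →+* 𝓞 K) := by
    ext x
    rw [Ideal.mem_comap]
    exact hPQ x
  have hP : P.IsPrime := by
    rw [hcomap]
    exact Ideal.comap_isPrime _ _
  have hmap : Q = P.map (e : 𝓞 K →+* 𝓞 K) := by
    rw [hcomap]
    exact (Ideal.map_comap_of_surjective _ e.surjective Q).symm
  refine ⟨hP, ?_, ?_, ?_⟩
  · intro h
    apply hQ0
    rw [hmap, h, Ideal.map_bot]
  · intro h
    apply hpQ
    have h1 := (hPQ _).mp h
    have h2 : σ • ((p : ℕ) : 𝓞 K) = ((p : ℕ) : 𝓞 K) := map_natCast e p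
    rwa [h2] at h1
  · have h1 := Nat.card_congr (Ideal.quotientEquiv P Q e hmap).toEquiv
    rw [Ideal.absNorm_apply, Submodule.cardQuot_apply, Ideal.absNorm_apply,
      Submodule.cardQuot_apply]
    exact h1

/-- `σ • ζ = ζ ^ c` in `𝓞 K`. -/
theorem smul_zeta {ζ : 𝓞 K} {σ : K ≃ₐ[ℚ] K} {c : ℕ} (hσζ : σ (ζ : K) = (ζ : K) ^ c) :
    σ • ζ = ζ ^ c := by
  apply RingOfIntegers.ext
  rw [coe_smul', hσζ]
  simp

/-- Leaf [SymGal] of `S14C/Cross/Plan.lean`: Galois transport of the symbol. -/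
theorem symGal {p : ℕ} [Fact p.Prime] : Cross.SymGal p := by
  intro K _ _ ζ a P Q σ c hζ hQ hQ0 hpQ hPQ haP hσζ
  have hp : p.Prime := Fact.out
  have : NeZero p := ⟨hp.ne_zero⟩
  obtain ⟨hP, hP0, hpP, hN⟩ := transport_facts P Q σ hQ hQ0 hpQ hPQ
  have hs := sym_spec hp hζ a P hP hP0 hpP haP
  have h1 := (hPQ _).mp hs
  rw [smul_sub, smul_pow', smul_pow', smul_zeta hσζ, hN, ← pow_mul] at h1
  rw [sym_eq_natCast_of_mem hp hζ _ Q hQ hpQ _ h1]
  push_cast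
  rw [ZMod.natCast_zmod_val]

end galois

end Fermat.Agent.S14C.Cross.SymExt

namespace Fermat.Agent.S14C.Cross.SymExt

open Fermat.Agent.S14C.Cross.GaussSymB

/-- Leaf [EqLeaf] of `S14C/Cross/Plan.lean`: equivariance of the symbol of an `ω²`-eigen-element. -/
theorem eqLeaf {p : ℕ} [Fact p.Prime] : Cross.EqLeaf p := by
  intro K _ _ ζ α P Q σ c hζ heig hQ hQ0 hpQ hαQ hαP hPQ hσζ
  have hp : p.Prime := Fact.out
  have : NeZero p := ⟨hp.ne_zero⟩
  obtain ⟨hP, hP0, hpP, hN⟩ := transport_facts P Q σ hQ hQ0 hpQ hPQ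
  have hgal := symGal K ζ α P Q σ c hζ hQ hQ0 hpQ hPQ hαP hσζ
  obtain ⟨y, hy⟩ := heig σ c hσζ
  have hσα : σ • α ∉ Q := fun h => hαP ((hPQ α).mpr h)
  -- the valuation of `y` at `Q` is `1`
  let v : IsDedekindDomain.HeightOneSpectrum (𝓞 K) := ⟨Q, hQ, hQ0⟩
  have hvα : v.valuation K (α : K) = 1 := v.valuation_eq_one_iff_notMem.mpr hαQ
  have hvσα : v.valuation K ((σ • α : 𝓞 K) : K) = 1 := v.valuation_eq_one_iff_notMem.mpr hσα
  have hvy : v.valuation K y = 1 := by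
    have h1 : v.valuation K y ^ p = 1 := by
      have h2 := congrArg (v.valuation K) hy
      rw [map_mul, map_pow, map_pow, hvα, one_pow, one_mul, ← coe_smul', hvσα] at h2
      exact h2.symm
    exact (pow_eq_one_iff_left hp.ne_zero).mp h1
  obtain ⟨n, d, hnd⟩ := v.exists_primeCompl_mul_eq_of_integer y hvy.le
  have hdQ : (d : 𝓞 K) ∉ Q := d.2
  -- the identity `d ^ p * σ α = α ^ (c ^ 2) * n ^ p` in `𝓞 K`
  have hid : (d : 𝓞 K) ^ p * (σ • α) = α ^ (c ^ 2) * n ^ p := by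
    apply FaithfulSMul.algebraMap_injective (𝓞 K) K
    have h1 : algebraMap (𝓞 K) K (σ • α) = σ (α : K) := rfl
    rw [map_mul, map_mul, map_pow, map_pow, map_pow, h1, hy, ← hnd]
    ring
  have hnQ : n ∉ Q := by
    intro h
    have h1 : (d : 𝓞 K) ^ p * (σ • α) ∈ Q := by
      rw [hid]
      exact Q.mul_mem_left _ (Q.pow_mem_of_mem h p hp.pos)
    rcases hQ.mem_or_mem h1 with h2 | h2
    · exact hdQ (hQ.mem_of_pow_mem p h2)
    · exact hσα h2
  -- exponents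
  obtain ⟨e, he⟩ := dvd_absNorm_sub_one hp hζ Q hQ hQ0 hpQ
  have he' : (Ideal.absNorm Q - 1) / p = e := by
    rw [he, Nat.mul_div_cancel_left _ hp.pos]
  have hs := sym_spec hp hζ α Q hQ hQ0 hpQ hαQ
  rw [he'] at hs
  have hd1 := pow_absNorm_sub_one_sub_one_mem Q hQ hQ0 hdQ
  have hn1 := pow_absNorm_sub_one_sub_one_mem Q hQ hQ0 hnQ
  rw [he] at hd1 hn1
  -- work in the quotient
  rw [← Ideal.Quotient.eq_zero_iff_mem, map_sub, sub_eq_zero] at hs hd1 hn1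
  rw [map_pow] at hs hd1 hn1
  rw [map_one] at hd1 hn1
  rw [map_pow] at hs
  have h3 : (σ • α) ^ ((Ideal.absNorm Q - 1) / p) - ζ ^ ((sym p ζ α Q).val * c ^ 2) ∈ Q := by
    rw [he', ← Ideal.Quotient.eq_zero_iff_mem, map_sub, sub_eq_zero, map_pow, map_pow]
    have h4 := congrArg (fun z => Ideal.Quotient.mk Q z ^ e) hid
    simp only [map_mul, map_pow, mul_pow] at h4
    rw [← pow_mul, hd1, one_mul, ← pow_mul (Ideal.Quotient.mk Q n), hn1, mul_one, ← pow_mul,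
      mul_comm (c ^ 2) e, pow_mul, hs, ← pow_mul] at h4
    exact h4
  have hsym2 := sym_eq_natCast_of_mem hp hζ _ Q hQ hpQ _ h3
  -- `c` is a unit mod `p`
  have hc : (c : ZMod p) ≠ 0 := by
    intro h0
    obtain ⟨m, hm⟩ := (ZMod.natCast_eq_zero_iff c p).mp h0
    have h5 : σ • ζ = 1 := by
      rw [smul_zeta hσζ, hm, pow_mul, hζ.pow_eq_one, one_pow]
    have h6 : ζ = 1 := by
      have := congrArg (fun z => σ⁻¹ • z) h5
      simpa using this
    exact hζ.ne_one hp.one_lt h6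
  rw [hgal] at hsym2
  push_cast at hsym2
  rw [ZMod.natCast_zmod_val] at hsym2
  apply mul_left_cancel₀ hc
  rw [hsym2]
  ring

end Fermat.Agent.S14C.Cross.SymExt
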