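import Mathlib
import Fermat.Agent.S14C.Cross.Plan
import Fermat.Agent.S14C.Cross.SymBasic

/-!
# S14, team T2 (crossing hedge), block [SymExt] (B seat)

`SymGal` (Galois transport of the symbol), `EqLeaf` (equivariance of the symbol of an
`ω²`-eigen-element) and `SymBase` (base change), statements in `Cross/Plan.lean`.
-/

set_option autoImplicit false
set_option linter.style.haveILetI false
set_option linter.unusedSectionVars false

open NumberField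

namespace Fermat.Agent.S14C.Cross.SymExtB

open Fermat.Agent.S14C Fermat.Agent.S14C.Cross Fermat.Agent.S14C.Cross.SymBasic

section galois

variable {K : Type} [Field K] [NumberField K]

/-- The ring automorphism of `𝓞 K` induced by `σ`. -/
noncomputable def sigmaEquiv (σ : K ≃ₐ[ℚ] K) : 𝓞 K ≃+* 𝓞 K :=
  MulSemiringAction.toRingEquiv (K ≃ₐ[ℚ] K) (𝓞 K) σ

theorem sigmaEquiv_apply (σ : K ≃ₐ[ℚ] K) (x : 𝓞 K) : sigmaEquiv σ x = σ • x := rfl

theorem coe_smul_eq (σ : K ≃ₐ[ℚ] K) (a : 𝓞 K) : ((σ • a : 𝓞 K) : K) = σ (a : K) := by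
  exact algebraMap.smul' σ a K

theorem smul_natCast (σ : K ≃ₐ[ℚ] K) (n : ℕ) : σ • (n : 𝓞 K) = (n : 𝓞 K) := by
  rw [← sigmaEquiv_apply, map_natCast]

/-- Transport data for `P = σ⁻¹ Q`. -/
theorem transport {P Q : Ideal (𝓞 K)} (σ : K ≃ₐ[ℚ] K)
    (hPQ : ∀ x : 𝓞 K, x ∈ P ↔ σ • x ∈ Q) (hQ : Q.IsPrime) (hQ0 : Q ≠ ⊥) :
    P.IsPrime ∧ P ≠ ⊥ ∧ Ideal.absNorm P = Ideal.absNorm Q := by
  have hcomap : P = Ideal.comap (sigmaEquiv σ) Q := by
    ext x
    rw [Ideal.mem_comap, sigmaEquiv_apply]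
    exact hPQ x
  have hmap : Q = Ideal.map ((sigmaEquiv σ : 𝓞 K ≃+* 𝓞 K) : 𝓞 K →+* 𝓞 K) P := by
    rw [hcomap]
    exact (Ideal.map_comap_of_surjective _ (sigmaEquiv σ).surjective Q).symm
  refine ⟨?_, ?_, ?_⟩
  · rw [hcomap]
    haveI := hQ
    exact Ideal.comap_isPrime _ Q
  · rintro rfl
    apply hQ0
    rw [hmap, Ideal.map_bot]
  · have e := Ideal.quotientEquiv P Q (sigmaEquiv σ) hmap
    rw [← natCard_quot, ← natCard_quot]
    exact Nat.card_congr e.toEquiv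

end galois

variable {p : ℕ} [Fact p.Prime]

theorem symGal : SymGal p := by
  intro K _ _ ζ a P Q σ c hζ hQ hQ0 hpQ hPQ ha hσ
  obtain ⟨hP, hP0, hN⟩ := transport σ hPQ hQ hQ0
  have hpP : (p : 𝓞 K) ∉ P := by
    intro h
    apply hpQ
    have := (hPQ _).mp h
    rwa [smul_natCast] at this
  have hσζ : σ • ζ = ζ ^ c := by
    apply RingOfIntegers.ext
    rw [coe_smul_eq, hσ]
    simp
  have hspec := symSpec K ζ a P hζ hP hP0 hpP ha
  apply symUnique K ζ (σ • a) Q _ hζ hQ hQ0 hpQ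
  have h1 := (hPQ _).mp hspec
  rw [smul_sub, smul_pow', smul_pow', hσζ, hN] at h1
  have hpow : ζ ^ ((c : ZMod p) * sym p ζ a P).val = (ζ ^ c) ^ (sym p ζ a P).val := by
    rw [← pow_mul]
    apply pow_eq_pow_of_natCast_eq hζ.pow_eq_one
    rw [ZMod.natCast_zmod_val, Nat.cast_mul, ZMod.natCast_zmod_val]
  rw [hpow]
  exact h1

/-- Clearing the denominator of a `Q`-unit `p`-th root: if `A = B * y ^ p` in `K` with
`A, B ∈ 𝓞 K` outside `Q`, then `A * d ^ p = B * n ^ p` with `n, d ∈ 𝓞 K` outside `Q`. -/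
theorem clear_denominator {K : Type} [Field K] [NumberField K] {Q : Ideal (𝓞 K)}
    (hQ : Q.IsPrime) (hQ0 : Q ≠ ⊥) {A B : 𝓞 K} (hA : A ∉ Q) (hB : B ∉ Q) {y : K}
    (hp0 : p ≠ 0) (h : (A : K) = (B : K) * y ^ p) :
    ∃ n d : 𝓞 K, n ∉ Q ∧ d ∉ Q ∧ A * d ^ p = B * n ^ p := by
  let v : IsDedekindDomain.HeightOneSpectrum (𝓞 K) := ⟨Q, hQ, hQ0⟩
  have hvA : v.valuation K (algebraMap (𝓞 K) K A) = 1 :=
    (IsDedekindDomain.HeightOneSpectrum.valuation_eq_one_iff_notMem (v := v)).mpr hA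
  have hvB : v.valuation K (algebraMap (𝓞 K) K B) = 1 :=
    (IsDedekindDomain.HeightOneSpectrum.valuation_eq_one_iff_notMem (v := v)).mpr hB
  have h' : algebraMap (𝓞 K) K A = algebraMap (𝓞 K) K B * y ^ p := h
  have hvy : v.valuation K y ^ p = 1 := by
    have := congrArg (v.valuation K) h'
    rw [map_mul, map_pow, hvA, hvB, one_mul] at this
    exact this.symm
  have hvy1 : v.valuation K y = 1 := (pow_eq_one_iff.mp hvy).resolve_right hp0
  obtain ⟨n, d, hnd⟩ := v.exists_primeCompl_mul_eq_of_integer y hvy1.le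
  have hd : (d : 𝓞 K) ∉ Q := d.2
  have heq : A * (d : 𝓞 K) ^ p = B * n ^ p := by
    apply FaithfulSMul.algebraMap_injective (𝓞 K) K
    rw [map_mul, map_mul, map_pow, map_pow, ← hnd, mul_pow, ← mul_assoc, ← h']
  refine ⟨n, d, ?_, hd, heq⟩
  intro hn
  have h1 : B * n ^ p ∈ Q := Q.mul_mem_left _ (Ideal.pow_mem_of_mem Q hn p (Nat.pos_of_ne_zero hp0))
  rw [← heq] at h1
  rcases hQ.mem_or_mem h1 with h2 | h2
  · exact hA h2
  · exact hd (hQ.mem_of_pow_mem p h2)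

theorem eqLeaf : EqLeaf p := by
  intro K _ _ ζ α P Q σ c hζ hα hQ hQ0 hpQ hαQ hαP hPQ hσ
  have hp : p.Prime := Fact.out
  have hgal := symGal K ζ α P Q σ c hζ hQ hQ0 hpQ hPQ hαP hσ
  obtain ⟨y, hy⟩ := hα σ c hσ
  have hσα : σ • α ∉ Q := fun h => hαP ((hPQ α).mpr h)
  have hαc : α ^ (c ^ 2) ∉ Q := fun h => hαQ (hQ.mem_of_pow_mem _ h)
  have hy' : ((σ • α : 𝓞 K) : K) = ((α ^ (c ^ 2) : 𝓞 K) : K) * y ^ p := by
    rw [coe_smul_eq, hy]
    push_cast
    rfl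
  obtain ⟨n, d, hn, hd, hnd⟩ := clear_denominator hQ hQ0 hσα hαc hp.ne_zero hy'
  have hdp : d ^ p ∉ Q := fun h => hd (hQ.mem_of_pow_mem _ h)
  have hnp : n ^ p ∉ Q := fun h => hn (hQ.mem_of_pow_mem _ h)
  have h1 : sym p ζ (σ • α * d ^ p) Q = sym p ζ (σ • α) Q := by
    rw [symMul K ζ _ _ Q hζ hQ hQ0 hpQ hσα hdp, symPow K ζ d Q p hζ hQ hQ0 hpQ hd]
    simp
  have h2 : sym p ζ (α ^ (c ^ 2) * n ^ p) Q = ((c ^ 2 : ℕ) : ZMod p) * sym p ζ α Q := by
    rw [symMul K ζ _ _ Q hζ hQ hQ0 hpQ hαc hnp, symPow K ζ n Q p hζ hQ hQ0 hpQ hn,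
      symPow K ζ α Q (c ^ 2) hζ hQ hQ0 hpQ hαQ]
    simp
  rw [hnd, h2] at h1
  -- `c` is invertible mod `p`
  have hc : (c : ZMod p) ≠ 0 := by
    intro hc0
    rw [ZMod.natCast_eq_zero_iff] at hc0
    obtain ⟨m, rfl⟩ := hc0
    have h3 : σ (ζ : K) = 1 := by
      rw [hσ, pow_mul]
      have : (ζ : K) ^ p = 1 := by
        have := congrArg (fun z : 𝓞 K => (z : K)) hζ.pow_eq_one
        simpa using this
      rw [this, one_pow]
    have h4 : (ζ : K) = 1 := by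
      have := σ.injective (h3.trans (map_one σ).symm)
      exact this
    have h5 : ζ = 1 := RingOfIntegers.ext (by simpa using h4)
    exact hζ.ne_one hp.one_lt h5
  have h6 : (c : ZMod p) * sym p ζ α P = (c : ZMod p) * ((c : ZMod p) * sym p ζ α Q) := by
    rw [← hgal, ← h1]
    push_cast
    ring
  exact mul_left_cancel₀ hc h6

end Fermat.Agent.S14C.Cross.SymExtB
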