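import Fermat.Agent.S14C.Cross.Plan
import Fermat.Agent.S14C.Cross.Recip

/-!
# Crossing hedge, block [Top]: `KummerVanishing p` from the crossing leaves

`PropX` + `ZSym` + `FIX` give reciprocity (`Recip.recip`); applied to the Jacobi sum `J` of a
degree-one prime `Q` (`JacTop`) and combined with the equivariance of the symbol (`EqLeaf`) this
gives `((p² - 1) / 8) · sym α Q = 0` for every degree-one prime `Q ∤ m`, contradicting `ZSym`.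
-/

set_option autoImplicit false

open NumberField

namespace Fermat.Agent.S14C.Top

open Fermat.Agent.S14C Fermat.Agent.S14C.EvalI Fermat.Agent.S14C.Cross

theorem sum_Icc_mul_two (n : ℕ) : (∑ c ∈ Finset.Icc 1 n, c) * 2 = n * (n + 1) := by
  induction n with
  | zero => simp
  | succ n ih =>
    rw [Finset.sum_Icc_succ_top (by omega), add_mul, ih]
    ring

/-- `∑_{c=1}^{n} c` is a unit mod `p` for `n = (p-1)/2`, `p` an odd prime. -/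
theorem sum_Icc_ne_zero {p : ℕ} [Fact p.Prime] (hp2 : p ≠ 2) :
    (∑ c ∈ Finset.Icc 1 ((p - 1) / 2), (c : ZMod p)) ≠ 0 := by
  have hp : p.Prime := Fact.out
  have hodd : p % 2 = 1 := hp.eq_two_or_odd.resolve_left hp2
  have h3 : 3 ≤ p := by
    have := hp.two_le
    omega
  set n := (p - 1) / 2 with hn
  have hcast : (∑ c ∈ Finset.Icc 1 n, (c : ZMod p)) = ((∑ c ∈ Finset.Icc 1 n, c : ℕ) : ZMod p) := by
    push_cast; rfl
  rw [hcast]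
  intro h0
  have h1 : (((∑ c ∈ Finset.Icc 1 n, c) * 2 : ℕ) : ZMod p) = 0 := by
    rw [Nat.cast_mul, h0, zero_mul]
  rw [sum_Icc_mul_two, ZMod.natCast_eq_zero_iff] at h1
  rcases (Nat.Prime.dvd_mul hp).mp h1 with h | h
  · have := Nat.le_of_dvd (by omega) h
    omega
  · have := Nat.le_of_dvd (by omega) h
    omega

/-- **[Top]**: the crossing leaves imply `KummerVanishing p`. -/
theorem kummerVanishing_of_cross {p : ℕ} [Fact p.Prime] (hp2 : p ≠ 2) (hZ : ZSym p) (hFI : FIX p)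
    (hX : PropX p) (hJ : JacTop p) (hE : EqLeaf p) : Fermat.Agent.S14Tr.KummerVanishing p := by
  intro K _ _ _ ζ hζ α hα0 hsing heq hloc
  by_contra hnot
  have hp : p.Prime := Fact.out
  have hI0 : Ideal.span ({α} : Set (𝓞 K)) ≠ ⊥ := by
    rw [Ne, Ideal.span_singleton_eq_bot]; exact hα0
  set N := Ideal.absNorm (Ideal.span ({α} : Set (𝓞 K))) with hNdef
  have hN0 : N ≠ 0 := by
    rw [hNdef, Ne, Ideal.absNorm_eq_zero_iff]; exact hI0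
  have hNmem : (N : 𝓞 K) ∈ Ideal.span ({α} : Set (𝓞 K)) := Ideal.absNorm_mem _
  obtain ⟨β, hβ⟩ := Ideal.mem_span_singleton'.mp hNmem
  set m := p * N with hmdef
  have hm : m ≠ 0 := Nat.mul_ne_zero hp.ne_zero hN0
  have hpm : p ∣ m := Dvd.intro _ rfl
  have hαm : ∀ P : Ideal (𝓞 K), P.IsPrime → α ∈ P → (m : 𝓞 K) ∈ P := by
    intro P _ hαP
    rw [hmdef, Nat.cast_mul]
    apply P.mul_mem_left
    rw [← hβ]
    exact P.mul_mem_left _ hαP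
  have hX' : ∀ Θ : Ideal (𝓞 K) → ZMod p, InX p ζ α m Θ →
      ∀ (P₁ P₂ : Ideal (𝓞 K)) (q₁ q₂ : ℕ), P₁.IsPrime → P₂.IsPrime → P₁ ≠ ⊥ → P₂ ≠ ⊥ →
        q₁.Prime → q₂.Prime → q₁ ≠ q₂ → (q₁ : 𝓞 K) ∈ P₁ → (q₂ : 𝓞 K) ∈ P₂ →
        (m : 𝓞 K) ∉ P₁ → (m : 𝓞 K) ∉ P₂ → sym p ζ α P₁ ≠ 0 → sym p ζ α P₂ ≠ 0 →
        Θ P₁ * sym p ζ α P₂ = Θ P₂ * sym p ζ α P₁ := by
    intro Θ hΘ P₁ P₂ q₁ q₂ hP₁ hP₂ h10 h20 hq₁ hq₂ hne hm1 hm2 hmP₁ hmP₂ hs₁ hs₂
    exact hX K ζ α m Θ P₁ P₂ q₁ q₂ hζ hpm hαm hΘ hP₁ h10 hmP₁ hP₂ h20 hmP₂ hq₁ hq₂ hne hm1 hm2 hs₁ hs₂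
  have hnot' : ¬ ∃ y : K, (α : K) = y ^ p := hnot
  have hrec := Recip.recip ζ α m hm hpm hαm hζ hα0 hnot' hsing hloc hZ hFI hX'
  -- a degree-one prime with nontrivial symbol
  obtain ⟨Q, q, hQ, hQ0, hq, hNQ, hqT, hqp, hαQ, hs⟩ := hZ K ζ α hζ hnot' m.primeFactors
  have hqQ : (q : 𝓞 K) ∈ Q := by rw [← hNQ]; exact Ideal.absNorm_mem Q
  have hqm : ¬ q ∣ m := fun h => hqT (Nat.mem_primeFactors.mpr ⟨hq, h, hm⟩)
  have hmemQ : ∀ n : ℕ, (n : 𝓞 K) ∈ Q ↔ q ∣ n :=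
    Recip.natCast_mem_iff_of_absNorm_prime Q hQ hq hqQ
  have hpQ : (p : 𝓞 K) ∉ Q := by
    intro h
    have := (hmemQ p).mp h
    exact hqp ((Nat.prime_dvd_prime_iff_eq hq hp).mp this)
  -- the Jacobi sum
  obtain ⟨J, Pc, hJq, hfac, hPc⟩ := hJ K ζ Q q hζ hQ hq hNQ hqp
  have hcop : IsCoprime J (m : 𝓞 K) := by
    have hcop' : IsCoprime (q : 𝓞 K) (m : 𝓞 K) := by
      have h1 : Nat.Coprime q m := (Nat.Prime.coprime_iff_not_dvd hq).mpr hqm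
      exact Nat.Coprime.cast h1
    exact hcop'.of_isCoprime_of_dvd_left hJq
  have h0 := hrec J hcop
  unfold evalI at h0
  rw [hfac, Multiset.map_map] at h0
  have hsumform : ((Multiset.Icc 1 ((p - 1) / 2)).map (sym p ζ α ∘ Pc)).sum =
      ∑ c ∈ Finset.Icc 1 ((p - 1) / 2), sym p ζ α (Pc c) := rfl
  rw [hsumform] at h0
  have hterm : ∀ c ∈ Finset.Icc 1 ((p - 1) / 2),
      sym p ζ α (Pc c) = (c : ZMod p) * sym p ζ α Q := by
    intro c hc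
    obtain ⟨σ, hσ, hmem⟩ := hPc c hc
    have hαPc : α ∉ Pc c := by
      intro hα
      have h1 : σ • α ∈ Q := (hmem α).mp hα
      have h2 : σ • (β * α) ∈ Q := by
        rw [smul_mul']
        exact Q.mul_mem_left _ h1
      rw [hβ] at h2
      have h3 : σ • ((N : ℕ) : 𝓞 K) = ((N : ℕ) : 𝓞 K) :=
        map_natCast (MulSemiringAction.toRingHom (K ≃ₐ[ℚ] K) (𝓞 K) σ) N
      rw [h3] at h2
      have h4 : q ∣ N := (hmemQ N).mp h2
      exact hqm (Dvd.dvd.mul_left h4 p)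
    exact hE K ζ α (Pc c) Q σ c hζ heq hQ hQ0 hpQ hαQ hαPc hmem hσ
  rw [Finset.sum_congr rfl hterm, ← Finset.sum_mul] at h0
  rcases mul_eq_zero.mp h0 with h | h
  · exact sum_Icc_ne_zero hp2 h
  · exact hs h

end Fermat.Agent.S14C.Top
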