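import Fermat.Agent.S14C.Cross.Plan

/-!
# Crossing hedge: `ZSym p` (XDefs form of the zeta-pole lemma) from the S14Z form

`PrimeNonresidue p` is the statement of `Fermat.Agent.S14Z.exists_prime_nonresidue`
(file `S14Z/ZetaKummer.lean`), quantified over all number fields of universe `Type`.
-/

set_option autoImplicit false

open NumberField IsDedekindDomain

namespace Fermat.Agent.S14C.ZSymX

open Fermat.Agent.S14C Fermat.Agent.S14C.Cross

/-- The (Z) input in the shape provided by `S14Z/ZetaKummer.lean` (`exists_prime_nonresidue`). -/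
def PrimeNonresidue (p : ℕ) : Prop :=
  ∀ (K : Type) [Field K] [NumberField K] (ζ a : 𝓞 K), IsPrimitiveRoot ζ p →
    (¬ ∃ x : K, x ^ p = (a : K)) → ∀ T₀ : Finset (HeightOneSpectrum (𝓞 K)),
    ∃ v : HeightOneSpectrum (𝓞 K), v ∉ T₀ ∧ (Ideal.absNorm v.asIdeal).Prime ∧
      (p : 𝓞 K) ∉ v.asIdeal ∧ a ∉ v.asIdeal ∧ ¬ ∃ x : 𝓞 K, x ^ p - a ∈ v.asIdeal

theorem finite_absNorm_mem {K : Type} [Field K] [NumberField K] (T : Finset ℕ) :
    {v : HeightOneSpectrum (𝓞 K) | Ideal.absNorm v.asIdeal ∈ T}.Finite := by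
  have h1 : {I : Ideal (𝓞 K) | Ideal.absNorm I ∈ T}.Finite := by
    have : {I : Ideal (𝓞 K) | Ideal.absNorm I ∈ T} = ⋃ n ∈ T, {I : Ideal (𝓞 K) | Ideal.absNorm I = n} := by
      ext I; simp
    rw [this]
    exact Set.Finite.biUnion T.finite_toSet (fun n _ => Ideal.finite_setOfPred_absNorm_eq n)
  have hinj : Function.Injective (fun v : HeightOneSpectrum (𝓞 K) => v.asIdeal) := by
    intro v w h
    exact HeightOneSpectrum.ext h
  exact (h1.preimage hinj.injOn :
    ((fun v : HeightOneSpectrum (𝓞 K) => v.asIdeal) ⁻¹' {I | Ideal.absNorm I ∈ T}).Finite)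

theorem zSym {p : ℕ} [Fact p.Prime] (hNR : PrimeNonresidue p) (hS0 : SymZero p) : ZSym p := by
  intro F _ _ ζ a hζ ha T
  have ha' : ¬ ∃ x : F, x ^ p = (a : F) := fun ⟨x, hx⟩ => ha ⟨x, hx.symm⟩
  obtain ⟨v, hvT, hprime, hpv, hav, hnr⟩ :=
    hNR F ζ a hζ ha' (finite_absNorm_mem (K := F) (insert p T)).toFinset
  have hvT' : Ideal.absNorm v.asIdeal ∉ insert p T := by
    intro h
    exact hvT ((Set.Finite.mem_toFinset _).mpr h)
  refine ⟨v.asIdeal, Ideal.absNorm v.asIdeal, v.isPrime, v.ne_bot, hprime, rfl, ?_, ?_, hav, ?_⟩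
  · exact fun h => hvT' (Finset.mem_insert_of_mem h)
  · exact fun h => hvT' (h ▸ Finset.mem_insert_self p T)
  · intro hs
    obtain ⟨y, hy⟩ := hS0 F ζ a v.asIdeal hζ v.isPrime v.ne_bot hpv hav hs
    apply hnr
    refine ⟨y, ?_⟩
    have : y ^ p - a = -(a - y ^ p) := by ring
    rw [this]
    exact v.asIdeal.neg_mem hy

end Fermat.Agent.S14C.ZSymX
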